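import Fermat.Agent.SSH.Inst

/-!
# The semistable structure over a field of constants which is not algebraically closed
-/

set_option autoImplicit false
set_option linter.unusedSectionVars false
set_option linter.style.haveILetI false

open UpperHalfPlane ModularForm Complex Matrix.SpecialLinearGroup
open scoped MatrixGroups Manifold
open Fermat.Agent.AL Fermat.Agent.ALCoh Fermat.Agent.KumG Fermat.Agent.Cov CongruenceSubgroup
  ModularCurve Fermat.Agent.ModPoly Fermat.Agent.GamH Polynomial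
  IntermediateField Fermat.Agent.RedMod Fermat.Agent.Red AlgebraicCurve Fermat.Agent.RR
  Fermat.Agent.SSH

namespace Fermat.Agent.E2

noncomputable section

variable {A K k : Type*} [CommRing A] [IsDomain A] [ValuationRing A]
  [Field K] [CharZero K] [Algebra ℚ K] [Algebra A K] [IsFractionRing A K]
  [Field k] [IsAlgClosed k] [Algebra A k]
  (ι : K →+* ℂ) (hk : Function.Surjective (algebraMap A k)) {M : ℕ} [NeZero M]
  (hM : (M : k) ≠ 0) (hM3 : 3 ≤ M) {H : Subgroup (ZMod M)ˣ} [hH : Fact ((-1 : (ZMod M)ˣ) ∈ H)]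

section Fin

include ι in
theorem rkq0 {Γ : Subgroup SL(2, ℤ)} [LvlG Γ] [RatG Γ] (h : jqModC K ∈ FG Γ K) :
    Module.finrank K⟮(⟨jqModC K, h⟩ : FG Γ K)⟯ (FG Γ K) = Γ.index := by
  have h1 := finrank_eq Γ K ι
  have h2 : MFLib.idx Γ = Γ.index := by
    rw [Subgroup.index, Nat.card_eq_fintype_card]
  rw [h2] at h1
  exact h1

include ι in
theorem finq0 {Γ : Subgroup SL(2, ℤ)} [LvlG Γ] [RatG Γ] (h : jqModC K ∈ FG Γ K) :
    FiniteDimensional K⟮(⟨jqModC K, h⟩ : FG Γ K)⟯ (FG Γ K) := (finite_and_le Γ K ι).1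

end Fin

include ι hk hM3 in
/-- the Gauss data at level `M` -/
theorem gp0 : GP A (FG (GH M H) K) (FH k M H) (yF hM H) where
  hk := hk
  jK := FH_le_FG hM3 hH.out jq_mem_FH
  jk := jq_mem_FH
  yK p := FH_le_FG hM3 hH.out (yF_mem hM K p)
  yk := yF_mem hM k
  indep := LIZ_yF hM hM3 hH.out
  fin := finq0 ι _
  rk := by
    rw [Fintype.card_prod, Fintype.card_fin, Fintype.card_fin, ← index_GH]
    exact rkq0 ι _

include hk hM hM3 in
/-- degrees on the special fibre -/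
theorem fin_k : FiniteDimensional k⟮(⟨jqModC k, jq_mem_FH⟩ : FH k M H)⟯ (FH k M H) ∧
    Module.finrank k⟮(⟨jqModC k, jq_mem_FH⟩ : FH k M H)⟯ (FH k M H) =
      Fintype.card (Fin (dedekindPsi M) × Fin H.index) := by
  refine ⟨(FH_data hM hM3 hH.out).1, ?_⟩
  rw [Fintype.card_prod, Fintype.card_fin, Fintype.card_fin]
  exact (FH_data hM hM3 hH.out).2.2

section Theta

variable {γ : SL(2, ℤ)} (hγ : γ ∈ Gamma0 M)

include hM3 in
theorem mono_mem0 {w : LaurentSeries ℤ} (hw : w ∈ Mono M) : cst K w ∈ FG (GH M H) K :=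
  FH_le_FG hM3 hH.out (FF_le_FH (cst_mem_FF hw))

include hM3 in
theorem z_mem0 (a : (ZMod M)ˣ) : cst K (zs H a) ∈ FG (GH M H) K :=
  cst_mem_FG (z_mem_MFunG (by omega) a)

include hM3 in
theorem diaE_y0 {u : (ZMod M)ˣ} (hu : dd M γ = u) (p : Fin (dedekindPsi M) × Fin H.index)
    (h : cst K (yF hM H p) ∈ FG (GH M H) K) :
    (diaE (Γ := GH M H) ι hγ ⟨cst K (yF hM H p), h⟩ : LaurentSeries K) =
      cst K (monos hM p.1 * zs H u⁻¹ ^ (p.2 : ℕ)) := by
  have h1 := mono_mem0 (K := K) (H := H) hM3 (monos_mem hM p.1)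
  have h2 := z_mem0 (K := K) (H := H) hM3 1
  have e : (⟨cst K (yF hM H p), h⟩ : FG (GH M H) K) = ⟨_, h1⟩ * ⟨_, h2⟩ ^ (p.2 : ℕ) := by
    apply Subtype.ext
    change cst K (yF hM H p) = cst K (monos hM p.1) * cst K (zs H 1) ^ (p.2 : ℕ)
    rw [yF, cst, map_mul, map_pow]
  have e1 := diaE_mono (K := K) (H := H) ι hγ (monos_mem hM p.1) h1
  have e2 := diaE_z (K := K) ι (by omega) hγ hu 1 h2
  rw [one_mul] at e2
  rw [e, map_mul, map_pow]
  change (diaE (Γ := GH M H) ι hγ ⟨_, h1⟩ : LaurentSeries K) *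
    (diaE (Γ := GH M H) ι hγ ⟨_, h2⟩ : LaurentSeries K) ^ (p.2 : ℕ) = _
  rw [e1, e2, cst, cst, cst, map_mul, map_pow]

theorem cst_mem_WL0 (w : LaurentSeries ℤ) : cst K w ∈ WL A K k := by
  have h2 : cst K w = incL A K (cst A w) := (coeffMap_cst _ _).symm
  rw [h2]
  exact incL_mem _

theorem exists_θb0 (hγ : γ ∈ Gamma0 M) :
    ∃ θb : FH k M H ≃ₐ[k] FH k M H, ∀ (x : FG (GH M H) K)
    (h : (x : LaurentSeries K) ∈ WL A K k),
      ∃ h' : (diaE (Γ := GH M H) ι hγ x : LaurentSeries K) ∈ WL A K k,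
        πL A K k ⟨diaE (Γ := GH M H) ι hγ x, h'⟩ =
          (θb ⟨πL A K k ⟨x, h⟩, (gp0 ι hk hM hM3).πL_mem x⟩ : LaurentSeries k) := by
  refine exists_desc (gp0 ι hk hM hM3) (fin_k (A := A) hk hM hM3).1
    (fin_k (A := A) hk hM hM3).2
    (diaE (Γ := GH M H) ι hγ) (diaE_j ι hγ _) ?_ ?_
  · intro p
    obtain ⟨u, hu⟩ := exists_unit_dd hγ
    rw [diaE_y0 ι hM hM3 hγ hu]
    exact cst_mem_WL0 _
  · intro p
    obtain ⟨u, hu⟩ := exists_unit_dd (inv_mem hγ)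
    have e : ((diaE (Γ := GH M H) ι hγ).symm ⟨cst K (yF hM H p),
      (gp0 (A := A) ι hk hM hM3).yK p⟩ : LaurentSeries K) =
        (diaE (Γ := GH M H) ι (inv_mem hγ) ⟨cst K (yF hM H p), (gp0 (A := A) ι hk hM hM3).yK p⟩ :
          LaurentSeries K) := rfl
    rw [e, diaE_y0 ι hM hM3 (inv_mem hγ) hu]
    exact cst_mem_WL0 _

end Theta

variable {q : ℕ} [hq : Fact q.Prime] (D : WData q M H)

/-- the diamond operators -/
def diaD0 {γ : SL(2, ℤ)} (hγ : γ ∈ Gamma0 (q * M)) :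
    Dia (FG (Gq q M H) K) (gp0 (A := A) (k := k) ι hk hM hM3) (incl_le K) (wE ι D hM3) where
  D := diaE (Γ := Gq q M H) ι hγ
  θ := diaE (Γ := GH M H) ι (mem_M hγ)
  θb := (exists_θb0 ι hk hM hM3 (mem_M hγ)).choose
  D_inc := diaE_incl ι hγ
  D_w := diaE_wE ι D hM3 hγ
  θ_j := diaE_j ι (mem_M hγ) _
  red := (exists_θb0 ι hk hM hM3 (mem_M hγ)).choose_spec
  red' x h := by
    have hs := (exists_θb0 (H := H) ι hk hM hM3 (mem_M hγ)).choose_spec
    set θb := (exists_θb0 (H := H) ι hk hM hM3 (mem_M hγ)).choose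
    obtain ⟨θb', hθ'⟩ := exists_θb0 (H := H) ι hk hM hM3 (inv_mem (mem_M hγ))
    have h1 : ((diaE (Γ := GH M H) ι (mem_M hγ)).symm x : LaurentSeries K) ∈ WL A K k :=
      (hθ' x h).choose
    refine ⟨h1, ?_⟩
    obtain ⟨h2, h3⟩ := hs ((diaE (Γ := GH M H) ι (mem_M hγ)).symm x) h1
    have e : (diaE (Γ := GH M H) ι (mem_M hγ)) ((diaE (Γ := GH M H) ι (mem_M hγ)).symm x) = x :=
      AlgEquiv.apply_symm_apply _ _
    have h4 : πL A K k ⟨_, h2⟩ = πL A K k ⟨x, h⟩ := πL_congr (by rw [e]) _ _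
    rw [h4] at h3
    have h5 : (⟨πL A K k ⟨x, h⟩, (gp0 (A := A) ι hk hM hM3).πL_mem x⟩ : FH k M H) =
        θb ⟨πL A K k ⟨_, h1⟩, (gp0 (A := A) ι hk hM hM3).πL_mem _⟩ := Subtype.ext h3
    rw [h5, AlgEquiv.symm_apply_apply]

theorem w_inc0 (x : FG (GH M H) K) :
    (wE ι D hM3 (IntermediateField.inclusion (incl_le K) x) : LaurentSeries K) =
      qExpand K q (diaE (Γ := GH M H) ι (mem_M (exists_γ0 D).choose_spec.1) x :
        LaurentSeries K) := by
  have h1 := diaK_congr (Γ := GH M H) ι (mem_M (exists_γ0 D).choose_spec.1) (sQ_mem D.h)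
      (exists_γ0 D).choose_spec.2 x
  rw [diaE_apply, h1]
  exact wE_level ι D hM3 x

variable (hqM : ¬ q ∣ M) [CharP k q]

/-- **The semistable structure** of level `Γ₀(q) ∩ Γ_H(M)`. -/
def ssd0 : SSD A (FG (GH M H) K) (FG (Gq q M H) K) (FH k M H) (yF hM H) q where
  G := gp0 (A := A) (k := k) ι hk hM hM3
  hle := incl_le K
  w := wE ι D hM3
  w_w := wE_wE ι D hM3
  δ := diaD0 ι hk hM hM3 D (exists_γ0 D).choose_spec.1
  w_inc := w_inc0 ι hM3 D
  E_exp := FH_exp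
  E_gal := FH_cstab
  finq := finq0 ι _
  rkq := by
    rw [index_eq hqM]
    exact rkq0 ι _

end

end Fermat.Agent.E2
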