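import Fermat.Agent.E2.Slope2
import Fermat.Agent.E2.Inst0
import Fermat.Agent.SSH.Setting

/-!
# The two component model at the level `Γ₀(q) ∩ Γ_H(M)`
-/

set_option autoImplicit false
set_option linter.unusedSectionVars false
set_option linter.style.haveILetI false

open UpperHalfPlane ModularForm Complex Matrix.SpecialLinearGroup
open scoped MatrixGroups Manifold
open Fermat.Agent.AL Fermat.Agent.ALCoh Fermat.Agent.KumG Fermat.Agent.Cov CongruenceSubgroup
  ModularCurve Fermat.Agent.ModPoly Fermat.Agent.GamH Polynomial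
  IntermediateField Fermat.Agent.RedMod Fermat.Agent.Red AlgebraicCurve Fermat.Agent.RR
  Fermat.Agent.SSH

namespace Fermat.Agent.E2

noncomputable section

attribute [local instance 10000] fastAlg

section WEmb

variable {K Ω : Type*} [Field K] [CharZero K] [Field Ω] [IsAlgClosed Ω] [CharZero Ω]
  [Algebra K Ω] [Algebra ℚ K] [Algebra ℚ Ω] (ι : Ω →+* ℂ) {q M : ℕ} [hq : Fact q.Prime]
  [NeZero M] {H : Subgroup (ZMod M)ˣ} [hH : Fact ((-1 : (ZMod M)ˣ) ∈ H)]
  (D : WData q M H) (hM3 : 3 ≤ M)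

theorem wE_emb (x : FG (Gq q M H) K) :
    wE ι D hM3 (emb K Ω (Gq q M H) x) =
      emb K Ω (Gq q M H) (wE (ι.comp (algebraMap K Ω)) D hM3 x) := by
  apply Subtype.ext
  apply coeffMap_inj ι
  rw [coe_wE, coe_emb, coeffMap_coeffMap, coe_emb, coeffMap_coeffMap, coe_wE]

end WEmb

section Set

variable {A₀ K₀ A K k : Type*} [CommRing A₀] [IsDomain A₀] [IsDiscreteValuationRing A₀] [Field K₀]
  [CharZero K₀] [Algebra ℚ K₀]
  [Algebra A₀ K₀] [IsFractionRing A₀ K₀] [CommRing A] [IsDomain A] [ValuationRing A]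
  [Field K] [IsAlgClosed K] [CharZero K] [Algebra ℚ K] [Algebra A K] [IsFractionRing A K]
  [Field k] [IsAlgClosed k] [Algebra A k] [Algebra A₀ k] [Algebra K₀ K]
  {q M : ℕ} [hq : Fact q.Prime] [NeZero M]
  {H : Subgroup (ZMod M)ˣ} [hH : Fact ((-1 : (ZMod M)ˣ) ∈ H)] [CharP k q] [PerfectRing k q]
  [Algebra.IsAlgebraic K₀ K]

variable (A₀ K₀ A K k q M H) in
/-- the setting, with a discrete valuation ring -/
structure Set2 extends Setting A K k q M H where
  B : BExt A₀ K₀ A K k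
  hk₀ : Function.Surjective (algebraMap A₀ k)
  q_ne : (q : A₀) ≠ 0
  hd : ∀ a : A₀, algebraMap A₀ k a = 0 → ∃ b, a = (q : A₀) * b
  hfix : ∀ x : K, (∀ σ : K ≃ₐ[K₀] K, σ x = x) → x ∈ Set.range (algebraMap K₀ K)

namespace Set2

variable (s : Set2 A₀ K₀ A K k q M H)

/-- the embedding of the small field in `ℂ` -/
def ι₀ : K₀ →+* ℂ := s.ι.comp (algebraMap K₀ K)

/-- the semistable structure over the small field -/
def S₀ : SSD A₀ (FG (GH M H) K₀) (FG (Gq q M H) K₀) (FH k M H) (yF s.hM H) q :=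
  ssd0 (A := A₀) (k := k) s.ι₀ s.hk₀ s.hM s.hM3 s.D s.hqM

/-- the extension of semistable structures -/
def X : SExt s.S₀ s.toSetting.S where
  B := s.B
  DM := desc (GH M H) s.hfix
  Dq := desc (Gq q M H) s.hfix
  coeM _ := rfl
  coeq _ := rfl
  w x := wE_emb s.ι s.D s.hM3 x
  q_ne := s.q_ne
  hd := s.hd

end Set2

end Set

end

end Fermat.Agent.E2
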