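import Fermat.Agent.SSH.WK
import Fermat.Agent.CarE.Desc

/-!
# Galois descent for the function fields `FG Γ`
-/

set_option autoImplicit false
set_option linter.unusedSectionVars false
set_option linter.style.haveILetI false

open Fermat.Agent.KumG Fermat.Agent.Cov ModularCurve Fermat.Agent.ModPoly Polynomial
  IntermediateField Fermat.Agent.RedMod Fermat.Agent.Red AlgebraicCurve Fermat.Agent.SSH
open scoped MatrixGroups

namespace Fermat.Agent.E2

noncomputable section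

variable {K Ω : Type*} [Field K] [Field Ω] [Algebra K Ω] [Algebra ℚ K] [Algebra ℚ Ω]
  {Γ : Subgroup SL(2, ℤ)} [LvlG Γ]

theorem coeffMap_algMap {L L' : Type*} [Field L] [Field L'] (σ : L →+* L') (a : L) :
    coeffMap σ (algebraMap L (LaurentSeries L) a) = algebraMap L' (LaurentSeries L') (σ a) := by
  rw [algebraMap_eq_C, coeffMap_C, ← algebraMap_eq_C]

theorem coeffMap_mem_FG {L L' : Type*} [Field L] [Field L'] [Algebra ℚ L] [Algebra ℚ L']
    (σ : L →+* L') {x : LaurentSeries L} (hx : x ∈ FG Γ L) : coeffMap σ x ∈ FG Γ L' := by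
  refine FG_le (K := L) (Γ := Γ) ((FG Γ L').toSubfield.comap (coeffMap σ)) ?_ ?_ x hx
  · intro a
    change coeffMap σ _ ∈ FG Γ L'
    rw [coeffMap_algMap]
    exact (FG Γ L').algebraMap_mem _
  · intro z hz
    change coeffMap σ _ ∈ FG Γ L'
    rw [coeffEmb, coeffMap_coeffMap, Subsingleton.elim (σ.comp (algebraMap ℚ L))
      (algebraMap ℚ L')]
    exact coeffEmb_mem_laurentBaseChange L' hz

variable (K Ω Γ) in
/-- the embedding of the function field over the small field -/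
def emb : FG Γ K →+* FG Γ Ω where
  toFun x := ⟨coeffMap (algebraMap K Ω) x.1, coeffMap_mem_FG _ x.2⟩
  map_one' := Subtype.ext (map_one _)
  map_zero' := Subtype.ext (map_zero _)
  map_mul' x y := Subtype.ext (map_mul _ x.1 y.1)
  map_add' x y := Subtype.ext (map_add _ x.1 y.1)

theorem coe_emb (x : FG Γ K) : (emb K Ω Γ x : LaurentSeries Ω) =
    coeffMap (algebraMap K Ω) (x : LaurentSeries K) := rfl

theorem emb_coeff (x : FG Γ K) (m : ℤ) : (emb K Ω Γ x : LaurentSeries Ω).coeff m =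
    algebraMap K Ω ((x : LaurentSeries K).coeff m) := by
  rw [coe_emb, coeffMap_coeff]

theorem emb_algebraMap (c : K) : emb K Ω Γ (algebraMap K (FG Γ K) c) =
    algebraMap Ω (FG Γ Ω) (algebraMap K Ω c) := by
  apply Subtype.ext
  rw [coe_emb]
  exact coeffMap_algMap (algebraMap K Ω) c

theorem emb_injective : Function.Injective (emb K Ω Γ) := (emb K Ω Γ).injective

/-- the function field over `Ω` is spanned by the function field over `K` -/
theorem span_emb [Algebra.IsAlgebraic K Ω] (y : FG Γ Ω) :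
    ∃ (n : ℕ) (ω : Fin n → Ω) (x : Fin n → FG Γ K),
      y = ∑ i, algebraMap Ω (FG Γ Ω) (ω i) * emb K Ω Γ (x i) := by
  letI : Algebra (FG Γ K) (FG Γ Ω) := (emb K Ω Γ).toAlgebra
  have hint : ∀ c : Ω, IsIntegral (FG Γ K) (algebraMap Ω (FG Γ Ω) c) := by
    intro c
    obtain ⟨p, hp, hpc⟩ := Algebra.IsIntegral.isIntegral (R := K) c
    refine ⟨p.map (algebraMap K (FG Γ K)), hp.map _, ?_⟩
    rw [eval₂_map]
    have h1 : (algebraMap (FG Γ K) (FG Γ Ω)).comp (algebraMap K (FG Γ K)) =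
        (algebraMap Ω (FG Γ Ω)).comp (algebraMap K Ω) := by
      apply RingHom.ext
      intro a
      exact emb_algebraMap (K := K) (Ω := Ω) (Γ := Γ) a
    rw [h1, ← Polynomial.hom_eval₂, hpc, map_zero]
  let B : Subalgebra (FG Γ K) (FG Γ Ω) := Algebra.adjoin (FG Γ K) (Set.range (algebraMap Ω (FG Γ Ω)))
  have hBint : ∀ x ∈ B, IsAlgebraic (FG Γ K) x := by
    intro x hx
    have h1 : B ≤ integralClosure (FG Γ K) (FG Γ Ω) := by
      apply Algebra.adjoin_le
      rintro _ ⟨c, rfl⟩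
      exact hint c
    exact (h1 hx).isAlgebraic
  let B' : Subfield (FG Γ Ω) :=
    { B.toSubring with
      inv_mem' := fun x hx => B.inv_mem_of_algebraic (x := ⟨x, hx⟩) (hBint x hx) }
  have hB : ∀ y : FG Γ Ω, y ∈ B := by
    intro y
    have h1 : (y : LaurentSeries Ω) ∈ B'.map (algebraMap (FG Γ Ω) (LaurentSeries Ω)) := by
      refine FG_le (K := Ω) (Γ := Γ) _ ?_ ?_ _ y.2
      · intro a
        exact ⟨algebraMap Ω (FG Γ Ω) a, Algebra.subset_adjoin ⟨a, rfl⟩, rfl⟩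
      · intro z hz
        have h3 : coeffEmb K z ∈ FG Γ K := coeffEmb_mem_laurentBaseChange K hz
        refine ⟨emb K Ω Γ ⟨_, h3⟩, B.algebraMap_mem (⟨_, h3⟩ : FG Γ K), ?_⟩
        change coeffMap (algebraMap K Ω) (coeffEmb K z) = coeffEmb Ω z
        rw [coeffEmb, coeffEmb, coeffMap_coeffMap]
        congr 2
        exact Subsingleton.elim _ _
    obtain ⟨y', hy', e⟩ := h1
    have h2 : y' = y := Subtype.ext e
    rw [← h2]
    exact hy'
  have h2 := hB y
  have h3 : (B : Set (FG Γ Ω)) ⊆ {y | ∃ (n : ℕ) (ω : Fin n → Ω) (x : Fin n → FG Γ K),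
      y = ∑ i, algebraMap Ω (FG Γ Ω) (ω i) * emb K Ω Γ (x i)} := by
    intro y hy
    have h5 : y ∈ Submodule.span (FG Γ K)
        ((Submonoid.closure (Set.range (algebraMap Ω (FG Γ Ω))) : Submonoid (FG Γ Ω)) :
          Set (FG Γ Ω)) := by
      rw [← Algebra.adjoin_eq_span]; exact hy
    have h6 : (Submonoid.closure (Set.range (algebraMap Ω (FG Γ Ω))) : Submonoid (FG Γ Ω)) =
        MonoidHom.mrange (algebraMap Ω (FG Γ Ω) : Ω →* FG Γ Ω) := by
      apply le_antisymm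
      · rw [Submonoid.closure_le]
        rintro _ ⟨c, rfl⟩
        exact ⟨c, rfl⟩
      · rintro _ ⟨c, rfl⟩
        exact Submonoid.subset_closure ⟨c, rfl⟩
    rw [h6] at h5
    obtain ⟨c, t, ht, -, ht'⟩ := (Submodule.mem_span_iff_exists_finset_subset.1 h5)
    have h7 : ∀ a ∈ t, ∃ ω : Ω, algebraMap Ω (FG Γ Ω) ω = a := fun a ha => ht ha
    classical
    choose! ω hω using h7
    let e := t.equivFin.symm
    refine ⟨t.card, fun i => ω (e i), fun i => c (e i), ?_⟩
    rw [← ht', ← Finset.sum_coe_sort, ← e.sum_comp]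
    refine Finset.sum_congr rfl fun i _ => ?_
    rw [hω _ (e i).2, Algebra.smul_def, mul_comm]
    rfl
  exact h3 h2

/-- coefficients of sums -/
theorem coeff_sum_emb (n : ℕ) (ω : Fin n → Ω) (x : Fin n → FG Γ K) (m : ℤ) :
    ((∑ i, algebraMap Ω (FG Γ Ω) (ω i) * emb K Ω Γ (x i) : FG Γ Ω) : LaurentSeries Ω).coeff m =
      ∑ i, ω i * algebraMap K Ω ((x i : LaurentSeries K).coeff m) := by
  have h1 : ((∑ i, algebraMap Ω (FG Γ Ω) (ω i) * emb K Ω Γ (x i) : FG Γ Ω) : LaurentSeries Ω) =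
      ∑ i, HahnSeries.C (ω i) * coeffMap (algebraMap K Ω) (x i : LaurentSeries K) := by
    rw [AddSubmonoidClass.coe_finsetSum]
    refine Finset.sum_congr rfl fun i _ => ?_
    rw [MulMemClass.coe_mul, coe_emb, ← algebraMap_eq_C]
    rfl
  rw [h1, HahnSeries.coeff_sum]
  refine Finset.sum_congr rfl fun i _ => ?_
  rw [HahnSeries.C_mul_eq_smul, HahnSeries.coeff_smul, coeffMap_coeff, smul_eq_mul]

theorem coeff_sum_FG (n : ℕ) (c : Fin n → K) (x : Fin n → FG Γ K) (m : ℤ) :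
    ((∑ i, c i • x i : FG Γ K) : LaurentSeries K).coeff m =
      ∑ i, c i * (x i : LaurentSeries K).coeff m := by
  have h1 : ((∑ i, c i • x i : FG Γ K) : LaurentSeries K) =
      ∑ i, HahnSeries.C (c i) * (x i : LaurentSeries K) := by
    rw [AddSubmonoidClass.coe_finsetSum]
    refine Finset.sum_congr rfl fun i _ => ?_
    rw [Algebra.smul_def, MulMemClass.coe_mul, ← algebraMap_eq_C]
    rfl
  rw [h1, HahnSeries.coeff_sum]
  refine Finset.sum_congr rfl fun i _ => ?_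
  rw [HahnSeries.C_mul_eq_smul, HahnSeries.coeff_smul, smul_eq_mul]

/-- linear independence is preserved -/
theorem emb_indep (n : ℕ) (x : Fin n → FG Γ K) (hx : LinearIndependent K x) :
    LinearIndependent Ω (fun i => emb K Ω Γ (x i)) := by
  rw [Fintype.linearIndependent_iff] at hx ⊢
  intro c hc i₀
  by_contra hne
  obtain ⟨l, hl⟩ := Module.Projective.exists_dual_ne_zero K hne
  apply hl
  refine hx (fun i => l (c i)) ?_ i₀
  apply Subtype.ext
  ext m
  rw [coeff_sum_FG]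
  have h1 := coeff_sum_emb n c x m
  have h2 : (∑ i, algebraMap Ω (FG Γ Ω) (c i) * emb K Ω Γ (x i) : FG Γ Ω) = 0 := by
    rw [← hc]
    exact Finset.sum_congr rfl fun i _ => (Algebra.smul_def _ _).symm
  rw [h2] at h1
  have h3 := congrArg l h1
  have h4 : (((0 : FG Γ Ω) : LaurentSeries Ω).coeff m) = 0 := rfl
  rw [h4, map_zero, map_sum] at h3
  change _ = (0 : K)
  rw [h3]
  refine Finset.sum_congr rfl fun i _ => ?_
  rw [mul_comm (c i), ← Algebra.smul_def, map_smul, smul_eq_mul, mul_comm]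

/-- functions with coefficients in the small field descend -/
theorem exists_of_coeff [Algebra.IsAlgebraic K Ω] {y : FG Γ Ω}
    (hy : ∀ m : ℤ, (y : LaurentSeries Ω).coeff m ∈ Set.range (algebraMap K Ω)) :
    ∃ x : FG Γ K, emb K Ω Γ x = y := by
  obtain ⟨n, ω, x, rfl⟩ := span_emb (K := K) y
  obtain ⟨l, hl⟩ := CarE.exists_retraction K Ω
  refine ⟨∑ i, l (ω i) • x i, ?_⟩
  apply Subtype.ext
  ext m
  rw [coe_emb, coeffMap_coeff, coeff_sum_FG]
  obtain ⟨c, hc⟩ := hy m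
  rw [← hc]
  rw [coeff_sum_emb] at hc
  congr 1
  have h1 := congrArg l hc
  rw [hl, map_sum] at h1
  rw [h1]
  refine Finset.sum_congr rfl fun i _ => ?_
  rw [mul_comm (ω i), ← Algebra.smul_def, map_smul, smul_eq_mul, mul_comm]

variable (Γ) in
/-- the coefficientwise action of the Galois group -/
def gal (σ : Ω ≃ₐ[K] Ω) : FG Γ Ω →+* FG Γ Ω where
  toFun x := ⟨coeffMap (σ.toRingEquiv : Ω →+* Ω) x.1, coeffMap_mem_FG _ x.2⟩
  map_one' := Subtype.ext (map_one _)
  map_zero' := Subtype.ext (map_zero _)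
  map_mul' x y := Subtype.ext (map_mul _ x.1 y.1)
  map_add' x y := Subtype.ext (map_add _ x.1 y.1)

theorem coe_gal (σ : Ω ≃ₐ[K] Ω) (x : FG Γ Ω) : (gal Γ σ x : LaurentSeries Ω) =
    coeffMap (σ.toRingEquiv : Ω →+* Ω) (x : LaurentSeries Ω) := rfl

theorem gal_coeff (σ : Ω ≃ₐ[K] Ω) (x : FG Γ Ω) (m : ℤ) :
    (gal Γ σ x : LaurentSeries Ω).coeff m = σ ((x : LaurentSeries Ω).coeff m) := by
  rw [coe_gal, coeffMap_coeff]
  rfl

theorem gal_emb (σ : Ω ≃ₐ[K] Ω) (x : FG Γ K) : gal Γ σ (emb K Ω Γ x) = emb K Ω Γ x := by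
  apply Subtype.ext
  ext m
  rw [gal_coeff, coe_emb, coeffMap_coeff, AlgEquiv.commutes]

theorem gal_algebraMap (σ : Ω ≃ₐ[K] Ω) (c : Ω) :
    gal Γ σ (algebraMap Ω (FG Γ Ω) c) = algebraMap Ω (FG Γ Ω) (σ c) :=
  Subtype.ext (coeffMap_algMap (σ.toRingEquiv : Ω →+* Ω) c)

/-- elements fixed by the Galois group descend -/
theorem exists_of_fixed [Algebra.IsAlgebraic K Ω]
    (hfix : ∀ x : Ω, (∀ σ : Ω ≃ₐ[K] Ω, σ x = x) → x ∈ Set.range (algebraMap K Ω))
    {y : FG Γ Ω} (hy : ∀ σ : Ω ≃ₐ[K] Ω, gal Γ σ y = y) : ∃ x : FG Γ K, emb K Ω Γ x = y := by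
  apply exists_of_coeff
  intro m
  apply hfix
  intro σ
  rw [← gal_coeff, hy]

set_option synthInstance.maxHeartbeats 400000 in
/-- **Galois descent** -/
theorem galois_desc [Algebra.IsAlgebraic K Ω]
    (hfix : ∀ x : Ω, (∀ σ : Ω ≃ₐ[K] Ω, σ x = x) → x ∈ Set.range (algebraMap K Ω))
    (V : Submodule Ω (FG Γ Ω)) (hV : FiniteDimensional Ω V)
    (hst : ∀ σ ∈ Set.range (fun σ : Ω ≃ₐ[K] Ω => gal Γ σ), ∀ x ∈ V, σ x ∈ V) :
    V ≤ Submodule.span Ω (emb K Ω Γ '' {x | emb K Ω Γ x ∈ V}) := by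
  classical
  let f : ℤ → Module.Dual Ω V := fun m =>
    { toFun := fun v => ((v : FG Γ Ω) : LaurentSeries Ω).coeff m
      map_add' := fun v w => rfl
      map_smul' := fun c v => by
        change (((c • (v : FG Γ Ω) : FG Γ Ω)) : LaurentSeries Ω).coeff m = _
        rw [Algebra.smul_def]
        change (algebraMap Ω (LaurentSeries Ω) c * ((v : FG Γ Ω) : LaurentSeries Ω)).coeff m = _
        rw [algebraMap_eq_C, HahnSeries.C_mul_eq_smul, HahnSeries.coeff_smul]
        rfl }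
  have hf0 : ∀ v : V, (∀ i, f i v = 0) → v = 0 := by
    intro v hv
    apply Subtype.ext
    apply Subtype.ext
    ext m
    exact hv m
  obtain ⟨n, j, b, hb, hsep⟩ := CarE.exists_dual_pair f hf0
  have hfixb : ∀ (c : Fin n) (σ : Ω ≃ₐ[K] Ω), gal Γ σ (b c : FG Γ Ω) = b c := by
    intro c σ
    have hmem : gal Γ σ (b c : FG Γ Ω) ∈ V := hst _ ⟨σ, rfl⟩ _ (b c).2
    have h1 : (⟨_, hmem⟩ - b c : V) = 0 := by
      apply hsep
      intro a
      rw [map_sub, sub_eq_zero]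
      have h2 : f (j a) (⟨_, hmem⟩ : V) = σ (f (j a) (b c)) := gal_coeff σ _ _
      rw [h2, hb]
      split_ifs
      · exact map_one σ
      · exact map_zero σ
    exact congrArg Subtype.val (sub_eq_zero.1 h1)
  intro v hv
  have h1 := congrArg V.subtype (b.sum_repr ⟨v, hv⟩)
  rw [map_sum] at h1
  have h2 : v = ∑ c, V.subtype (b.repr ⟨v, hv⟩ c • b c) := h1.symm
  rw [h2]
  simp only [map_smul]
  refine Submodule.sum_mem _ fun c _ => Submodule.smul_mem _ _ ?_
  obtain ⟨x, hx⟩ := exists_of_fixed hfix (hfixb c)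
  exact Submodule.subset_span ⟨x, by rw [Set.mem_ofPred_eq, hx]; exact (b c).2, hx⟩

variable (Γ) in
/-- the descent data -/
def desc [Algebra.IsAlgebraic K Ω]
    (hfix : ∀ x : Ω, (∀ σ : Ω ≃ₐ[K] Ω, σ x = x) → x ∈ Set.range (algebraMap K Ω)) :
    Car.Desc K (FG Γ K) Ω (FG Γ Ω) where
  emb := emb K Ω Γ
  hemb := emb_algebraMap
  Γ := Set.range (fun σ : Ω ≃ₐ[K] Ω => gal Γ σ)
  Γ_emb := by
    rintro _ ⟨σ, rfl⟩ x
    exact gal_emb σ x
  Γ_semi := by
    rintro _ ⟨σ, rfl⟩ c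
    exact ⟨σ c, gal_algebraMap σ c⟩
  desc := galois_desc hfix
  indep := emb_indep

end

end Fermat.Agent.E2
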