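import Fermat.Agent.E2.MU1
import Fermat.Agent.RR.TowerDeg
import Fermat.Agent.Spec.Ext

/-!
# Adding an auxiliary prime to the level
-/

set_option autoImplicit false
set_option linter.unusedSectionVars false
set_option linter.style.haveILetI false

open UpperHalfPlane ModularForm Complex Matrix.SpecialLinearGroup
open scoped MatrixGroups Manifold
open Fermat.Agent.AL Fermat.Agent.ALCoh Fermat.Agent.KumG Fermat.Agent.Cov CongruenceSubgroup
  ModularCurve Fermat.Agent.ModPoly Fermat.Agent.GamH Polynomial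
  IntermediateField Fermat.Agent.RedMod Fermat.Agent.Red AlgebraicCurve Fermat.Agent.RR
  Fermat.Agent.SSH

namespace Fermat.Agent.E2

noncomputable section

section Ext

variable {K F F' : Type*} [Field K] [IsAlgClosed K] [Field F] [Field F'] [Algebra K F]
  [Algebra K F'] [Algebra F F'] [IsScalarTower K F F'] [FunField K F] [FunField K F']

/-- divisibility of orders can be tested in an extension of degree prime to `m` -/
theorem dvd_ord_of_ext [FiniteDimensional F F'] {m : ℕ}
    (hco : (Module.finrank F F').Coprime m) {g : F}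
    (h : ∀ w : Place K F', (m : ℤ) ∣ w.ord (algebraMap F F' g)) (v : Place K F) :
    (m : ℤ) ∣ v.ord g := by
  haveI : HasPrincipalDivisors K F' := hasPrincipalDivisors'
  have h1 := Spec.sum_ramificationIndex (F' := F') v
  have h2 : (m : ℤ) ∣ (Module.finrank F F' : ℤ) * v.ord g := by
    rw [← h1, Finset.sum_mul]
    refine Finset.dvd_sum fun w hw => ?_
    rw [Place.mem_fiber] at hw
    have h3 := h w
    rw [w.ord_restrict, hw] at h3
    exact h3
  exact (Nat.isCoprime_iff_coprime.2 hco.symm).dvd_of_dvd_mul_left h2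

end Ext

section Lev

variable {q M r : ℕ} [hq : Fact q.Prime] [NeZero M] [NeZero r] {H : Subgroup (ZMod M)ˣ}

/-- the level structure with an auxiliary prime -/
abbrev Hx (r : ℕ) (H : Subgroup (ZMod M)ˣ) : Subgroup (ZMod (M * r))ˣ :=
  HM (dvd_mul_right M r) H

instance factHx [hH : Fact ((-1 : (ZMod M)ˣ) ∈ H)] :
    Fact ((-1 : (ZMod (M * r))ˣ) ∈ Hx r H) := ⟨by
  rw [Hx, HM, Subgroup.mem_comap]
  have e : ZMod.unitsMap (dvd_mul_right M r) (-1) = -1 := by
    apply Units.ext
    simp [ZMod.unitsMap]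
  rw [e]
  exact hH.out⟩

theorem Gq_le_aux : Gq q (M * r) (Hx r H) ≤ Gq q M H := by
  intro γ hγ
  rw [mem_Gq] at hγ ⊢
  exact ⟨Gamma0_le (mul_dvd_mul_left q (dvd_mul_right M r)) hγ.1,
    GH_HM_le (dvd_mul_right M r) H hγ.2⟩

theorem index_Hx : (Hx r H).index = H.index :=
  Subgroup.index_comap_of_surjective _ (ZMod.unitsMap_surjective (dvd_mul_right M r))

/-- compatible involutions exist -/
theorem exists_WData_aux (hqM : ¬ q ∣ M) (hqr : ¬ q ∣ r) (D : WData q M H) :
    ∃ D' : WData q (M * r) (Hx r H), (D'.v : ZMod M) = D.v := by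
  have hco : q.Coprime (M * r) := by
    rw [Nat.Prime.coprime_iff_not_dvd hq.out, Nat.Prime.dvd_mul hq.out]
    exact fun h => h.elim hqM hqr
  have hcoM : q.Coprime M := hco.coprime_dvd_right (dvd_mul_right M r)
  have hunit : IsUnit ((D.v : ℤ) : ZMod M) := by
    have h := congrArg (Int.cast : ℤ → ZMod M) D.h
    push_cast at h
    rw [ZMod.natCast_self, zero_mul, sub_zero] at h
    exact IsUnit.of_mul_eq_one ((D.x : ZMod M) * q) (by rw [← h]; ring)
  obtain ⟨e, he⟩ := hunit
  obtain ⟨e', he'⟩ := ZMod.unitsMap_surjective (dvd_mul_right M r) e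
  obtain ⟨x, y, v, h, hv⟩ := exists_WQ hco e'
  have hv2 : ((v : ℤ) : ZMod M) = (D.v : ZMod M) := by
    have h1 := congrArg (ZMod.castHom (dvd_mul_right M r) (ZMod M)) hv
    rw [map_intCast] at h1
    rw [h1, ← he, ← he']
    rfl
  refine ⟨⟨x, y, v, h, ZMod.unitOfCoprime q hco * e' ^ 2, ?_, by rw [hv]; simp⟩, hv2⟩
  rw [Hx, HM, Subgroup.mem_comap]
  obtain ⟨u, hu, hu2⟩ := D.sq
  have e1 : ZMod.unitsMap (dvd_mul_right M r) (ZMod.unitOfCoprime q hco * e' ^ 2) = u := by
    rw [map_mul, map_pow, he']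
    apply Units.ext
    rw [← hu2, ← he, Units.val_mul, Units.val_pow_eq_pow_val]
    congr 1
    simp [ZMod.unitsMap]
  rw [e1]
  exact hu

/-- the matrix relating the two involutions -/
theorem exists_γ_aux (D : WData q M H) (D' : WData q (M * r) (Hx r H))
    (hv : (D'.v : ZMod M) = D.v) : ∃ γ ∈ Gq q M H, D'.W = (γ : M2) * D.W := by
  have h := D.h
  have h' := D'.h
  push_cast at h'
  have hdet : (!![q * D'.x * D.v - M * D'.y, D.x * D'.y - D'.x * D.y;
      q * M * (r * D.v - D'.v), q * D'.v * D.x - M * r * D.y] : M2).det = 1 := by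
    rw [Matrix.det_fin_two_of]
    linear_combination (q * D'.x * D'.v - M * r * D'.y) * h + h'
  refine ⟨mkSL _ hdet, ?_, ?_⟩
  · have h0 : mkSL _ hdet ∈ Gamma0 (q * M) := by
      apply mkSL_mem
      exact ⟨r * D.v - D'.v, by push_cast; rfl⟩
    rw [mem_Gq]
    refine ⟨h0, ?_⟩
    rw [mem_GH_dd (Gamma0_le (dvd_mul_left M q) h0)]
    refine ⟨1, one_mem _, ?_⟩
    rw [Units.val_one]
    have e : dd M (mkSL _ hdet) = ((q * D'.v * D.x - M * r * D.y : ℤ) : ZMod M) := rfl
    rw [e]
    push_cast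
    rw [hv, ZMod.natCast_self]
    have h2 := congrArg (Int.cast : ℤ → ZMod M) h
    push_cast at h2
    rw [ZMod.natCast_self] at h2
    linear_combination h2
  · rw [coe_mkSL, WData.W, WData.W, WQ, WQ]
    apply mat_ext <;> simp [Matrix.mul_apply, Fin.sum_univ_two]
    · linear_combination (- (q : ℤ) * D'.x) * h
    · linear_combination (- D'.y) * h
    · linear_combination (- (q : ℤ) * M * r) * h
    · linear_combination (- (q : ℤ) * D'.v) * h

variable [hH : Fact ((-1 : (ZMod M)ˣ) ∈ H)] {K : Type*} [Field K] [Algebra ℚ K] (ι : K →+* ℂ)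

theorem hle_aux (K : Type*) [Field K] [Algebra ℚ K] :
    FG (Gq q M H) K ≤ FG (Gq q (M * r) (Hx r H)) K := FG_mono K Gq_le_aux

/-- the involutions are compatible -/
theorem wE_aux (D : WData q M H) (D' : WData q (M * r) (Hx r H))
    (hv : (D'.v : ZMod M) = D.v) (hM3 : 3 ≤ M) (hM3' : 3 ≤ M * r) (x : FG (Gq q M H) K) :
    wE ι D' hM3' (IntermediateField.inclusion (hle_aux K) x) =
      IntermediateField.inclusion (hle_aux K) (wE ι D hM3 x) := by
  obtain ⟨γ, hγ, hW⟩ := exists_γ_aux D D' hv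
  apply Subtype.ext
  apply coeffMap_inj ι
  have h1 := coe_wE ι D' hM3' (IntermediateField.inclusion (hle_aux K) x)
  rw [coe_incl_gen] at h1 ⊢
  rw [h1]
  have hx := coeffMap_mem_MFunG ι x.2
  have hadW : Ad (Gq q M H) (Gq q M H) D'.W := by
    rw [hW]
    exact (Ad.of_nz (Nz.of_mem hγ)).mul D.ad
  refine (slF_mono hadW Gq_le_aux D'.ad Gq_le_aux hx).trans ?_
  rw [hW]
  exact (slF_congr hγ D.ad hx).trans (coe_wE ι D hM3 x).symm

end Lev

end

end Fermat.Agent.E2
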