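import Fermat.Agent.E2.Lift
import Fermat.Agent.CarE.Disc

/-!
# The model with two components of a semistable structure over a discrete valuation ring
-/

set_option autoImplicit false
set_option linter.unusedSectionVars false
set_option linter.style.haveILetI false

open Module ModularCurve Polynomial IntermediateField Fermat.Agent.ModPoly Fermat.Agent.Red
  Fermat.Agent.RedMod Fermat.Agent.Cov Fermat.Agent.SemiSt AlgebraicCurve Fermat.Agent.Nod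
  Fermat.Agent.Curve Fermat.Agent.RR Fermat.Agent.SSH

namespace Fermat.Agent.E2

noncomputable section

section Dvr

variable {A₀ K₀ k : Type*} [CommRing A₀] [IsDomain A₀] [IsDiscreteValuationRing A₀] [Field K₀]
  [Algebra A₀ K₀] [IsFractionRing A₀ K₀] [Field k] [Algebra A₀ k]

theorem exists_pow_unit {p : A₀} (hp : algebraMap A₀ k p = 0)
    (hd : ∀ a : A₀, algebraMap A₀ k a = 0 → ∃ b, a = p * b) {d : A₀} (h : d ≠ 0) :
    ∃ (n : ℕ) (u : A₀), algebraMap A₀ k u ≠ 0 ∧ d = p ^ n * u := by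
  have hu : ¬ IsUnit p := fun hu => (hu.map (algebraMap A₀ k)).ne_zero hp
  have hfin : FiniteMultiplicity p d := FiniteMultiplicity.of_not_isUnit hu h
  obtain ⟨c, hc, hc'⟩ := hfin.exists_eq_pow_mul_and_not_dvd
  refine ⟨_, c, fun h0 => hc' ?_, hc⟩
  obtain ⟨b, rfl⟩ := hd c h0
  exact dvd_mul_right _ _

theorem exists_zpow_unit {p : A₀} (hp0 : p ≠ 0) (hp : algebraMap A₀ k p = 0)
    (hd : ∀ a : A₀, algebraMap A₀ k a = 0 → ∃ b, a = p * b) {c : K₀} (h : c ≠ 0) :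
    ∃ (n : ℤ) (u v : A₀), algebraMap A₀ k u ≠ 0 ∧ algebraMap A₀ k v ≠ 0 ∧
      c = algebraMap A₀ K₀ p ^ n * (algebraMap A₀ K₀ u / algebraMap A₀ K₀ v) := by
  obtain ⟨a, b, hb, rfl⟩ := IsFractionRing.div_surjective (A := A₀) c
  have hinj := IsFractionRing.injective A₀ K₀
  have hb0 : b ≠ 0 := nonZeroDivisors.ne_zero hb
  have ha0 : a ≠ 0 := by
    rintro rfl
    rw [map_zero, zero_div] at h
    exact h rfl
  obtain ⟨n, u, hu, e1⟩ := exists_pow_unit hp hd ha0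
  obtain ⟨m, v, hv, e2⟩ := exists_pow_unit hp hd hb0
  have hpK : algebraMap A₀ K₀ p ≠ 0 := by
    rwa [Ne, map_eq_zero_iff _ hinj]
  refine ⟨(n : ℤ) - m, u, v, hu, hv, ?_⟩
  rw [e1, e2, map_mul, map_mul, map_pow, map_pow, zpow_sub₀ hpK, zpow_natCast, zpow_natCast,
    mul_div_mul_comm]

end Dvr

variable {A₀ K₀ A Ω k : Type*} [CommRing A₀] [IsDomain A₀] [IsDiscreteValuationRing A₀] [Field K₀]
  [Algebra A₀ K₀] [IsFractionRing A₀ K₀] [CommRing A] [IsDomain A] [ValuationRing A]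
  [Field Ω] [Algebra A Ω] [IsFractionRing A Ω] [Field k]
  [Algebra A k] [Algebra A₀ k] [Algebra K₀ Ω]
  {FM₀ Fq₀ : IntermediateField K₀ (LaurentSeries K₀)}
  {FM Fq : IntermediateField Ω (LaurentSeries Ω)}
  {E : IntermediateField k (LaurentSeries k)} {ι : Type*} [Fintype ι] {y : ι → LaurentSeries ℤ}
  {q : ℕ} [hq : Fact q.Prime] [CharP k q]

/-- an extension of semistable structures, from a discrete valuation ring with uniformiser `q` -/
structure SExt (S₀ : SSD A₀ FM₀ Fq₀ E y q) (S : SSD A FM Fq E y q) where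
  B : BExt A₀ K₀ A Ω k
  DM : Car.Desc K₀ FM₀ Ω FM
  Dq : Car.Desc K₀ Fq₀ Ω Fq
  coeM : ∀ x : FM₀, (DM.emb x : LaurentSeries Ω) =
    coeffMap (algebraMap K₀ Ω) (x : LaurentSeries K₀)
  coeq : ∀ x : Fq₀, (Dq.emb x : LaurentSeries Ω) =
    coeffMap (algebraMap K₀ Ω) (x : LaurentSeries K₀)
  w : ∀ x, S.w (Dq.emb x) = Dq.emb (S₀.w x)
  q_ne : (q : A₀) ≠ 0
  hd : ∀ a : A₀, algebraMap A₀ k a = 0 → ∃ b, a = (q : A₀) * b

variable {S₀ : SSD A₀ FM₀ Fq₀ E y q} {S : SSD A FM Fq E y q} (X : SExt S₀ S)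

namespace SExt

theorem emb_inc (x : FM₀) : X.Dq.emb (S₀.inc x) = S.inc (X.DM.emb x) := by
  apply Subtype.ext
  rw [X.coeq, SSD.coe_inc, SSD.coe_inc, X.coeM]

theorem emb_be (x : FM₀) : X.Dq.emb (S₀.be x) = S.be (X.DM.emb x) := by
  rw [SSD.be_apply, ← X.w, emb_inc, SSD.be_apply]

theorem emb_jM : X.DM.emb S₀.jM = S.jM := by
  apply Subtype.ext
  rw [X.coeM, SSD.coe_jM, SSD.coe_jM, coeffMap_jqModC]

theorem emb_jq : X.Dq.emb S₀.jq = S.jq := by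
  rw [← SSD.inc_jM, emb_inc, emb_jM, SSD.inc_jM]

theorem hasRed {x : Fq₀} {a b : LaurentSeries k} (h : S₀.HasRed x a b) :
    S.HasRed (X.Dq.emb x) a b := by
  refine ⟨(LR_emb X.B h.1).of_eq (X.coeq x).symm rfl, ?_⟩
  rw [X.w]
  exact (LR_emb X.B h.2).of_eq (X.coeq _).symm rfl

theorem redq : algebraMap A₀ k (q : A₀) = 0 := by rw [map_natCast, CharP.cast_eq_zero]

include X in
theorem scale {x : Fq₀} (hx : x ≠ 0) : ∃ (m : ℤ) (w : LaurentSeries K₀), IsU A₀ K₀ k w ∧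
    (x : LaurentSeries K₀) = HahnSeries.C (algebraMap A₀ K₀ (q : A₀)) ^ m * w := by
  obtain ⟨c, hc, hu⟩ := S₀.exists_scale_one hx
  obtain ⟨n, u, v, hu1, hv1, e⟩ := exists_zpow_unit (k := k) (K₀ := K₀) X.q_ne (redq) X.hd
    (inv_ne_zero hc)
  have hC : (HahnSeries.C c : LaurentSeries K₀) ≠ 0 := by
    rw [Ne, map_eq_zero]; exact hc
  have h1 : ∀ {a : A₀}, algebraMap A₀ k a ≠ 0 →
      IsU A₀ K₀ k (HahnSeries.C (algebraMap A₀ K₀ a)) := by
    intro a ha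
    refine (LR.const (K := K₀) a).isU ?_
    rw [Ne, map_eq_zero]; exact ha
  refine ⟨n, HahnSeries.C (algebraMap A₀ K₀ u / algebraMap A₀ K₀ v) *
    (HahnSeries.C c * (x : LaurentSeries K₀)), ?_, ?_⟩
  · rw [map_div₀]
    rw [div_eq_mul_inv]
    exact ((h1 hu1).mul (h1 hv1).inv).mul hu
  · rw [← mul_assoc, ← map_zpow₀, ← map_mul, ← e, ← mul_assoc, ← map_mul, inv_mul_cancel₀ hc,
      map_one, one_mul]

/-- the first component -/
def E1 : CarE.EData A₀ K₀ k Fq₀ where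
  φ := (Fq₀.val : Fq₀ →+* LaurentSeries K₀)
  ϖA := (q : A₀)
  red := redq
  neA := X.q_ne
  scale x hx := X.scale hx
  ϖ := algebraMap K₀ Fq₀ (algebraMap A₀ K₀ (q : A₀))
  hϖ := ⟨1, CarE.IsU.one, by
    rw [mul_one]
    exact SSD.coe_algebraMap (Fq := Fq₀) _⟩

/-- the second component -/
def E2' : CarE.EData A₀ K₀ k Fq₀ where
  φ := (S₀.φ2 : Fq₀ →+* LaurentSeries K₀)
  ϖA := (q : A₀)
  red := redq
  neA := X.q_ne
  scale x hx := X.scale (x := S₀.w x) (by rwa [Ne, map_eq_zero_iff _ S₀.w.injective])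
  ϖ := algebraMap K₀ Fq₀ (algebraMap A₀ K₀ (q : A₀))
  hϖ := ⟨1, CarE.IsU.one, by
    rw [mul_one]
    exact S₀.coe_w_algebraMap _⟩

/-- the two components -/
def EE : Fin 2 → CarE.EData A₀ K₀ k Fq₀ := ![X.E1, X.E2']

theorem hκ (j : Fin 2) (x : Fq₀) (h : x ∈ (X.EE j).W) : (X.EE j).πW ⟨x, h⟩ ∈ E := by
  match j with
  | 0 => exact S₀.red_mem x h
  | 1 => exact S₀.red_mem (S₀.w x) h

/-- the components -/
def CC (j : Fin 2) : Car.Comp Fq₀ E := (X.EE j).comp E (X.hκ j)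

theorem mem_CC0 {x : Fq₀} : x ∈ (X.CC 0).W ↔ (x : LaurentSeries K₀) ∈ WL A₀ K₀ k := Iff.rfl

theorem mem_CC1 {x : Fq₀} : x ∈ (X.CC 1).W ↔ (S₀.w x : LaurentSeries K₀) ∈ WL A₀ K₀ k := Iff.rfl

theorem LR0 {x : Fq₀} (h : x ∈ (X.CC 0).W) :
    LR A₀ (x : LaurentSeries K₀) ((X.CC 0).r x : LaurentSeries k) :=
  ⟨h, ((X.EE 0).coe_r E (X.hκ 0) h).symm⟩

theorem LR1 {x : Fq₀} (h : x ∈ (X.CC 1).W) :
    LR A₀ (S₀.w x : LaurentSeries K₀) ((X.CC 1).r x : LaurentSeries k) :=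
  ⟨h, ((X.EE 1).coe_r E (X.hκ 1) h).symm⟩

theorem r0_eq {x : Fq₀} {a : E} (h : LR A₀ (x : LaurentSeries K₀) (a : LaurentSeries k)) :
    (X.CC 0).r x = a := Subtype.ext ((X.LR0 h.1).unique h)

theorem r1_eq {x : Fq₀} {a : E} (h : LR A₀ (S₀.w x : LaurentSeries K₀) (a : LaurentSeries k)) :
    (X.CC 1).r x = a := Subtype.ext ((X.LR1 h.1).unique h)

theorem r0_of {x : Fq₀} {a b : E} (h : S₀.HasRed x (a : LaurentSeries k) (b : LaurentSeries k)) :
    (X.CC 0).r x = a := X.r0_eq h.1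

theorem r1_of {x : Fq₀} {a b : E} (h : S₀.HasRed x (a : LaurentSeries k) (b : LaurentSeries k)) :
    (X.CC 1).r x = b := X.r1_eq h.2

theorem hasRed_r {x : Fq₀} (h0 : x ∈ (X.CC 0).W) (h1 : x ∈ (X.CC 1).W) :
    S₀.HasRed x ((X.CC 0).r x : LaurentSeries k) ((X.CC 1).r x : LaurentSeries k) :=
  ⟨X.LR0 h0, X.LR1 h1⟩

/-- the valuations -/
theorem v0_eq {x : Fq₀} {m : ℤ} {w : LaurentSeries K₀} (hw : IsU A₀ K₀ k w)
    (h : (x : LaurentSeries K₀) = HahnSeries.C (algebraMap A₀ K₀ (q : A₀)) ^ m * w) :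
    (X.CC 0).v x = m := (X.EE 0).v_eq E (X.hκ 0) hw h

theorem v1_eq_w (x : Fq₀) : (X.CC 1).v x = (X.CC 0).v (S₀.w x) := by
  rcases eq_or_ne x 0 with rfl | hx
  · rw [map_zero, Car.Comp.v_zero, Car.Comp.v_zero]
  obtain ⟨m, w, hw, h⟩ := X.scale (x := S₀.w x) (by
    rwa [Ne, map_eq_zero_iff _ S₀.w.injective])
  rw [X.v0_eq hw h]
  exact (X.EE 1).v_eq E (X.hκ 1) hw h

theorem v0_eq_w (x : Fq₀) : (X.CC 0).v x = (X.CC 1).v (S₀.w x) := by
  rw [v1_eq_w, S₀.w_w]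

theorem v0_zero {x : Fq₀} {a : LaurentSeries k} (h : LR A₀ (x : LaurentSeries K₀) a)
    (ha : a ≠ 0) : (X.CC 0).v x = 0 := X.v0_eq (h.isU ha) (by rw [zpow_zero, one_mul])

theorem v1_zero {x : Fq₀} {a : LaurentSeries k} (h : LR A₀ (S₀.w x : LaurentSeries K₀) a)
    (ha : a ≠ 0) : (X.CC 1).v x = 0 := by rw [v1_eq_w]; exact X.v0_zero h ha

theorem v_q (j : Fin 2) : (X.CC j).v (algebraMap K₀ Fq₀ (algebraMap A₀ K₀ (q : A₀))) = 1 := by
  match j with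
  | 0 => exact (X.CC 0).v_ϖ
  | 1 => exact (X.CC 1).v_ϖ

section Model

variable [Algebra A₀ Fq₀] [IsScalarTower A₀ K₀ Fq₀] [Algebra A₀ E] [IsScalarTower A₀ k E]

theorem mem_WW_iff {x : Fq₀} : x ∈ S₀.WW ↔ ∀ j, x ∈ (X.CC j).W := by
  rw [Fin.forall_fin_two]
  exact S₀.mem_WW

theorem sred_fst {x : Fq₀} (h : x ∈ S₀.WW) : (S₀.sred ⟨x, h⟩).1 = (X.CC 0).r x := by
  refine (X.r0_eq ?_).symm
  exact (S₀.hasRed_sred h).1

theorem sred_snd {x : Fq₀} (h : x ∈ S₀.WW) : (S₀.sred ⟨x, h⟩).2 = (X.CC 1).r x := by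
  refine (X.r1_eq ?_).symm
  exact (S₀.hasRed_sred h).2

/-- the two projections -/
def ρρ (j : Fin 2) : (E × E) →ₐ[k] E :=
  match j with
  | 0 => AlgHom.fst k E E
  | 1 => AlgHom.snd k E E

theorem hasRed_uu' : S₀.HasRed S₀.uu (S₀.uE : LaurentSeries k) ((0 : E) : LaurentSeries k) :=
  SSD.hasRed_uu

theorem uE_ne : S₀.uE ≠ 0 := fun h => ub_ne_zero (k := k) (q := q) (congrArg Subtype.val h)

variable [IsAlgClosed Ω] [IsAlgClosed k]

variable (hS : SP S.G)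

omit [Algebra A₀ Fq₀] [IsScalarTower A₀ K₀ Fq₀] [Algebra A₀ E] [IsScalarTower A₀ k E] in
include S₀ hS in
theorem exists_LR (a : E) : ∃ x : FM₀, LR A₀ (x : LaurentSeries K₀) (a : LaurentSeries k) := by
  letI := algA A₀ FM₀
  haveI := tower_algA A₀ FM₀
  letI := algA A₀ E
  haveI := tower_algA A₀ E
  obtain ⟨⟨x, hx⟩, h⟩ := redG_surjective S₀.G hS.fink hS.rkk a
  exact ⟨x, hx, congrArg Subtype.val h⟩

include hS in
theorem sred_surj : Function.Surjective S₀.sred := by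
  rintro ⟨a, b⟩
  obtain ⟨x, hx⟩ := exists_LR (S₀ := S₀) (S := S) hS (a / S₀.uE)
  obtain ⟨z, hz⟩ := exists_LR (S₀ := S₀) (S := S) hS (b / S₀.uE)
  have hu := hasRed_uu' (S₀ := S₀)
  have h1 := hu.mul (SSD.hasRed_inc (S := S₀) hx)
  have h2 := (hu.mul (SSD.hasRed_inc (S := S₀) hz)).w
  have h3 := h1.add h2
  have hne := uE_ne (S₀ := S₀)
  have e1 : ((a : E) : LaurentSeries k) = (S₀.uE : LaurentSeries k) * ((a / S₀.uE : E) : LaurentSeries k) +
      ((0 : E) : LaurentSeries k) * (S₀.sg (b / S₀.uE) : LaurentSeries k) := by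
    have : a = S₀.uE * (a / S₀.uE) + 0 * S₀.sg (b / S₀.uE) := by
      rw [zero_mul, add_zero, mul_div_cancel₀ _ hne]
    exact congrArg Subtype.val this
  have e2 : ((b : E) : LaurentSeries k) = ((0 : E) : LaurentSeries k) * (S₀.sg (a / S₀.uE) : LaurentSeries k) +
      (S₀.uE : LaurentSeries k) * ((b / S₀.uE : E) : LaurentSeries k) := by
    have : b = 0 * S₀.sg (a / S₀.uE) + S₀.uE * (b / S₀.uE) := by
      rw [zero_mul, zero_add, mul_div_cancel₀ _ hne]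
    exact congrArg Subtype.val this
  rw [← e1, ← e2] at h3
  exact ⟨⟨_, h3.mem⟩, h3.sred h3.mem⟩

theorem ge_of_r0 {x : Fq₀} (h : x ∈ (X.CC 0).W) (h' : (X.CC 0).r x = 0) : (X.CC 0).Ge 1 x :=
  (Car.Comp.r_eq_zero_iff h).1 h'

/-- **the model with two components** -/
def cm : Car.CModel A₀ K₀ Fq₀ k (E × E) E Ω Fq (ι ⊕ (ι × Fin q)) (Fin 2) where
  toDesc := X.Dq
  G := S₀.sgauss
  hk := S₀.G.hk
  hspan := S₀.sgauss_span
  comp := X.CC
  mem_W x := X.mem_WW_iff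
  p := (q : A₀)
  p_ne := X.q_ne
  hp := X.hd
  e := fun _ => 1
  e_pos := fun _ => one_pos
  v_p j := by
    rw [IsScalarTower.algebraMap_apply A₀ K₀ Fq₀, Nat.cast_one]
    exact X.v_q j
  ρ := ρρ
  ρ_π j x hx := by
    match j with
    | 0 => exact X.sred_fst hx
    | 1 => exact X.sred_snd hx
  π_surj := sred_surj (S₀ := S₀) (S := S) hS
  ker_π x hx h := by
    apply Prod.ext
    · refine (X.sred_fst hx).trans ?_
      exact (Car.Comp.r_eq_zero_iff (X.mem_WW_iff.1 hx 0)).2 (h 0)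
    · refine (X.sred_snd hx).trans ?_
      exact (Car.Comp.r_eq_zero_iff (X.mem_WW_iff.1 hx 1)).2 (h 1)
  sep j := by
    have hu := hasRed_uu' (S₀ := S₀)
    have hne := uE_ne (S₀ := S₀)
    match j with
    | 0 =>
      refine ⟨S₀.uu, hu.mem, ?_, ?_⟩
      · rw [X.r0_of hu]; exact hne
      · intro i hi
        have hi1 : i = 1 := by
          match i with
          | 0 => exact absurd rfl hi
          | 1 => rfl
        subst hi1
        exact (Car.Comp.r_eq_zero_iff (X.mem_WW_iff.1 hu.mem 1)).1 (X.r1_of hu)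
    | 1 =>
      have hw := hu.w
      refine ⟨S₀.w S₀.uu, hw.mem, ?_, ?_⟩
      · rw [X.r1_of hw]; exact hne
      · intro i hi
        have hi1 : i = 0 := by
          match i with
          | 0 => rfl
          | 1 => exact absurd rfl hi
        subst hi1
        exact (Car.Comp.r_eq_zero_iff (X.mem_WW_iff.1 hw.mem 0)).1 (X.r0_of hw)

end Model

end SExt

end

end Fermat.Agent.E2
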