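import Fermat.Agent.E2.Main2
import Fermat.Agent.E2K.Can
import Fermat.Agent.SSH.KumX
import Fermat.Agent.SSH.CommQ

/-!
# The involution and the diamonds on Kummer classes
-/

set_option autoImplicit false
set_option linter.unusedSectionVars false
set_option linter.style.haveILetI false

open UpperHalfPlane ModularForm Complex Matrix.SpecialLinearGroup
open scoped MatrixGroups Manifold
open Fermat.Agent.AL Fermat.Agent.ALCoh Fermat.Agent.KumG Fermat.Agent.Cov CongruenceSubgroup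
  ModularCurve Fermat.Agent.ModPoly Fermat.Agent.GamH Polynomial
  IntermediateField Fermat.Agent.RedMod Fermat.Agent.Red AlgebraicCurve Fermat.Agent.RR
  Fermat.Agent.SSH Fermat.Agent.SemiSt Fermat.Agent.Nod Fermat.Agent.Curve Fermat.Agent.ThmC
  Fermat.Agent.E2K

namespace Fermat.Agent.E2

noncomputable section

section Ops

variable {K : Type*} [Field K] [Algebra ℚ K] [IsAlgClosed K] [CharZero K] (ι : K →+* ℂ)
  {q M : ℕ} [hq : Fact q.Prime] [NeZero M]
  {H : Subgroup (ZMod M)ˣ} [hH : Fact ((-1 : (ZMod M)ˣ) ∈ H)] {m : ℕ} [NeZero m]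
  (D : WData q M H) (hM3 : 3 ≤ M)

/-- the involution on classes -/
theorem HasCls_w {x : FG (Gq q M H) K} {ξ : XL (Gq q M H) m} (h : HasCls ι m x ξ) :
    HasCls ι m (wE ι D hM3 x) (actE (Gq q M H) m (WH D) ξ) := by
  obtain ⟨Φ, rfl, h⟩ := h
  refine ⟨WH D Φ, rfl, ?_⟩
  rw [coe_wE, redI_WH]
  exact rep_mop D.ad.fam (fun _ => D.ad.det) h

/-- diamonds on classes -/
theorem HasCls_dia {x : FG (Gq q M H) K} {ξ : XL (Gq q M H) m} (h : HasCls ι m x ξ)
    {γ : SL(2, ℤ)} (hγ : γ ∈ CongruenceSubgroup.Gamma0 (q * M)) {d : (ZMod (q * M))ˣ}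
    (hd : dd (q * M) γ = d) :
    HasCls ι m (diaE (Γ := Gq q M H) ι hγ x)
      (actE (Gq q M H) m (DH (q * M) (HM (dvd_mul_left M q) H) d) ξ) := by
  obtain ⟨Φ, rfl, h⟩ := h
  have h3 : DH (q * M) (HM (dvd_mul_left M q) H) d =
      opL (fam_dia (nz_of_mem (Gq q M H) hγ)) := DH_eq hγ hd
  refine ⟨opL (fam_dia (nz_of_mem (Gq q M H) hγ)) Φ, by rw [h3]; rfl, ?_⟩
  rw [coe_diaE, ← mop_dia (nz_of_mem (Gq q M H) hγ) h.mem, redI_opL]
  exact rep_mop (fam_dia (nz_of_mem (Gq q M H) hγ))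
    (fun _ => by rw [γ.det_coe]; exact one_pos) h

/-- the involution commutes with the Galois action -/
theorem rhoF_WH (hM3 : 3 ≤ M) (σ : K ≃ₐ[ℚ] K) (ξ : XL (Gq q M H) m) :
    rhoF ι m σ (actE (Gq q M H) m (WH D) ξ) = actE (Gq q M H) m (WH D) (rhoF ι m σ ξ) :=
  rhoF_op ι D.ad.fam (fun _ => D.ad.det) (fun x => coe_wE ι D hM3 x)
    (fun σ x => Subtype.ext (wE_gal ι D hM3 (σ : K →+* K) x _ rfl).symm) σ ξ

end Ops

section Fine

open Fermat.Agent.Flat

local notation "Q̄" => AlgebraicClosure ℚ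

attribute [local instance] ThmC.algRK ThmC.isFractionRing_RK

variable {A : ValuationSubring (AlgebraicClosure ℚ)} {q M : ℕ} [hq : Fact q.Prime] [NeZero M]
  {H : Subgroup (ZMod M)ˣ} [hH : Fact ((-1 : (ZMod M)ˣ) ∈ H)] {m : ℕ} [NeZero m]

/-- **The fine form on classes.** -/
theorem fine_cls (hA : A.LiesOverPrime q) (hqM : ¬ q ∣ M) (hM3 : 3 ≤ M) (D : WData q M H)
    (ι : Q̄ →+* ℂ) {Φ : Q̄ ≃ₐ[ℚ] Q̄} (hΦ : A.IsFrobeniusAt Φ q) (hm : ¬ q ∣ m)
    {f : FG (Gq q M H) (K0 A)} {ξ : XL (Gq q M H) m}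
    (hf : HasCls ι m (emb (K0 A) Q̄ (Gq q M H) f) ξ)
    (hv : haveI := isDVR hA
      haveI : CharP (IsLocalRing.ResidueField A) q := RedMod.charP_residue hA
      haveI := CarE.algebraic_K0 (A := A)
      ∀ j, ((qset2 hA hqM hM3 D ι).X.CC j).v f = 0)
    {γ : Fin 2 → FH (IsLocalRing.ResidueField A) M H}
    (hγ : haveI := isDVR hA
      haveI : CharP (IsLocalRing.ResidueField A) q := RedMod.charP_residue hA
      haveI := CarE.algebraic_K0 (A := A)
      ∀ j, ((qset2 hA hqM hM3 D ι).X.CC j).r f = γ j ^ m)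
    {d : (ZMod (q * M))ˣ} (hd : dd (q * M) (exists_γ0 D).choose⁻¹ = d) :
    rhoF ι m Φ (actE (Gq q M H) m (DH (q * M) (HM (dvd_mul_left M q) H) d)
      (actE (Gq q M H) m (WH D) ξ)) = -(q • ξ) := by
  haveI := isDVR hA
  haveI : CharP (IsLocalRing.ResidueField A) q := RedMod.charP_residue hA
  haveI := CarE.algebraic_K0 (A := A)
  haveI : IsAlgClosed (IsLocalRing.ResidueField A) := inferInstance
  haveI : PerfectRing (IsLocalRing.ResidueField A) q := inferInstance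
  obtain ⟨R, hR, hR1⟩ := exists_decAut_frob hΦ
  set s := qset2 hA hqM hM3 D ι with hs
  have hf0 : f ≠ 0 := by
    rintro rfl
    exact hf.ne_zero (map_zero _)
  obtain ⟨x, hx⟩ := s.fine hR1 (natCast_residue_ne_zero hA hm) hf0 hv hγ hf.kd.2
  have hγ0 := inv_mem (exists_γ0 D).choose_spec.1
  have h1 := HasCls_w ι D hM3 hf
  have h2 := HasCls_dia ι h1 hγ0 hd
  have h3 := h2.gal Φ
  have e : actF s.gal.cq R.σ (s.S.δ.D.symm (s.S.w (emb (K0 A) Q̄ (Gq q M H) f))) =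
      galK Φ (diaE (Γ := Gq q M H) ι hγ0 (wE ι D hM3 (emb (K0 A) Q̄ (Gq q M H) f))) := by
    apply Subtype.ext
    rw [coe_actF, hR]
    rfl
  rw [e] at hx
  have h4 := h3.mul (hf.pow q)
  have hx0 : x ≠ 0 := by
    rintro rfl
    rw [zero_pow (NeZero.ne m)] at hx
    exact h4.ne_zero hx.symm
  have h5 := HasCls.pow_self (K := Q̄) (Γ := Gq q M H) ι (m := m) hx0
  rw [hx] at h5
  exact eq_neg_of_add_eq_zero_left (h4.unique h5)

end Fine

end

end Fermat.Agent.E2
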