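import Fermat.Agent.PRem.RmW
import Fermat.Agent.CarM.Hasse

/-!
# The modular unit `Δ / Δ(q)` at the cusps
-/

set_option autoImplicit false
set_option linter.style.haveILetI false
set_option linter.unusedSectionVars false

noncomputable section

namespace Fermat.Agent.E2

open ModularCurve Polynomial IntermediateField Fermat.Agent.ModPoly Fermat.Agent.Red
  Fermat.Agent.RedMod Fermat.Agent.Cusp Fermat.Agent.SemiSt AlgebraicCurve Fermat.Agent.Curve
  Fermat.Agent.RR Fermat.Agent.Nod Fermat.Agent.PRem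

variable {K : Type*} [Field K] [IsAlgClosed K] [CharZero K] {q M : ℕ} [hq : Fact q.Prime]
  [NeZero M]

theorem ord_rF (v : Place K (FF K (q * M))) (hv : v.ord (jF' K (q * M)) < 0) :
    v.ord (rF K q M) = v.ord (jF' K (q * M)) - v.ord (qe K q M (jF' K M)) := by
  have hN : ((q * M : ℕ) : K) ≠ 0 := natCast_ne_zero_K K (q * M)
  haveI := finite_Emb (k := K) (N := q * M) hN
  letI := Fintype.ofFinite (Emb K (q * M))
  obtain ⟨pl, h1, -, h3, -, -⟩ := exists_places (k := K) (N := q * M) hN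
  obtain ⟨τ, rfl⟩ := h3 v hv
  set g : ℤ := (Nat.gcd (q * M) (τ.s ^ 2) : ℤ) with hg
  have hg0 : 0 < g := by
    rw [hg]
    exact_mod_cast Nat.gcd_pos_of_pos_left _ (NeZero.pos (q * M))
  have hpm : ((pp q : ℕ+) : ℕ) ∣ q * M := pp_dvd'
  obtain ⟨c, e, s, κ, h⟩ := τ.exists_data hN
  have hat := h (pp q) hpm
  have hτj : τ.1 (jF' K (q * M)) = Jc 1 (pn (q * M)) := τ.2
  have hj0 : jF' K (q * M) ≠ 0 := jF_ne_zero
  have hq0 : qe K q M (jF' K M) ≠ 0 := by
    intro h0
    have := (qe K q M).toRingHom.injective (h0.trans (map_zero _).symm)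
    exact jF_ne_zero this
  have oj := h1 τ _ hj0
  have oq := h1 τ _ hq0
  have or := h1 τ _ (rF_ne_zero (K := K) (q := q) (M := M))
  have hqj := qe_jF_eq (K := K) (q := q) (M := M) (h := by rw [mul_one]; exact hpm)
  have hqj' : qe K q M (jF' K M) = jm K (pp q) hpm := by
    rw [hqj]
    apply Subtype.ext
    change Jc 1 (pp q * 1) = Jc 1 (pp q)
    rw [mul_one]
  rw [hτj, order_Jc, ← hg] at oj
  rw [hqj', hat.map_j, ← hg, ← hqj'] at oq
  have hr : τ.1 (rF K q M) = HahnSeries.C (κ (pp q : ℕ+)) * Dc (c (pp q : ℕ+)) (e (pp q : ℕ+)) *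
    (Dc 1 (pn (q * M)))⁻¹ := hat.map_r
  rw [hr, ← hg] at or
  have oq' : (Jc (c (pp q : ℕ+)) (e (pp q : ℕ+)) : LaurentSeries K).order =
      g * (pl τ).ord (qe K q M (jF' K M)) := oq
  rw [order_Jc] at oq'
  have hD : (Dc (k := K) 1 (pn (q * M)))⁻¹ ≠ 0 := inv_ne_zero (Dc_ne_zero _ _)
  have hDo : ((Dc (k := K) 1 (pn (q * M)))⁻¹).order = -((pn (q * M) : ℕ+) : ℤ) := by
    have h3 := HahnSeries.order_mul (Dc_ne_zero (k := K) 1 (pn (q * M))) hD
    rw [mul_inv_cancel₀ (Dc_ne_zero _ _), HahnSeries.order_one, order_Dc] at h3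
    linarith
  rw [HahnSeries.order_mul (mul_ne_zero (HahnSeries.C_ne_zero hat.κ_ne) (Dc_ne_zero _ _)) hD,
    HahnSeries.order_mul (HahnSeries.C_ne_zero hat.κ_ne) (Dc_ne_zero _ _), HahnSeries.order_C,
    order_Dc, hDo] at or
  apply mul_left_cancel₀ hg0.ne'
  rw [← or, mul_sub, ← oj, ← oq']
  ring

theorem reg_cusp [FunField K (FF K (q * M))] :
    Reg K (jF' K (q * M))⁻¹ ((rF K q M)⁻¹ / jF' K (q * M) ^ (q - 1)) := by
  intro v hv
  have hj0 : jF' K (q * M) ≠ 0 := jF_ne_zero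
  have hr0 := rF_ne_zero (K := K) (q := q) (M := M)
  have hq1 := hq.out.one_lt
  rw [v.ord_inv] at hv
  have e : v.ord ((rF K q M)⁻¹ / jF' K (q * M) ^ (q - 1)) =
      - v.ord (rF K q M) - ((q : ℤ) - 1) * v.ord (jF' K (q * M)) := by
    rw [ord_div v (inv_ne_zero hr0) (pow_ne_zero _ hj0), v.ord_inv, ord_pow]
    push_cast [hq1.le]
    ring
  right
  rw [e]
  rcases (show v.ord (jF' K (q * M)) ≤ 0 by omega).lt_or_eq with hlt | h0
  · rw [ord_rF v hlt]
    rcases pole_cases (natCast_ne_zero_K K (q * M)) v hlt with h1 | ⟨h1, -⟩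
    · have hx : v.ord (qe K q M (jF' K M)) < 0 := by
        rw [h1] at hlt
        by_contra hcon
        push Not at hcon
        have : (0 : ℤ) ≤ q * v.ord (qe K q M (jF' K M)) := mul_nonneg (by positivity) hcon
        omega
      rw [h1]
      have hq2 : (1 : ℤ) < q := by exact_mod_cast hq1
      nlinarith
    · rw [h1]
      ring_nf
      rfl
  · rw [h0]
    have h1 := (reg_rF (K := K) (q := q) (M := M)).2 v (by rw [h0])
    have h2 := h1.le_ord (inv_ne_zero hr0)
    rw [v.ord_inv] at h2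
    linarith

end Fermat.Agent.E2
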