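import Mathlib

/-!
# A shortcut instance
-/

set_option autoImplicit false

namespace Fermat.Agent.E2

/-- shortcut for the algebra structure of a field of Laurent series -/
@[reducible] noncomputable def fastAlg {k : Type*} [Field k]
    (E : IntermediateField k (LaurentSeries k)) : Algebra k E := inferInstance

end Fermat.Agent.E2
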