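import Fermat.Agent.E2.ClsOps
import Fermat.Agent.E2K.Main

/-!
# Inertia invariant classes of level `Γ₀(q) ∩ Γ_H(M)`
-/

set_option autoImplicit false
set_option linter.unusedSectionVars false
set_option linter.style.haveILetI false

open UpperHalfPlane ModularForm Complex Matrix.SpecialLinearGroup
open scoped MatrixGroups Manifold
open Fermat.Agent.AL Fermat.Agent.ALCoh Fermat.Agent.KumG Fermat.Agent.Cov CongruenceSubgroup
  ModularCurve Fermat.Agent.ModPoly Fermat.Agent.GamH Polynomial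
  IntermediateField Fermat.Agent.RedMod Fermat.Agent.Red AlgebraicCurve Fermat.Agent.RR
  Fermat.Agent.SSH Fermat.Agent.SemiSt Fermat.Agent.Nod Fermat.Agent.Curve Fermat.Agent.ThmC
  Fermat.Agent.E2K Fermat.Agent.Flat

namespace Fermat.Agent.E2

noncomputable section

local notation "Q̄" => AlgebraicClosure ℚ

attribute [local instance] ThmC.algRK ThmC.isFractionRing_RK
attribute [local instance 10000] fastAlg

variable {A : ValuationSubring (AlgebraicClosure ℚ)} {q M : ℕ} [hq : Fact q.Prime] [NeZero M]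
  {H : Subgroup (ZMod M)ˣ} [hH : Fact ((-1 : (ZMod M)ˣ) ∈ H)] {m : ℕ} [NeZero m]

/-- **Frobenius on the inertia invariant classes.** -/
theorem main_XL (hA : A.LiesOverPrime q) (hqM : ¬ q ∣ M) (hM3 : 3 ≤ M) (D : WData q M H)
    (ι : Q̄ →+* ℂ) {r : ℕ} (hr : r.Prime) (hr12 : r % 12 = 11) (hrM : r ∣ M)
    {Φ : Q̄ ≃ₐ[ℚ] Q̄} (hΦ : A.IsFrobeniusAt Φ q) (hm : ¬ q ∣ m)
    (hS : haveI : CharP (IsLocalRing.ResidueField A) q := RedMod.charP_residue hA
      SurjSpz (qset hA hqM hM3 D ι) m)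
    {ξ : XL (Gq q M H) m} (hξ : ∀ σ ∈ A.inertiaSubgroupIn ℚ, rhoF ι m σ ξ = ξ)
    {P : Module.End ℤ (LZ (Gq q M H)) × Module.End ℤ (LZ (GH M H))} (hP : P ∈ heckeP q M H)
    (hP2 : ∀ ω : XL (GH M H) m, actE (GH M H) m P.2 ω = 0)
    {l : ℕ} (hl : l.Prime) (hlN : ¬ l ∣ q * M)
    {d : (ZMod (q * M))ˣ} (hd : dd (q * M) (exists_γ0 D).choose⁻¹ = d) {θ : XL (Gq q M H) m}
    (hθ : θ = actE (Gq q M H) m P.1
      (actE (Gq q M H) m (TH (q * M) (HM (dvd_mul_left M q) H) hl hlN) ξ - (l + 1) • ξ)) :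
    rhoF ι m Φ (actE (Gq q M H) m (DH (q * M) (HM (dvd_mul_left M q) H) d)
      (actE (Gq q M H) m (WH D) θ)) = -(q • θ) := by
  haveI := isDVR hA
  haveI : CharP (IsLocalRing.ResidueField A) q := RedMod.charP_residue hA
  haveI := CarE.algebraic_K0 (A := A)
  haveI : IsAlgClosed (IsLocalRing.ResidueField A) := inferInstance
  haveI : PerfectRing (IsLocalRing.ResidueField A) q := inferInstance
  set s := qset2 hA hqM hM3 D ι with hs
  haveI := s.toSetting.ffq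
  obtain ⟨f, hf⟩ := exists_rep_K0 (A := A) ι hξ
  obtain ⟨f₁, hf₁0, hf₁, hv⟩ := exists_v_zero s hl hlN (ξ := ξ) (f₀ := f) hf
  have hU := unif_qset2 hA hqM hM3 D ι hr hr12 hrM
  have hdvd : ∀ (j : Fin 2) (Q : Place (IsLocalRing.ResidueField A)
      (FH (IsLocalRing.ResidueField A) M H)), (m : ℤ) ∣ Q.ord ((s.X.CC j).r f₁) :=
    fun j Q => s.slope hU hf₁0 hv (NeZero.ne m) hf₁.kd.2 j Q
  obtain ⟨g, hg0, hg, hgv, β, hβ⟩ := exists_pow_red s hS hf₁ hv hdvd hP hP2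
  rw [hθ]
  exact fine_cls hA hqM hM3 D ι hΦ hm hg hgv (fun j => (hβ j).2) hd

end

end Fermat.Agent.E2
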