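import Fermat.Agent.E2.Swap
import Fermat.Agent.SSH.Unip

/-!
# The toric part: Frobenius, and Frobenius composed with the Atkin-Lehner involution
-/

set_option autoImplicit false
set_option linter.style.haveILetI false
set_option linter.unusedSectionVars false

noncomputable section

namespace Fermat.Agent.E2

open ModularCurve Polynomial IntermediateField Fermat.Agent.ModPoly Fermat.Agent.Red
  Fermat.Agent.RedMod Fermat.Agent.Cov Fermat.Agent.SemiSt AlgebraicCurve Fermat.Agent.Nod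
  Fermat.Agent.Curve Fermat.Agent.RR Fermat.Agent.SSH

variable {A K k : Type*} [CommRing A] [IsDomain A] [ValuationRing A]
  [Field K] [IsAlgClosed K] [CharZero K] [Algebra A K] [IsFractionRing A K]
  [Field k] [IsAlgClosed k] [Algebra A k]
  {FM Fq : IntermediateField K (LaurentSeries K)} {E : IntermediateField k (LaurentSeries k)}
  {ι : Type*} [Fintype ι] {y : ι → LaurentSeries ℤ} {q : ℕ} [hq : Fact q.Prime]
  {S : SSD A FM Fq E y q} [CharP k q] [PerfectRing k q]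
  [FunField k E] [FunField K FM] [FunField K Fq]
  (Γ : S.Gal) (P : S.Pol)

section Sw

variable [Algebra A Fq] [IsScalarTower A K Fq] [Algebra A E] [IsScalarTower A k E]

/-- the automorphism `Φ ⟨⟩⁻¹ w` -/
def swθ (R : RedAut A K k) : SemilinearAut K Fq :=
  SSD.gF Γ R S.δ.symm * SemilinearAut.ofAlgAut S.w

theorem swθ_smul (R : RedAut A K k) (x : Fq) : swθ Γ R • x = SSD.gF Γ R S.δ.symm • (S.w x) := by
  rw [swθ, mul_smul, ofAlgAut_smul]

theorem swθ_inv_smul (R : RedAut A K k) (x : Fq) :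
    (swθ Γ R)⁻¹ • x = S.w ((SSD.gF Γ R S.δ.symm)⁻¹ • x) := by
  rw [inv_smul_eq_iff, swθ_smul, S.w_w, smul_inv_smul]

include Γ in
theorem gE_frob {R : RedAut A K k} (h : R.σb = frobeniusEquiv k q) : S.gE R S.δ.symm = S.fd.g := by
  rw [SSD.gE, h, SSD.fd_g]
  exact SSD.g_comm Γ (frobeniusEquiv k q)

include P in
theorem pole_be (v : Place K Fq) :
    max (-v.ord S.jq) 0 ≤ (q : ℕ) * max (-v.ord (S.be S.jM)) 0 := by
  have hq1 : (1 : ℤ) < q := by exact_mod_cast hq.out.one_lt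
  rcases le_or_gt 0 (v.ord S.jq) with h | h
  · rw [max_eq_right (by linarith)]
    have := le_max_right (-v.ord (S.be S.jM)) 0
    positivity
  · have h1 : -v.ord S.jq ≤ q * (-v.ord (S.be S.jM)) := by
      rcases P.cases v h with h1 | ⟨h1, -⟩
      · rw [h1]; linarith
      · rw [h1]
        have h2 : 0 < -v.ord S.jq := by linarith
        have h3 : -v.ord S.jq ≤ (q : ℤ) * (-v.ord S.jq) := by nlinarith
        have h4 : (q : ℤ) * (-v.ord S.jq) ≤ q * (q * (-v.ord S.jq)) := by nlinarith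
        linarith
    rw [max_eq_left (by linarith)]
    exact h1.trans (mul_le_mul_of_nonneg_left (le_max_left _ _) (by positivity))

theorem max_ord_sub' {v : Place K Fq} {x : Fq} (b : K) :
    max (-v.ord (x - algebraMap K Fq b)) 0 = max (-v.ord x) 0 := by
  have hiff : 0 ≤ v.ord (x - algebraMap K Fq b) ↔ 0 ≤ v.ord x := by
    rw [← mem_iff_ord_nonneg, ← mem_iff_ord_nonneg]
    exact ⟨fun h => by simpa using add_mem h (v.algebraMap_mem' b),
      fun h => sub_mem h (v.algebraMap_mem' b)⟩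
  rcases le_or_gt 0 (v.ord x) with h | h
  · have h1 := hiff.2 h
    rw [max_eq_right (by linarith), max_eq_right (by linarith)]
  · rcases eq_or_ne b 0 with rfl | hb
    · simp
    have hx0 : x ≠ 0 := by
      rintro rfl
      rw [v.ord_zero] at h
      exact lt_irrefl _ h
    have hb0 : -algebraMap K Fq b ≠ 0 := neg_ne_zero.2 ((_root_.map_ne_zero _).2 hb)
    have h2 := ord_add_eq_of_lt v hx0 hb0 (by rw [ord_neg, ord_algebraMap]; exact h)
    rw [← sub_eq_add_neg] at h2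
    rw [h2]

theorem swθ_t (b : A) (R : RedAut A K k) :
    swθ Γ R • (S.ng b).t = S.be S.jM - algebraMap K Fq (R.σ (algebraMap A K b)) := by
  have e2 : S.w (S.jq - algebraMap K Fq (algebraMap A K b)) =
      S.be S.jM - algebraMap K Fq (algebraMap A K b) := by
    rw [S.map_w_sub, AlgEquiv.commutes]
    rfl
  have e3 : S.δ.D.symm (S.be S.jM - algebraMap K Fq (algebraMap A K b)) =
      S.be S.jM - algebraMap K Fq (algebraMap A K b) := by
    have h := S.δ.D.symm.toRingEquiv.toRingHom.map_sub (S.be S.jM)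
      (algebraMap K Fq (algebraMap A K b))
    refine h.trans ?_
    change S.δ.D.symm (S.be S.jM) - S.δ.D.symm (algebraMap K Fq (algebraMap A K b)) = _
    rw [S.D_symm_be, S.θ_symm_jM, AlgEquiv.commutes]
  have e4 : actF Γ.cq R.σ (S.be S.jM) = S.be S.jM := by
    apply Subtype.ext
    rw [coe_actF, SSD.coe_be_jM, ModularCurve.coeffMap_qExpand, coeffMap_jqModC]
  rw [swθ_smul, SSD.ng_t, e2, SSD.gF_smul]
  change actF Γ.cq R.σ (S.δ.D.symm _) = _
  rw [e3, map_sub, e4, actF_algebraMap]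

variable [Nonempty (ι ⊕ (ι × Fin q))]

/-- The automorphism exchanging the components. -/
def nodSwap (b : A) (R : RedAut A K k) (hR : R.σb = frobeniusEquiv k q) :
    NodSwap (S.ng b) S.G.hk S.fd.nodes where
  θ := swθ Γ R
  g := S.fd.g
  hW x hx := by
    rw [swθ_smul]
    exact SSD.gal_mem Γ (S.w_mem_WW hx)
  hW' x hx := by
    rw [swθ_inv_smul]
    exact S.w_mem_WW (SSD.gal_mem' Γ hx)
  hπ x hx := by
    have h1 : swθ Γ R • x ∈ S.WW := by
      rw [swθ_smul]
      exact SSD.gal_mem Γ (S.w_mem_WW hx)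
    change S.sred ⟨swθ Γ R • x, h1⟩ = (S.fd.g • (S.sred ⟨x, hx⟩).2, S.fd.g • (S.sred ⟨x, hx⟩).1)
    have h2 : SSD.gF Γ R S.δ.symm • S.w x ∈ S.WW := SSD.gal_mem Γ (S.w_mem_WW hx)
    have e1 : (⟨swθ Γ R • x, h1⟩ : S.WW) = ⟨_, h2⟩ := Subtype.ext (swθ_smul Γ R x)
    rw [e1, SSD.sred_gal Γ (S.w_mem_WW hx) h2, S.sred_w hx, gE_frob Γ hR]
    rfl
  c := q
  ht v := by
    have h1 : ((swθ Γ R)⁻¹ • v).ord (S.ng b).t = v.ord (swθ Γ R • (S.ng b).t) := by
      have := SemilinearAut.ord_smul (swθ Γ R)⁻¹ v (swθ Γ R • (S.ng b).t)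
      rwa [inv_smul_smul] at this
    rw [h1, swθ_t, max_ord_sub', SSD.ng_t, max_ord_sub']
    exact pole_be P v
  hv j := by
    change j.1.1 = S.fd.g • (S.fd.g • j.1.1)
    exact j.1.2.2.symm
  hw j := rfl

end Sw

variable (hS : SP S.G) (hgen : rrGenus k E = rrGenus K FM)
  (hA : ∃ t : A, t ≠ 0 ∧ ¬ IsUnit t)
  (hrank : ∀ a c : A, algebraMap A k a = 0 → c ≠ 0 → ∃ n : ℕ, c ∣ a ^ n)

include P hS hgen hA hrank in
/-- **The fine form**: `Φ ⟨⟩⁻¹ w` acts as `-q` on Kummer classes whose reductions are trivial. -/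
theorem fine {R : RedAut A K k} (hR : R.σb = frobeniusEquiv k q)
    {m : ℕ} (hm : (m : k) ≠ 0) {u : Fq} {γ₁ γ₂ : E}
    (hu : S.HasRed u ((γ₁ ^ m : E) : LaurentSeries k) ((γ₂ ^ m : E) : LaurentSeries k))
    (h1 : γ₁ ≠ 0) (h2 : γ₂ ≠ 0) (hD : ∀ v : Place K Fq, (m : ℤ) ∣ v.ord u) :
    ∃ x : Fq, x ^ m = SSD.gF Γ R S.δ.symm • (S.w u) * u ^ q := by
  letI := algA A Fq
  haveI := tower_algA A Fq
  letI := algA A E
  haveI := tower_algA A E
  haveI := S.nonempty_ι'
  have hq1 := hq.out.one_lt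
  obtain ⟨b', hb'⟩ := exists_pow_ne k (n := q * q) (by nlinarith)
  obtain ⟨b, rfl⟩ := S.G.hk b'
  have H := SSD.nodMod_ng P hS hgen b hb'
  have hπ : (S.ng b).π ⟨u, hu.mem⟩ = (γ₁, γ₂) ^ m := hu.sred hu.mem
  obtain ⟨x, hx⟩ := (nodSwap Γ P b R hR).frob_fine (S.ng_hspan b) H hA hrank (Q := q) (by
    intro z
    exact S.fd.baseAut_apply z) hm hu.mem hπ h1 h2 hD
  refine ⟨x, ?_⟩
  rw [hx]
  change (swθ Γ R • u) * u ^ q = _
  rw [swθ_smul]

include P hS hgen hA hrank in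
/-- **The toric part**: Frobenius acts as `q²` on Kummer classes whose reductions are trivial. -/
theorem toric {R : RedAut A K k} (hR : R.σb = frobeniusEquiv k q * frobeniusEquiv k q)
    {m : ℕ} (hm : (m : k) ≠ 0) {u : Fq} {γ₁ γ₂ : E}
    (hu : S.HasRed u ((γ₁ ^ m : E) : LaurentSeries k) ((γ₂ ^ m : E) : LaurentSeries k))
    (h1 : γ₁ ≠ 0) (h2 : γ₂ ≠ 0) (hD : ∀ v : Place K Fq, (m : ℤ) ∣ v.ord u) :
    ∃ x : Fq, x ^ m = (SSD.gF Γ R S.δ2 • u) / u ^ (q * q) := by
  letI := algA A Fq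
  haveI := tower_algA A Fq
  letI := algA A E
  haveI := tower_algA A E
  haveI := S.nonempty_ι'
  have hq1 := hq.out.one_lt
  obtain ⟨b', hb'⟩ := exists_pow_ne k (n := q * q) (by nlinarith)
  obtain ⟨b, rfl⟩ := S.G.hk b'
  have H := SSD.nodMod_ng P hS hgen b hb'
  have hπ : (S.ng b).π ⟨u, hu.mem⟩ = (γ₁, γ₂) ^ m := hu.sred hu.mem
  exact NodAut.frob_toric (S.ng_hspan b) H hA hrank
    (SSD.nodAut Γ b R S.δ2 (SSD.fix_of_eq_sq Γ hR)) rfl (Q := q * q) (by
      intro z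
      change R.σb z = _
      rw [hR, RingAut.mul_apply, frobeniusEquiv_apply, frobeniusEquiv_apply, frobenius_def,
        frobenius_def, ← pow_mul]) hm hu.mem hπ h1 h2 hD

end Fermat.Agent.E2
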