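import Fermat.Agent.E2.Desc
import Fermat.Agent.SSH.Frob
import Fermat.Agent.Car.Rig

/-!
# Lifting functions over the small field
-/

set_option autoImplicit false
set_option linter.unusedSectionVars false
set_option linter.style.haveILetI false

open Module ModularCurve Polynomial IntermediateField Fermat.Agent.ModPoly Fermat.Agent.Red
  Fermat.Agent.RedMod Fermat.Agent.Cov Fermat.Agent.SemiSt AlgebraicCurve Fermat.Agent.Nod
  Fermat.Agent.Curve Fermat.Agent.RR Fermat.Agent.SSH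

namespace Fermat.Agent.E2

noncomputable section

section Stable

variable {K F Ω L : Type*} [Field K] [Field F] [Algebra K F] [Field Ω] [IsAlgClosed Ω] [CharZero Ω]
    [Field L] [Algebra Ω L] [FunField Ω L] [Algebra K Ω] (D : Car.Desc K F Ω L)

theorem reg_stable {σ : L →+* L} (hσ : σ ∈ D.Γ) {s x : L} (hs : σ s = s)
    (htr : Transcendental Ω s) (h : Reg Ω s x) : Reg Ω s (σ x) := by
  rw [reg_iff_isIntegralElem htr] at h ⊢
  choose g hg using D.Γ_semi σ hσ
  have hinj := (algebraMap Ω L).injective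
  let g' : Ω →+* Ω :=
    { toFun := g
      map_one' := hinj (by rw [← hg, map_one, map_one])
      map_mul' := fun x y => hinj (by rw [← hg, map_mul, map_mul, map_mul, hg, hg])
      map_zero' := hinj (by rw [← hg, map_zero, map_zero])
      map_add' := fun x y => hinj (by rw [← hg, map_add, map_add, map_add, hg, hg]) }
  obtain ⟨P, hP, hPx⟩ := h
  refine ⟨P.map (mapRingHom g'), hP.map _, ?_⟩
  rw [eval₂_map]
  have e : (aeval s : (Polynomial Ω) →ₐ[Ω] L).toRingHom.comp (mapRingHom g') =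
      σ.comp (aeval s : (Polynomial Ω) →ₐ[Ω] L).toRingHom := by
    apply Polynomial.ringHom_ext
    · intro a
      change aeval s ((C a).map g') = σ (aeval s (C a))
      rw [map_C, aeval_C, aeval_C, hg]
      rfl
    · change aeval s ((X : (Polynomial Ω)).map g') = σ (aeval s X)
      rw [map_X, aeval_X, hs]
  rw [e, ← hom_eval₂, hPx, map_zero]

theorem stable_DD {t : F} (ht : Transcendental Ω (D.emb t)) (a b : ℕ) :
    D.Stable (riemannRochSpace (DD Ω (D.emb t) a b)) := by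
  intro σ hσ x hx
  rw [mem_DD_iff ht] at hx ⊢
  have h1 := D.Γ_emb σ hσ t
  have e1 := reg_stable D hσ h1 ht hx.1
  have e2 := reg_stable D hσ (s := (D.emb t)⁻¹) (by rw [map_inv₀, h1])
    (RR.transcendental_inv ht) hx.2
  rw [map_mul, map_pow, h1] at e1
  rw [map_mul, map_pow, map_inv₀, h1] at e2
  exact ⟨e1, e2⟩

end Stable

section LRemb

variable {A₀ K₀ A Ω k : Type*} [CommRing A₀] [IsDomain A₀] [ValuationRing A₀] [Field K₀]
  [Algebra A₀ K₀] [IsFractionRing A₀ K₀] [CommRing A] [IsDomain A] [ValuationRing A]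
  [Field Ω] [Algebra A Ω] [IsFractionRing A Ω] [Field k]
  [Algebra A k] [Algebra A₀ k] [Algebra K₀ Ω]

/-- compatible extension of the base -/
structure BExt (A₀ K₀ A Ω k : Type*) [CommRing A₀] [Field K₀]
  [Algebra A₀ K₀] [CommRing A] [Field Ω] [Algebra A Ω] [Field k]
  [Algebra A k] [Algebra A₀ k] [Algebra K₀ Ω] where
  j : A₀ →+* A
  h1 : ∀ a, algebraMap K₀ Ω (algebraMap A₀ K₀ a) = algebraMap A Ω (j a)
  h2 : ∀ a, algebraMap A₀ k a = algebraMap A k (j a)

theorem LR_emb (B : BExt A₀ K₀ A Ω k) {x : LaurentSeries K₀} {a : LaurentSeries k}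
    (h : LR A₀ x a) : LR A (coeffMap (algebraMap K₀ Ω) x) a := by
  obtain ⟨h1, rfl⟩ := h
  obtain ⟨h2, h3⟩ := SemiSt.coeffMap_mem_WL (A := A₀) (A' := A) (K := K₀) (K' := Ω) (k := k)
    (k' := k) B.j (algebraMap K₀ Ω) (RingHom.id k) B.h1 B.h2 h1
  refine ⟨h2, h3.trans ?_⟩
  rw [coeffMap_id]

end LRemb

section Main

variable {A₀ K₀ A Ω k : Type*} [CommRing A₀] [IsDomain A₀] [ValuationRing A₀] [Field K₀]
  [Algebra A₀ K₀] [IsFractionRing A₀ K₀] [CommRing A] [IsDomain A] [ValuationRing A]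
  [Field Ω] [IsAlgClosed Ω] [CharZero Ω] [Algebra A Ω] [IsFractionRing A Ω] [Field k]
  [IsAlgClosed k] [Algebra A k] [Algebra A₀ k] [Algebra K₀ Ω] (B : BExt A₀ K₀ A Ω k)
  {F₀ : IntermediateField K₀ (LaurentSeries K₀)} {F : IntermediateField Ω (LaurentSeries Ω)}
  {E : IntermediateField k (LaurentSeries k)} {ι : Type*} [Fintype ι] {y : ι → LaurentSeries ℤ}
  (G₀ : GP A₀ F₀ E y) {G : GP A F E y} (hS : SP G) [FunField k E] [FunField Ω F]
  (D : Car.Desc K₀ F₀ Ω F)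
  (hcoe : ∀ x : F₀, (D.emb x : LaurentSeries Ω) = coeffMap (algebraMap K₀ Ω) (x : LaurentSeries K₀))

include hcoe in
theorem emb_j : D.emb ⟨jqModC K₀, G₀.jK⟩ = ⟨jqModC Ω, G.jK⟩ := by
  apply Subtype.ext
  rw [hcoe]
  exact coeffMap_jqModC _

set_option maxHeartbeats 2000000 in
include B G₀ hS hcoe in
/-- Lifting functions with bounded poles at the cusps, over the small field. -/
theorem exists_lift0 (hgen : rrGenus k E = rrGenus Ω F) :
    ∃ n₀ : ℕ, ∀ n, n₀ ≤ n →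
      ∀ c ∈ riemannRochSpace (n • poleDiv k (⟨jqModC k, G.jk⟩ : E)),
      ∃ x : F₀, LR A₀ (x : LaurentSeries K₀) (c : LaurentSeries k) ∧
        D.emb x ∈ riemannRochSpace (DD Ω (⟨jqModC Ω, G.jK⟩ : F) n 0) := by
  letI := algA A F
  haveI := tower_algA A F
  letI := algA A E
  haveI := tower_algA A E
  letI i1 := algA A₀ F₀
  haveI := tower_algA A₀ F₀
  letI i2 := algA A₀ E
  haveI := tower_algA A₀ E
  have hj := emb_j G₀ (G := G) D hcoe
  have H := fibreHypG hS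
  rw [hgen] at H
  obtain ⟨n₀, h0⟩ := Spec.rd_eq_LL H
  refine ⟨n₀, fun n hn c hc => ?_⟩
  have h1 := h0 n 0 (by omega)
  have h2 : c ∈ LL (poleDiv k (⟨jqModC k, G.jk⟩ : E)) (zeroDiv k (⟨jqModC k, G.jk⟩ : E)) 0 n 0 := by
    rw [LL, zero_smul, add_zero, add_zero]
    exact hc
  rw [← h1] at h2
  let V : Submodule Ω F := LL (poleDiv Ω (⟨jqModC Ω, G.jK⟩ : F)) (zeroDiv Ω (⟨jqModC Ω, G.jK⟩ : F)) 0 n 0
  have hVeq : V = riemannRochSpace (DD Ω (⟨jqModC Ω, G.jK⟩ : F) n 0) := by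
    change LL _ _ 0 n 0 = _
    rw [LL, zero_smul, add_zero, add_zero, DD, zero_smul, add_zero]
  haveI hVfin : FiniteDimensional Ω V := H.finiteDimensional_LL 0 n 0
  have hst : D.Stable V := by
    rw [hVeq]
    have := stable_DD D (t := ⟨jqModC K₀, G₀.jK⟩) (by
      rw [hj]; exact transcendental_of F G.jK) n 0
    rwa [hj] at this
  haveI := Car.Desc.finite_low hst
  have hdim := Car.Desc.finrank_low hst
  let M₀ : RedModel A₀ K₀ F₀ k E := (gaussG G₀).toRedModel G₀.hk (gaussG_span G₀)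
  have hd1 := M₀.finrank_rd G₀.hk (D.low V)
  have hd2 := H.M.finrank_rd H.hk V
  have hle : M₀.rd G₀.hk (D.low V) ≤ H.M.rd H.hk V := by
    rintro _ ⟨x, ⟨hxW, hxV⟩, rfl⟩
    obtain ⟨g1, g2⟩ := LR_emb B (x := (x : LaurentSeries K₀)) ⟨hxW, rfl⟩
    rw [← hcoe] at g1
    refine ⟨D.emb x, ⟨g1, hxV⟩, ?_⟩
    apply Subtype.ext
    refine Eq.trans ?_ g2
    exact πL_congr (hcoe x) _ _
  haveI := H.M.finiteDimensional_rd H.hk V
  have heq := Submodule.eq_of_le_of_finrank_eq hle (by rw [hd1, hd2, hdim])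
  have hz2 : c ∈ M₀.rd G₀.hk (D.low V) := by rw [heq]; exact h2
  obtain ⟨x, ⟨hxW, hxV⟩, hxz⟩ := hz2
  refine ⟨x, ⟨hxW, ?_⟩, ?_⟩
  · rw [← hxz]
    rfl
  · rw [← hVeq]
    exact hxV

include B G₀ hS hcoe in
theorem exists_lift_reg (hgen : rrGenus k E = rrGenus Ω F) {c : E}
    (hc : Reg k (⟨jqModC k, G.jk⟩ : E) c) :
    ∃ x : F₀, LR A₀ (x : LaurentSeries K₀) (c : LaurentSeries k) ∧
      Reg Ω (⟨jqModC Ω, G.jK⟩ : F) (D.emb x) := by
  obtain ⟨n₀, h0⟩ := exists_lift0 B G₀ hS D hcoe hgen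
  obtain ⟨n, hn⟩ := exists_mem_DD (transcendental_of E G.jk) hc
  obtain ⟨x, h1, h3⟩ := h0 (max n n₀) (le_max_right _ _) c (by
    have := L_mono (DD_mono (k := k) (⟨jqModC k, G.jk⟩ : E) (le_max_left n n₀) (le_refl 0)) hn
    rw [DD, zero_smul, add_zero] at this
    exact this)
  exact ⟨x, h1, reg_of_mem_DD h3⟩

end Main

end

end Fermat.Agent.E2
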