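import Fermat.Agent.E2.Lift

/-!
# Lifting functions with poles over the zeros of `j`
-/

set_option autoImplicit false
set_option linter.unusedSectionVars false
set_option linter.style.haveILetI false

open Module ModularCurve Polynomial IntermediateField Fermat.Agent.ModPoly Fermat.Agent.Red
  Fermat.Agent.RedMod Fermat.Agent.Cov Fermat.Agent.SemiSt AlgebraicCurve Fermat.Agent.Nod
  Fermat.Agent.Curve Fermat.Agent.RR Fermat.Agent.SSH

namespace Fermat.Agent.E2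

noncomputable section

variable {A₀ K₀ A Ω k : Type*} [CommRing A₀] [IsDomain A₀] [ValuationRing A₀] [Field K₀]
  [Algebra A₀ K₀] [IsFractionRing A₀ K₀] [CommRing A] [IsDomain A] [ValuationRing A]
  [Field Ω] [IsAlgClosed Ω] [CharZero Ω] [Algebra A Ω] [IsFractionRing A Ω] [Field k]
  [IsAlgClosed k] [Algebra A k] [Algebra A₀ k] [Algebra K₀ Ω] (B : BExt A₀ K₀ A Ω k)
  {F₀ : IntermediateField K₀ (LaurentSeries K₀)} {F : IntermediateField Ω (LaurentSeries Ω)}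
  {E : IntermediateField k (LaurentSeries k)} {ι : Type*} [Fintype ι] {y : ι → LaurentSeries ℤ}
  (G₀ : GP A₀ F₀ E y) {G : GP A F E y} (hS : SP G) [FunField k E] [FunField Ω F]
  (D : Car.Desc K₀ F₀ Ω F)
  (hcoe : ∀ x : F₀, (D.emb x : LaurentSeries Ω) = coeffMap (algebraMap K₀ Ω) (x : LaurentSeries K₀))

set_option maxHeartbeats 2000000 in
include B G₀ hS hcoe in
/-- Lifting functions with bounded poles, over the small field. -/
theorem exists_lift_ab (hgen : rrGenus k E = rrGenus Ω F) :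
    ∃ n₀ : ℕ, ∀ a b, n₀ ≤ a + b →
      ∀ c ∈ riemannRochSpace (DD k (⟨jqModC k, G.jk⟩ : E) a b),
      ∃ x : F₀, LR A₀ (x : LaurentSeries K₀) (c : LaurentSeries k) ∧
        D.emb x ∈ riemannRochSpace (DD Ω (⟨jqModC Ω, G.jK⟩ : F) a b) := by
  letI := algA A F
  haveI := tower_algA A F
  letI := algA A E
  haveI := tower_algA A E
  letI i1 := algA A₀ F₀
  haveI := tower_algA A₀ F₀
  letI i2 := algA A₀ E
  haveI := tower_algA A₀ E
  have hj := emb_j G₀ (G := G) D hcoe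
  have H := fibreHypG hS
  rw [hgen] at H
  obtain ⟨n₀, h0⟩ := Spec.rd_eq_LL H
  refine ⟨n₀, fun a b hn c hc => ?_⟩
  have h1 := h0 a b hn
  have h2 : c ∈ LL (poleDiv k (⟨jqModC k, G.jk⟩ : E)) (zeroDiv k (⟨jqModC k, G.jk⟩ : E)) 0 a b := by
    rw [LL, add_zero]
    exact hc
  rw [← h1] at h2
  let V : Submodule Ω F := LL (poleDiv Ω (⟨jqModC Ω, G.jK⟩ : F)) (zeroDiv Ω (⟨jqModC Ω, G.jK⟩ : F)) 0 a b
  have hVeq : V = riemannRochSpace (DD Ω (⟨jqModC Ω, G.jK⟩ : F) a b) := by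
    change LL _ _ 0 a b = _
    rw [LL, add_zero, DD]
  haveI hVfin : FiniteDimensional Ω V := H.finiteDimensional_LL 0 a b
  have hst : D.Stable V := by
    rw [hVeq]
    have := stable_DD D (t := ⟨jqModC K₀, G₀.jK⟩) (by
      rw [hj]; exact transcendental_of F G.jK) a b
    rwa [hj] at this
  haveI := Car.Desc.finite_low hst
  have hdim := Car.Desc.finrank_low hst
  let M₀ : RedModel A₀ K₀ F₀ k E := (gaussG G₀).toRedModel G₀.hk (gaussG_span G₀)
  have hd1 := M₀.finrank_rd G₀.hk (D.low V)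
  have hd2 := H.M.finrank_rd H.hk V
  have hle : M₀.rd G₀.hk (D.low V) ≤ H.M.rd H.hk V := by
    rintro _ ⟨x, ⟨hxW, hxV⟩, rfl⟩
    obtain ⟨g1, g2⟩ := LR_emb B (x := (x : LaurentSeries K₀)) ⟨hxW, rfl⟩
    rw [← hcoe] at g1
    refine ⟨D.emb x, ⟨g1, hxV⟩, ?_⟩
    apply Subtype.ext
    refine Eq.trans ?_ g2
    exact πL_congr (hcoe x) _ _
  haveI := H.M.finiteDimensional_rd H.hk V
  have heq := Submodule.eq_of_le_of_finrank_eq hle (by rw [hd1, hd2, hdim])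
  have hz2 : c ∈ M₀.rd G₀.hk (D.low V) := by rw [heq]; exact h2
  obtain ⟨x, ⟨hxW, hxV⟩, hxz⟩ := hz2
  refine ⟨x, ⟨hxW, ?_⟩, ?_⟩
  · rw [← hxz]
    rfl
  · rw [← hVeq]
    exact hxV

include B G₀ hS hcoe in
theorem exists_lift_reg_inv (hgen : rrGenus k E = rrGenus Ω F) {c : E}
    (hc : Reg k (⟨jqModC k, G.jk⟩ : E)⁻¹ c) :
    ∃ x : F₀, LR A₀ (x : LaurentSeries K₀) (c : LaurentSeries k) ∧
      Reg Ω (⟨jqModC Ω, G.jK⟩ : F)⁻¹ (D.emb x) := by
  obtain ⟨n₀, h0⟩ := exists_lift_ab B G₀ hS D hcoe hgen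
  obtain ⟨n, hn⟩ := exists_mem_DD (RR.transcendental_inv (transcendental_of E G.jk)) hc
  rw [DD_inv] at hn
  obtain ⟨x, h1, h3⟩ := h0 0 (max n n₀) (by omega) c
    (L_mono (DD_mono (k := k) (⟨jqModC k, G.jk⟩ : E) (le_refl 0) (le_max_left n n₀)) hn)
  refine ⟨x, h1, ?_⟩
  rw [← DD_inv] at h3
  exact reg_of_mem_DD h3

end

end Fermat.Agent.E2
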