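import Fermat.Agent.E2.Set2
import Fermat.Agent.E2.Cusp0
import Fermat.Agent.CarE.Phi

/-!
# The modular unit at the level `Γ₀(q) ∩ Γ_H(M)`
-/

set_option autoImplicit false
set_option linter.unusedSectionVars false
set_option linter.style.haveILetI false

open UpperHalfPlane ModularForm Complex Matrix.SpecialLinearGroup
open scoped MatrixGroups Manifold
open Fermat.Agent.AL Fermat.Agent.ALCoh Fermat.Agent.KumG Fermat.Agent.Cov CongruenceSubgroup
  ModularCurve Fermat.Agent.ModPoly Fermat.Agent.GamH Polynomial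
  IntermediateField Fermat.Agent.RedMod Fermat.Agent.Red AlgebraicCurve Fermat.Agent.RR
  Fermat.Agent.SSH Fermat.Agent.SemiSt Fermat.Agent.Nod

namespace Fermat.Agent.E2

noncomputable section

attribute [local instance 10000] fastAlg

section W

variable {K : Type*} [Field K] [IsAlgClosed K] [CharZero K] [Algebra ℚ K] (ι : K →+* ℂ)
  {q M : ℕ} [hq : Fact q.Prime] [NeZero M] {H : Subgroup (ZMod M)ˣ}
  [hH : Fact ((-1 : (ZMod M)ˣ) ∈ H)] (D : WData q M H) (hM3 : 3 ≤ M) (hqM : ¬ q ∣ M)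

theorem hle_Gq (L : Type*) [Field L] [Algebra ℚ L] : FF L (q * M) ≤ FG (Gq q M H) L :=
  FF_le_FG (Fact.out : _ ∈ HM (dvd_mul_left M q) H)

theorem coprime_of (hqM : ¬ q ∣ M) : q.Coprime M := (Nat.Prime.coprime_iff_not_dvd hq.out).2 hqM

/-- two homomorphisms out of `FF` which agree on the generators -/
theorem hom_ext_FF {L : Type*} [Field L] [Algebra K L] {N : ℕ} {f g : FF K N →ₐ[K] L}
    (h : ∀ (m : ℕ+) (hm : (m : ℕ) ∣ N), f (jm K m hm) = g (jm K m hm)) (x : FF K N) :
    f x = g x := by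
  have h4 : x ∈ IntermediateField.adjoin K
      {x : FF K N | ∃ (m : ℕ+) (hm : (m : ℕ) ∣ N), x = jm K m hm} := by
    rw [adjoin_jm_eq_top]; exact IntermediateField.mem_top
  induction h4 using IntermediateField.adjoin_induction with
  | mem x hx =>
    obtain ⟨m, hm, rfl⟩ := hx
    exact h m hm
  | algebraMap x => rw [f.commutes, g.commutes]
  | add x y _ _ hx hy =>
    exact (f.toRingHom.map_add x y).trans ((congrArg₂ _ hx hy).trans (g.toRingHom.map_add x y).symm)
  | inv x _ hx => rw [map_inv₀, map_inv₀, hx]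
  | mul x y _ _ hx hy => rw [map_mul, map_mul, hx, hy]

theorem wE_incl_FF (x : FF K M) :
    wE ι D hM3 (inclusion (hle_Gq (H := H) K) (Cusp.incl K (dvd_mul_left M q) x)) =
      inclusion (hle_Gq (H := H) K) (qe K q M x) := by
  refine hom_ext_FF (f := (wE ι D hM3 : FG (Gq q M H) K →ₐ[K] FG (Gq q M H) K).comp
      ((inclusion (hle_Gq (H := H) K)).comp (Cusp.incl K (dvd_mul_left M q))))
      (g := (inclusion (hle_Gq (H := H) K)).comp (qe K q M)) ?_ x
  intro m hm
  haveI : NeZero (m : ℕ) := ⟨m.ne_zero⟩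
  apply Subtype.ext
  have hw : cst ℂ (qExpand ℤ m (jqModC ℤ)) ∈ FF ℂ M := by
    rw [cst_Jc]
    exact Jc_one_mem hm
  have h : cst K (qExpand ℤ m (jqModC ℤ)) ∈ FG (GH M H) K := by
    rw [cst_Jc]
    exact FH_le_FG hM3 hH.out (FF_le_FH (Jc_one_mem hm))
  have h1 := w_inc0 (K := K) ι hM3 D ⟨_, h⟩
  rw [diaE_FF ι (mem_M (exists_γ0 D).choose_spec.1) hw h] at h1
  have e1 : (inclusion (hle_Gq (H := H) K) (Cusp.incl K (dvd_mul_left M q) (jm K m hm)) :
      FG (Gq q M H) K) = inclusion (incl_le K) ⟨_, h⟩ := by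
    apply Subtype.ext
    exact (cst_Jc m).symm
  change (wE ι D hM3 (inclusion (hle_Gq (H := H) K)
    (Cusp.incl K (dvd_mul_left M q) (jm K m hm))) : LaurentSeries K) = _
  rw [e1, h1]
  change qExpand K q (cst K _) = (qe K q M (jm K m hm) : LaurentSeries K)
  rw [coe_qe, cst_Jc]
  rfl

theorem wE_FF (x : FF K (q * M)) :
    wE ι D hM3 (inclusion (hle_Gq (H := H) K) x) =
      inclusion (hle_Gq (H := H) K) (SemiSt.w K (coprime_of hqM) x) := by
  refine hom_ext_FF (f := (wE ι D hM3 : FG (Gq q M H) K →ₐ[K] FG (Gq q M H) K).comp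
      (inclusion (hle_Gq (H := H) K)))
      (g := (inclusion (hle_Gq (H := H) K)).comp
        (SemiSt.w K (coprime_of hqM) : FF K (q * M) →ₐ[K] FF K (q * M))) ?_ x
  intro m hm
  change wE ι D hM3 (inclusion (hle_Gq (H := H) K) (jm K m hm)) =
    inclusion (hle_Gq (H := H) K) (SemiSt.w K (coprime_of hqM) (jm K m hm))
  by_cases hq' : q ∣ (m : ℕ)
  · obtain ⟨d, hd⟩ := hq'
    have hd0 : 0 < d := by
      rcases Nat.eq_zero_or_pos d with h | h
      · rw [h, mul_zero] at hd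
        exact absurd hd m.ne_zero
      · exact h
    have hdM : d ∣ M := by
      rw [hd] at hm
      exact Nat.dvd_of_mul_dvd_mul_left hq.out.pos hm
    obtain ⟨d', hd'⟩ : ∃ d' : ℕ+, (d' : ℕ) = d := ⟨⟨d, hd0⟩, rfl⟩
    have hm' : m = pn q * d' := by
      apply PNat.eq
      rw [PNat.mul_coe, coe_pn, hd', hd]
    subst hm'
    have hd'' : (d' : ℕ) ∣ M := by rw [hd']; exact hdM
    have e : jm K (pn q * d') hm = qe K q M (jm K d' hd'') := (qe_jm hd'' hm).symm
    rw [e, ← wE_incl_FF ι D hM3, wE_wE, w_qe]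
  · have hmM : (m : ℕ) ∣ M :=
      (Nat.Coprime.dvd_of_dvd_mul_left ((Nat.Prime.coprime_iff_not_dvd hq.out).2 hq').symm hm)
    have e : jm K m hm = Cusp.incl K (dvd_mul_left M q) (jm K m hmM) := rfl
    rw [e, wE_incl_FF, w_incl]

end W

end

end Fermat.Agent.E2
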