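import Fermat.Agent.E2.MU1

/-!
# The modular unit at the level `Γ₀(q) ∩ Γ_H(M)` over the small field
-/

set_option autoImplicit false
set_option linter.unusedSectionVars false
set_option linter.style.haveILetI false

open UpperHalfPlane ModularForm Complex Matrix.SpecialLinearGroup
open scoped MatrixGroups Manifold
open Fermat.Agent.AL Fermat.Agent.ALCoh Fermat.Agent.KumG Fermat.Agent.Cov CongruenceSubgroup
  ModularCurve Fermat.Agent.ModPoly Fermat.Agent.GamH Polynomial
  IntermediateField Fermat.Agent.RedMod Fermat.Agent.Red AlgebraicCurve Fermat.Agent.RR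
  Fermat.Agent.SSH Fermat.Agent.SemiSt Fermat.Agent.Nod

namespace Fermat.Agent.E2

noncomputable section

attribute [local instance 10000] fastAlg

section Coe

variable {L L' : Type*} [Field L] [Field L'] (σ : L →+* L')

theorem coeffMap_Dc (m : ℕ+) : coeffMap σ (Dc 1 m : LaurentSeries L) = Dc 1 m := by
  haveI : NeZero (m : ℕ) := ⟨m.ne_zero⟩
  rw [PRem.Dc_one_eq, PRem.Dc_one_eq, coeffMap_qExpand, coeffMap_deltaC]

theorem coeffMap_rm (m : ℕ+) : coeffMap σ (rm L m) = rm L' m := by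
  rw [rm, map_mul, map_inv₀, coeffMap_Dc, coeffMap_Dc, rm]

end Coe

theorem reg_incl_gen {L : Type*} [Field L] [IsAlgClosed L] [CharZero L]
    {E F : IntermediateField L (LaurentSeries L)} (h : E ≤ F) [FunField L E] [FunField L F]
    {t x : E} (ht : Transcendental L t) (hr : Reg L t x) {t' x' : F}
    (et : inclusion h t = t') (ex : inclusion h x = x') : Reg L t' x' := by
  subst et ex
  exact reg_map (inclusion h) ht hr

namespace Set2

variable {A₀ K₀ A K k : Type*} [CommRing A₀] [IsDomain A₀] [IsDiscreteValuationRing A₀] [Field K₀]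
  [CharZero K₀] [Algebra ℚ K₀]
  [Algebra A₀ K₀] [IsFractionRing A₀ K₀] [CommRing A] [IsDomain A] [ValuationRing A]
  [Field K] [IsAlgClosed K] [CharZero K] [Algebra ℚ K] [Algebra A K] [IsFractionRing A K]
  [Field k] [IsAlgClosed k] [Algebra A k] [Algebra A₀ k] [Algebra K₀ K]
  {q M : ℕ} [hq : Fact q.Prime] [NeZero M]
  {H : Subgroup (ZMod M)ˣ} [hH : Fact ((-1 : (ZMod M)ˣ) ∈ H)] [CharP k q] [PerfectRing k q]
  [Algebra.IsAlgebraic K₀ K] (s : Set2 A₀ K₀ A K k q M H)

variable (K q M H) in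
/-- the modular unit over the large field -/
def UK : FG (Gq q M H) K := (inclusion (hle_Gq (H := H) K) (PRem.rF K q M))⁻¹

theorem coe_UK : (UK K q M H : LaurentSeries K) = (rm K (pp q))⁻¹ := rfl

include s in
theorem exists_U0 : ∃ U : FG (Gq q M H) K₀, emb K₀ K (Gq q M H) U = UK K q M H := by
  apply exists_of_fixed s.hfix
  intro σ
  apply Subtype.ext
  change coeffMap (σ.toRingEquiv : K →+* K) (UK K q M H : LaurentSeries K) = UK K q M H
  rw [coe_UK, map_inv₀, coeffMap_rm]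

/-- the modular unit -/
def U : FG (Gq q M H) K₀ := s.exists_U0.choose

theorem emb_U : emb K₀ K (Gq q M H) s.U = UK K q M H := s.exists_U0.choose_spec

theorem coe_U : (s.U : LaurentSeries K₀) = (rm K₀ (pp q))⁻¹ := by
  apply (coeffMap (algebraMap K₀ K)).injective
  rw [map_inv₀, coeffMap_rm, ← coe_UK (K := K) (q := q) (M := M) (H := H), ← s.emb_U]
  rfl

theorem U_ne : s.U ≠ 0 := by
  intro h
  have h1 := s.coe_U
  rw [h] at h1
  exact inv_ne_zero (rm_ne_zero (k := K₀) (pp q)) h1.symm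

variable (k q M H) in
/-- the reduction of the modular unit -/
def hs : FH k M H := inclusion FF_le_FH (CarM.hs k q M)

theorem coe_hs : (hs k q M H : LaurentSeries k) = (rm k (pp q))⁻¹ := by
  rw [hs, coe_incl_gen, CarM.coe_hs, CarM.hsL, rm, mul_inv, inv_inv, mul_comm, div_eq_mul_inv]

theorem hs_ne : hs k q M H ≠ 0 := by
  intro h
  have h1 := coe_hs (k := k) (q := q) (M := M) (H := H)
  rw [h] at h1
  exact inv_ne_zero (rm_ne_zero (k := k) (pp q)) h1.symm

theorem LR_U : LR A₀ (s.U : LaurentSeries K₀) (hs k q M H : LaurentSeries k) := by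
  rw [s.coe_U, coe_hs]
  exact (PRem.rd_rm (A := A₀) (K := K₀) (k := k) (pp q)).inv (rm_ne_zero _)

theorem wE_UK : wE s.ι s.D s.hM3 (UK K q M H) =
    algebraMap K (FG (Gq q M H) K) ((q : K) ^ 12) * (UK K q M H)⁻¹ := by
  have h : inclusion (hle_Gq (H := H) K) (algebraMap K (FF K (q * M)) (((q : K) ^ 12)⁻¹) *
      (PRem.rF K q M)⁻¹) = (algebraMap K (FG (Gq q M H) K) ((q : K) ^ 12))⁻¹ *
        (inclusion (hle_Gq (H := H) K) (PRem.rF K q M))⁻¹ := by
    rw [map_mul, AlgHom.commutes, map_inv₀ (algebraMap K (FG (Gq q M H) K)),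
      map_inv₀ (inclusion (hle_Gq (H := H) K))]
  rw [UK, map_inv₀, wE_FF s.ι s.D s.hM3 s.hqM, PRem.w_rF, h, mul_inv, inv_inv, inv_inv]

theorem w_U : s.S₀.w s.U = algebraMap K₀ (FG (Gq q M H) K₀) (algebraMap A₀ K₀ ((q : A₀) ^ 12)) *
    s.U⁻¹ := by
  apply (emb K₀ K (Gq q M H)).injective
  have h1 : wE s.ι s.D s.hM3 (emb K₀ K (Gq q M H) s.U) = emb K₀ K (Gq q M H) (s.S₀.w s.U) :=
    s.X.w s.U
  have h2 : algebraMap K₀ K (algebraMap A₀ K₀ ((q : A₀) ^ 12)) = (q : K) ^ 12 := by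
    rw [map_pow, map_natCast, map_pow, map_natCast]
  have h3 : emb K₀ K (Gq q M H) (algebraMap K₀ (FG (Gq q M H) K₀)
      (algebraMap A₀ K₀ ((q : A₀) ^ 12)) * s.U⁻¹) =
      algebraMap K (FG (Gq q M H) K) ((q : K) ^ 12) * (UK K q M H)⁻¹ := by
    rw [map_mul, map_inv₀, s.emb_U, emb_algebraMap, h2]
  rw [h3, ← h1, s.emb_U]
  exact s.wE_UK

variable [FunField K (FG (Gq q M H) K)]

theorem incl_j : inclusion (hle_Gq (H := H) K) (jF' K (q * M)) = s.toSetting.S.jq := by
  apply Subtype.ext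
  rw [coe_incl_gen]
  exact Jc_one_one

theorem reg_UK : Reg K s.toSetting.S.jq (UK K q M H) ∧ Reg K s.toSetting.S.jq (UK K q M H)⁻¹ := by
  haveI := funField_FF (k := K) (M := q * M) (natCast_ne_zero_K K (q * M))
  obtain ⟨h1, h2⟩ := PRem.reg_rF (K := K) (q := q) (M := M)
  refine ⟨reg_incl_gen (hle_Gq (H := H) K) (RR.transcendental_jF _) h2 s.incl_j ?_,
    reg_incl_gen (hle_Gq (H := H) K) (RR.transcendental_jF _) h1 s.incl_j ?_⟩
  · exact map_inv₀ _ _
  · exact (inv_inv _).symm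

theorem reg_cusp_UK : Reg K s.toSetting.S.jq⁻¹ (UK K q M H / s.toSetting.S.jq ^ (q - 1)) := by
  haveI := funField_FF (k := K) (M := q * M) (natCast_ne_zero_K K (q * M))
  have e := s.incl_j
  refine reg_incl_gen (hle_Gq (H := H) K) (RR.transcendental_inv (RR.transcendental_jF _))
    (reg_cusp (K := K) (q := q) (M := M)) ?_ ?_
  · rw [map_inv₀, e]
  · rw [map_div₀, map_inv₀, map_pow, e]
    rfl

variable [FunField k (FH k M H)]

omit [FunField K (FG (Gq q M H) K)] in
theorem hs_cusp (Q : Place k (FH k M H)) (hQ : Q.ord s.S₀.jE < 0) :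
    Q.ord (hs k q M H) = ((q - 1 : ℕ) : ℤ) * Q.ord s.S₀.jE := by
  have e1 : s.S₀.jE = inclusion (FF_le_FH (k := k) (N := M) (H := H)) (jF' k M) := by
    apply Subtype.ext
    rw [coe_incl_gen]
    exact Jc_one_one.symm
  rw [e1] at hQ ⊢
  haveI := funField_FF (k := k) (M := M) s.hM
  obtain ⟨u, e, he, h⟩ := exists_restrict (inclusion (FF_le_FH (k := k) (N := M) (H := H))) Q
    (j := jF' k M) hQ.ne
  have hj0 : jF' k M ≠ 0 := Cusp.jF_ne_zero
  have hu : u.ord (jF' k M) < 0 := by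
    rw [h _ hj0] at hQ
    by_contra hcon
    push Not at hcon
    have := mul_nonneg he.le hcon
    linarith
  have h2 := CarM.hs_ord (q := q) s.hM u hu
  rw [hs, h _ (CarM.hs_ne (k := k) (q := q) (M := M)), h _ hj0, h2]
  have := hq.out.one_lt
  push_cast [this.le]
  ring

end Set2

end

end Fermat.Agent.E2
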