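import Fermat.Agent.E2.Ord12

/-!
# The regular two component model at the level `Γ₀(q) ∩ Γ_H(M)`
-/

set_option autoImplicit false
set_option linter.unusedSectionVars false
set_option linter.style.haveILetI false

open UpperHalfPlane ModularForm Complex Matrix.SpecialLinearGroup
open scoped MatrixGroups Manifold
open Fermat.Agent.AL Fermat.Agent.ALCoh Fermat.Agent.KumG Fermat.Agent.Cov CongruenceSubgroup
  ModularCurve Fermat.Agent.ModPoly Fermat.Agent.GamH Polynomial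
  IntermediateField Fermat.Agent.RedMod Fermat.Agent.Red AlgebraicCurve Fermat.Agent.RR
  Fermat.Agent.SSH Fermat.Agent.SemiSt Fermat.Agent.Nod Fermat.Agent.Curve Fermat.Agent.ThmC

namespace Fermat.Agent.E2

noncomputable section

attribute [local instance 10000] fastAlg

section Abs

variable {A₀ K₀ A Ω k : Type*} [CommRing A₀] [IsDomain A₀] [IsDiscreteValuationRing A₀] [Field K₀]
  [Algebra A₀ K₀] [IsFractionRing A₀ K₀] [CommRing A] [IsDomain A] [ValuationRing A]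
  [Field Ω] [IsAlgClosed Ω] [CharZero Ω] [Algebra A Ω] [IsFractionRing A Ω] [Field k]
  [IsAlgClosed k] [Algebra A k] [Algebra A₀ k] [Algebra K₀ Ω]
  {FM₀ Fq₀ : IntermediateField K₀ (LaurentSeries K₀)}
  {FM Fq : IntermediateField Ω (LaurentSeries Ω)}
  {E : IntermediateField k (LaurentSeries k)} {ι : Type*} [Fintype ι] {y : ι → LaurentSeries ℤ}
  {q : ℕ} [hq : Fact q.Prime] [CharP k q] [PerfectRing k q]
  {S₀ : SSD A₀ FM₀ Fq₀ E y q} {S : SSD A FM Fq E y q} (X : SExt S₀ S)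
  [FunField k E] [FunField Ω FM] [FunField Ω Fq] (hS : SP S.G)
  (hgen : rrGenus k E = rrGenus Ω FM) (P : S.Pol)
  [Algebra.IsAlgebraic K₀ Ω] [CharZero K₀]
  [Algebra A₀ Fq₀] [IsScalarTower A₀ K₀ Fq₀] [Algebra A₀ E] [IsScalarTower A₀ k E]

/-- constructing the modular unit -/
def mkMU (U : Fq₀) (hs : E) (h0 : LR A₀ (U : LaurentSeries K₀) (hs : LaurentSeries k))
    (hs_ne : hs ≠ 0) (U_ne : U ≠ 0)
    (w_U : S₀.w U = algebraMap K₀ Fq₀ (algebraMap A₀ K₀ ((q : A₀) ^ 12)) * U⁻¹)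
    (reg : Reg Ω S.jq (X.Dq.emb U)) (reg' : Reg Ω S.jq (X.Dq.emb U)⁻¹)
    (node : ∀ Q : Place k E, 0 ≤ Q.ord S₀.jE → 1 ≤ Q.ord hs → 12 ≤ Q.ord hs) : X.MU hS where
  U := U
  hs := hs
  h0 := h0
  hs_ne := hs_ne
  U_ne := U_ne
  w_U := w_U
  reg := reg
  reg' := reg'
  node Q hQ hG := by
    have hv0 : (X.CC 0).v U = 0 := X.v0_zero h0 (fun h => hs_ne (Subtype.ext h))
    have hv1 : (X.CC 1).v U = 12 := by
      rw [X.v1_eq_w, w_U, Car.Comp.v_mul _ _ (inv_ne_zero U_ne), Car.Comp.v_inv, hv0, map_pow,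
        map_pow, Car.Comp.v_pow, X.v_q 0]
      · norm_num
      · rw [Ne, map_eq_zero, map_eq_zero_iff _ (IsFractionRing.injective A₀ K₀)]
        exact pow_ne_zero _ X.q_ne
    have hB : U ∈ (X.cm hS).B := by
      rw [X.mem_B hS]
      refine ⟨?_, reg⟩
      rw [X.mem_WW_iff, Fin.forall_fin_two]
      exact ⟨Car.Comp.mem_of_v (by rw [hv0]), Car.Comp.mem_of_v (by rw [hv1]; norm_num)⟩
    have h1 := hG.2 U hB
    have hr0 : (X.CC 0).r U = hs := X.r0_eq h0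
    have hr1 : (X.CC 1).r U = 0 :=
      (Car.Comp.r_eq_zero_iff (X.memB1 hS hB)).2 (Or.inr (by rw [hv1]; norm_num))
    rw [hr0, hr1, val_zero] at h1
    have h2 := X.reg0 hS hB Q hQ
    rw [hr0] at h2
    rw [val_eq_zero_iff h2] at h1
    exact node Q hQ (h1.le_ord hs_ne)

end Abs

namespace Set2

variable {A₀ K₀ A K k : Type*} [CommRing A₀] [IsDomain A₀] [IsDiscreteValuationRing A₀] [Field K₀]
  [CharZero K₀] [Algebra ℚ K₀]
  [Algebra A₀ K₀] [IsFractionRing A₀ K₀] [CommRing A] [IsDomain A] [ValuationRing A]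
  [Field K] [IsAlgClosed K] [CharZero K] [Algebra ℚ K] [Algebra A K] [IsFractionRing A K]
  [Field k] [IsAlgClosed k] [Algebra A k] [Algebra A₀ k] [Algebra K₀ K]
  {q M : ℕ} [hq : Fact q.Prime] [NeZero M]
  {H : Subgroup (ZMod M)ˣ} [hH : Fact ((-1 : (ZMod M)ˣ) ∈ H)] [CharP k q] [PerfectRing k q]
  [Algebra.IsAlgebraic K₀ K] (s : Set2 A₀ K₀ A K k q M H)
  [FunField k (FH k M H)] [FunField K (FG (GH M H) K)] [FunField K (FG (Gq q M H) K)]
  [Algebra A₀ (FG (Gq q M H) K₀)] [IsScalarTower A₀ K₀ (FG (Gq q M H) K₀)]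
  [Algebra A₀ (FH k M H)] [IsScalarTower A₀ k (FH k M H)]

theorem reg_U : Reg K s.toSetting.S.jq (s.X.Dq.emb s.U) ∧
    Reg K s.toSetting.S.jq (s.X.Dq.emb s.U)⁻¹ := by
  have h := s.reg_UK
  rw [← s.emb_U] at h
  exact h

/-- the modular unit -/
def mu (hU : s.Unif) : s.X.MU s.toSetting.sp :=
  mkMU s.X s.toSetting.sp s.U (hs k q M H) s.LR_U hs_ne s.U_ne s.w_U s.reg_U.1 s.reg_U.2
    (fun _ hQ hp => s.ord_hs hU hQ hp)

theorem mu_cusp (hU : s.Unif) : (s.mu hU).Cusp where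
  reg := by
    have h := s.reg_cusp_UK
    rw [← s.emb_U] at h
    exact h
  ord Q hQ := s.hs_cusp Q hQ

end Set2

end

end Fermat.Agent.E2
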