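import Fermat.Agent.E2.Main1
import Fermat.Agent.E2.Fine
import Fermat.Agent.CarE.BaseInst

/-!
# Slopes, and the toric part, at the level `Γ₀(q) ∩ Γ_H(M)`
-/

set_option autoImplicit false
set_option linter.unusedSectionVars false
set_option linter.style.haveILetI false

open UpperHalfPlane ModularForm Complex Matrix.SpecialLinearGroup
open scoped MatrixGroups Manifold
open Fermat.Agent.AL Fermat.Agent.ALCoh Fermat.Agent.KumG Fermat.Agent.Cov CongruenceSubgroup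
  ModularCurve Fermat.Agent.ModPoly Fermat.Agent.GamH Polynomial
  IntermediateField Fermat.Agent.RedMod Fermat.Agent.Red AlgebraicCurve Fermat.Agent.RR
  Fermat.Agent.SSH Fermat.Agent.SemiSt Fermat.Agent.Nod Fermat.Agent.Curve Fermat.Agent.ThmC

namespace Fermat.Agent.E2

noncomputable section

attribute [local instance 10000] fastAlg

namespace SExt

variable {A₀ K₀ A Ω k : Type*} [CommRing A₀] [IsDomain A₀] [IsDiscreteValuationRing A₀] [Field K₀]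
  [Algebra A₀ K₀] [IsFractionRing A₀ K₀] [CommRing A] [IsDomain A] [ValuationRing A]
  [Field Ω] [IsAlgClosed Ω] [CharZero Ω] [Algebra A Ω] [IsFractionRing A Ω] [Field k]
  [IsAlgClosed k] [Algebra A k] [Algebra A₀ k] [Algebra K₀ Ω]
  {FM₀ Fq₀ : IntermediateField K₀ (LaurentSeries K₀)}
  {FM Fq : IntermediateField Ω (LaurentSeries Ω)}
  {E : IntermediateField k (LaurentSeries k)} {ι : Type*} [Fintype ι] {y : ι → LaurentSeries ℤ}
  {q : ℕ} [hq : Fact q.Prime] [CharP k q] [PerfectRing k q]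
  {S₀ : SSD A₀ FM₀ Fq₀ E y q} {S : SSD A FM Fq E y q} (X : SExt S₀ S)

/-- reductions of units -/
theorem hasRed_emb {f : Fq₀} (hv : ∀ j, (X.CC j).v f = 0) {m : ℕ} {γ : Fin 2 → E}
    (hγ : ∀ j, (X.CC j).r f = γ j ^ m) :
    S.HasRed (X.Dq.emb f) ((γ 0 ^ m : E) : LaurentSeries k) ((γ 1 ^ m : E) : LaurentSeries k) := by
  have h := X.hasRed (X.hasRed_r (Car.Comp.mem_of_v (hv 0).ge) (Car.Comp.mem_of_v (hv 1).ge))
  rw [hγ 0, hγ 1] at h
  exact h

theorem γ_ne {f : Fq₀} (hf : f ≠ 0) (hv : ∀ j, (X.CC j).v f = 0) {m : ℕ} (hm : m ≠ 0)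
    {γ : Fin 2 → E} (hγ : ∀ j, (X.CC j).r f = γ j ^ m) (j : Fin 2) : γ j ≠ 0 := by
  intro h
  have h1 := hγ j
  rw [h, zero_pow hm, Car.Comp.r_eq_zero_iff (Car.Comp.mem_of_v (hv j).ge)] at h1
  rcases h1 with h1 | h1
  · exact hf h1
  · rw [hv j] at h1
    exact absurd h1 (by norm_num)

end SExt

namespace Set2

variable {A₀ K₀ A K k : Type*} [CommRing A₀] [IsDomain A₀] [IsDiscreteValuationRing A₀] [Field K₀]
  [CharZero K₀] [Algebra ℚ K₀]
  [Algebra A₀ K₀] [IsFractionRing A₀ K₀] [CommRing A] [IsDomain A] [ValuationRing A]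
  [Field K] [IsAlgClosed K] [CharZero K] [Algebra ℚ K] [Algebra A K] [IsFractionRing A K]
  [Field k] [IsAlgClosed k] [Algebra A k] [Algebra A₀ k] [Algebra K₀ K]
  {q M : ℕ} [hq : Fact q.Prime] [NeZero M]
  {H : Subgroup (ZMod M)ˣ} [hH : Fact ((-1 : (ZMod M)ˣ) ∈ H)] [CharP k q] [PerfectRing k q]
  [Algebra.IsAlgebraic K₀ K] (s : Set2 A₀ K₀ A K k q M H)

/-- **The slopes.** -/
theorem slope (hU : s.Unif) {f : FG (Gq q M H) K₀} (hf0 : f ≠ 0)
    (hv : ∀ j, (s.X.CC j).v f = 0) {m : ℕ} (hm : m ≠ 0)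
    (hdvd : ∀ v : Place K (FG (Gq q M H) K), (m : ℤ) ∣ v.ord (emb K₀ K (Gq q M H) f))
    (j : Fin 2) (Q : Place k (FH k M H)) : (m : ℤ) ∣ Q.ord ((s.X.CC j).r f) := by
  haveI := s.toSetting.ffE
  haveI := s.toSetting.ffM
  haveI := s.toSetting.ffq
  letI := algA A₀ (FG (Gq q M H) K₀)
  haveI := tower_algA A₀ (FG (Gq q M H) K₀)
  letI := algA A₀ (FH k M H)
  haveI := tower_algA A₀ (FH k M H)
  exact s.X.slope s.toSetting.sp s.toSetting.gen s.toSetting.pol (s.mu_cusp hU) hf0 hv hm hdvd j Q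

/-- **The fine form.** -/
theorem fine {R : RedAut A K k} (hR : R.σb = frobeniusEquiv k q)
    {m : ℕ} (hm : (m : k) ≠ 0) {f : FG (Gq q M H) K₀} (hf0 : f ≠ 0)
    (hv : ∀ j, (s.X.CC j).v f = 0) {γ : Fin 2 → FH k M H}
    (hγ : ∀ j, (s.X.CC j).r f = γ j ^ m)
    (hdvd : ∀ v : Place K (FG (Gq q M H) K), (m : ℤ) ∣ v.ord (emb K₀ K (Gq q M H) f)) :
    ∃ x : FG (Gq q M H) K, x ^ m = actF s.gal.cq R.σ (s.S.δ.D.symm
      (s.S.w (emb K₀ K (Gq q M H) f))) * (emb K₀ K (Gq q M H) f) ^ q := by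
  haveI := s.toSetting.ffE
  haveI := s.toSetting.ffM
  haveI := s.toSetting.ffq
  have hm0 : m ≠ 0 := by rintro rfl; simp at hm
  exact E2.fine s.gal s.pol s.sp s.gen s.hA s.hrank hR hm (s.X.hasRed_emb hv hγ)
    (s.X.γ_ne hf0 hv hm0 hγ 0) (s.X.γ_ne hf0 hv hm0 hγ 1) hdvd

/-- **The toric part.** -/
theorem toric {R : RedAut A K k} (hR : R.σb = frobeniusEquiv k q * frobeniusEquiv k q)
    {m : ℕ} (hm : (m : k) ≠ 0) {f : FG (Gq q M H) K₀} (hf0 : f ≠ 0)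
    (hv : ∀ j, (s.X.CC j).v f = 0) {γ : Fin 2 → FH k M H}
    (hγ : ∀ j, (s.X.CC j).r f = γ j ^ m)
    (hdvd : ∀ v : Place K (FG (Gq q M H) K), (m : ℤ) ∣ v.ord (emb K₀ K (Gq q M H) f)) :
    ∃ x : FG (Gq q M H) K, x ^ m = (SSD.gF s.gal R s.S.δ2 • emb K₀ K (Gq q M H) f) /
      (emb K₀ K (Gq q M H) f) ^ (q * q) := by
  haveI := s.toSetting.ffE
  haveI := s.toSetting.ffM
  haveI := s.toSetting.ffq
  have hm0 : m ≠ 0 := by rintro rfl; simp at hm
  exact E2.toric s.gal s.pol s.sp s.gen s.hA s.hrank hR hm (s.X.hasRed_emb hv hγ)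
    (s.X.γ_ne hf0 hv hm0 hγ 0) (s.X.γ_ne hf0 hv hm0 hγ 1) hdvd

end Set2

section Qb

open Fermat.Agent.Flat

local notation "Q̄" => AlgebraicClosure ℚ

attribute [local instance] ThmC.algRK ThmC.isFractionRing_RK

variable {A : ValuationSubring (AlgebraicClosure ℚ)} {q M : ℕ} [hq : Fact q.Prime] [NeZero M]
  {H : Subgroup (ZMod M)ˣ} [hH : Fact ((-1 : (ZMod M)ˣ) ∈ H)]

/-- the base extension -/
def bext (A : ValuationSubring (AlgebraicClosure ℚ)) :
    BExt (R0 A) (K0 A) A Q̄ (IsLocalRing.ResidueField A) where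
  j := inclR0 A
  h1 _ := rfl
  h2 _ := rfl

/-- the setting over the fixed field of inertia -/
def qset2 (hA : A.LiesOverPrime q) (hqM : ¬ q ∣ M) (hM3 : 3 ≤ M) (D : WData q M H)
    (ι : Q̄ →+* ℂ) :
    haveI := isDVR hA
    Set2 (R0 A) (K0 A) A Q̄ (IsLocalRing.ResidueField A) q M H :=
  haveI := isDVR hA
  { qset hA hqM hM3 D ι with
    B := bext A
    hk₀ := algebraMap_kk_surjective hA
    q_ne := p_ne_zero'
    hd := fun _ ha => (algebraMap_kk_eq_zero hA).1 ha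
    hfix := fun x hx => ⟨⟨x, mem_K0_of_fixed A hx⟩, rfl⟩ }

theorem unif_qset2 (hA : A.LiesOverPrime q) (hqM : ¬ q ∣ M) (hM3 : 3 ≤ M) (D : WData q M H)
    (ι : Q̄ →+* ℂ) {r : ℕ} (hr : r.Prime) (hr12 : r % 12 = 11) (hrM : r ∣ M) :
    haveI := isDVR hA
    haveI : CharP (IsLocalRing.ResidueField A) q := RedMod.charP_residue hA
    haveI := CarE.algebraic_K0 (A := A)
    (qset2 hA hqM hM3 D ι).Unif := by
  haveI := isDVR hA
  haveI : CharP (IsLocalRing.ResidueField A) q := RedMod.charP_residue hA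
  haveI : IsAlgClosed (IsLocalRing.ResidueField A) := inferInstance
  haveI := CarE.algebraic_K0 (A := A)
  intro Q hQ
  exact exists_unif_K0 hA hqM hr hr12 hrM Q hQ

end Qb

end

end Fermat.Agent.E2
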