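import Fermat.Agent.E2.CM
import Fermat.Agent.E2.Fast
import Fermat.Agent.Car.Node
import Fermat.Agent.ThmC.LiftK0

/-!
# The intersection points of the two components
-/

set_option autoImplicit false
set_option linter.unusedSectionVars false
set_option linter.style.haveILetI false

open Module ModularCurve Polynomial IntermediateField Fermat.Agent.ModPoly Fermat.Agent.Red
  Fermat.Agent.RedMod Fermat.Agent.Cov Fermat.Agent.SemiSt AlgebraicCurve Fermat.Agent.Nod
  Fermat.Agent.Curve Fermat.Agent.RR Fermat.Agent.SSH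

namespace Fermat.Agent.E2

noncomputable section

attribute [local instance 10000] fastAlg

variable {A₀ K₀ A Ω k : Type*} [CommRing A₀] [IsDomain A₀] [IsDiscreteValuationRing A₀] [Field K₀]
  [Algebra A₀ K₀] [IsFractionRing A₀ K₀] [CommRing A] [IsDomain A] [ValuationRing A]
  [Field Ω] [IsAlgClosed Ω] [CharZero Ω] [Algebra A Ω] [IsFractionRing A Ω] [Field k]
  [IsAlgClosed k] [Algebra A k] [Algebra A₀ k] [Algebra K₀ Ω]
  {FM₀ Fq₀ : IntermediateField K₀ (LaurentSeries K₀)}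
  {FM Fq : IntermediateField Ω (LaurentSeries Ω)}
  {E : IntermediateField k (LaurentSeries k)} {ι : Type*} [Fintype ι] {y : ι → LaurentSeries ℤ}
  {q : ℕ} [hq : Fact q.Prime] [CharP k q] [PerfectRing k q]
  {S₀ : SSD A₀ FM₀ Fq₀ E y q} {S : SSD A FM Fq E y q} (X : SExt S₀ S)
  [FunField k E] [FunField Ω FM] [FunField Ω Fq] (hS : SP S.G)
  (hgen : rrGenus k E = rrGenus Ω FM) (P : S.Pol)
  [Algebra A₀ Fq₀] [IsScalarTower A₀ K₀ Fq₀] [Algebra A₀ E] [IsScalarTower A₀ k E]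

namespace SExt

theorem cm_t : (X.cm hS).t = S₀.jq := rfl

theorem cm_emb : (X.cm hS).emb = X.Dq.emb := rfl

theorem cm_comp (j : Fin 2) : (X.cm hS).comp j = X.CC j := rfl

theorem cm_embt : (X.cm hS).emb (X.cm hS).t = S.jq := X.emb_jq

theorem mem_B {x : Fq₀} : x ∈ (X.cm hS).B ↔ x ∈ S₀.WW ∧ Reg Ω S.jq (X.Dq.emb x) := by
  rw [Car.CModel.mem_B, cm_embt]
  rfl

theorem tb0 : (X.cm hS).tb 0 = S₀.jE := X.r0_of (b := S₀.jE ^ q) (SSD.hasRed_jq (S := S₀))

theorem tb1 : (X.cm hS).tb 1 = S₀.jE ^ q := X.r1_of (a := S₀.jE) (SSD.hasRed_jq (S := S₀))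

theorem jE_trans : Transcendental k S₀.jE := transcendental_of E S₀.G.jk

theorem ord_tb (j : Fin 2) (Q : Place k E) : 0 ≤ Q.ord ((X.cm hS).tb j) ↔ 0 ≤ Q.ord S₀.jE := by
  match j with
  | 0 => rw [tb0]
  | 1 =>
    rw [tb1, ord_pow]
    have := hq.out.pos
    constructor
    · intro h
      by_contra hlt
      push Not at hlt
      have : (0 : ℤ) < q := by exact_mod_cast this
      nlinarith
    · intro h
      positivity

theorem reg_tb (j : Fin 2) (z : E) : Reg k ((X.cm hS).tb j) z ↔ Reg k S₀.jE z := by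
  constructor
  · intro h Q hQ
    exact h Q ((X.ord_tb hS j Q).2 hQ)
  · intro h Q hQ
    exact h Q ((X.ord_tb hS j Q).1 hQ)

include P in
theorem w_mem_B {x : Fq₀} (hx : x ∈ (X.cm hS).B) : S₀.w x ∈ (X.cm hS).B := by
  rw [X.mem_B hS] at hx ⊢
  refine ⟨S₀.w_mem_WW hx.1, ?_⟩
  rw [← X.w]
  have h1 := reg_map (S.w : Fq →ₐ[Ω] Fq) S.trans_jq hx.2
  intro v hv
  refine h1 v ?_
  have h2 := P.reg v hv
  exact h2

theorem inc_mem_B {x : FM₀} {a : E} (h : LR A₀ (x : LaurentSeries K₀) (a : LaurentSeries k))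
    (hr : Reg Ω S.jM (X.DM.emb x)) : S₀.inc x ∈ (X.cm hS).B := by
  rw [X.mem_B hS]
  refine ⟨(SSD.hasRed_inc (S := S₀) h).mem, ?_⟩
  rw [X.emb_inc]
  exact S.reg_inc hr

include P in
theorem be_mem_B {x : FM₀} {a : E} (h : LR A₀ (x : LaurentSeries K₀) (a : LaurentSeries k))
    (hr : Reg Ω S.jM (X.DM.emb x)) : S₀.be x ∈ (X.cm hS).B := by
  have h1 := X.w_mem_B hS P (X.inc_mem_B hS h hr)
  exact h1

omit [Algebra A₀ Fq₀] [IsScalarTower A₀ K₀ Fq₀] [Algebra A₀ E] [IsScalarTower A₀ k E] in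
include X hS hgen in
theorem lift {a : E} (ha : Reg k S₀.jE a) : ∃ x : FM₀,
    LR A₀ (x : LaurentSeries K₀) (a : LaurentSeries k) ∧ Reg Ω S.jM (X.DM.emb x) :=
  exists_lift_reg X.B S₀.G hS X.DM X.coeM hgen ha

include P hgen in
theorem surj (j : Fin 2) (z : E) (hz : Reg k ((X.cm hS).tb j) z) :
    ∃ x ∈ (X.cm hS).B, ((X.cm hS).comp j).r x = z := by
  rw [X.reg_tb hS] at hz
  obtain ⟨x, hx, hr⟩ := X.lift hS hgen hz
  match j with
  | 0 => exact ⟨_, X.inc_mem_B hS hx hr, X.r0_of (SSD.hasRed_inc (S := S₀) hx)⟩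
  | 1 => exact ⟨_, X.be_mem_B hS P hx hr, X.r1_of (SSD.hasRed_be (S := S₀) hx)⟩

include P hgen in
/-- functions vanishing on the second component -/
theorem exists_of_mem_J {c : regAlg k S₀.fd.j} (hc : c ∈ S₀.fd.J) :
    ∃ x ∈ (X.cm hS).B, S₀.HasRed x ((c : E) : LaurentSeries k) ((0 : E) : LaurentSeries k) := by
  have hc' : c ∈ Ideal.span (Set.range fun b : regAlg k S₀.fd.j => b - S₀.fd.cσ (S₀.fd.cσ b)) := hc
  induction hc' using Submodule.span_induction with
  | mem x hx =>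
    obtain ⟨b, rfl⟩ := hx
    have hb : Reg k S₀.jE (b : E) := b.2
    have hb2 : Reg k S₀.jE (S₀.sg (b : E)) := S₀.fd.reg_σ b.2
    obtain ⟨x1, h1, r1⟩ := X.lift hS hgen hb
    obtain ⟨x2, h2, r2⟩ := X.lift hS hgen hb2
    refine ⟨S₀.inc x1 - S₀.be x2, sub_mem (X.inc_mem_B hS h1 r1) (X.be_mem_B hS P h2 r2), ?_⟩
    have h3 := (SSD.hasRed_inc (S := S₀) h1).sub (SSD.hasRed_be (S := S₀) h2)
    have e1 : (((b - S₀.fd.cσ (S₀.fd.cσ b) : regAlg k S₀.fd.j) : E) : LaurentSeries k) =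
        ((b : E) : LaurentSeries k) - ((S₀.sg (S₀.sg (b : E)) : E) : LaurentSeries k) := rfl
    have e2 : ((0 : E) : LaurentSeries k) =
        ((S₀.sg (b : E) : E) : LaurentSeries k) - ((S₀.sg (b : E) : E) : LaurentSeries k) :=
      (sub_self _).symm
    rw [e1, e2]
    exact h3
  | zero =>
    refine ⟨0, zero_mem _, ?_⟩
    refine ⟨LR.zero, ?_⟩
    rw [map_zero]
    exact LR.zero
  | add x x' hx hx' ih ih' =>
    obtain ⟨z, hz, h⟩ := ih hx
    obtain ⟨z', hz', h'⟩ := ih' hx'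
    refine ⟨z + z', add_mem hz hz', ?_⟩
    have h3 := h.add h'
    have e2 : ((0 : E) : LaurentSeries k) = ((0 : E) : LaurentSeries k) + ((0 : E) : LaurentSeries k) :=
      (add_zero _).symm
    rw [e2]
    exact h3
  | smul a x hx ih =>
    obtain ⟨z, hz, h⟩ := ih hx
    obtain ⟨x1, h1, r1⟩ := X.lift hS hgen (a := (a : E)) a.2
    refine ⟨S₀.inc x1 * z, mul_mem (X.inc_mem_B hS h1 r1) hz, ?_⟩
    have h3 := (SSD.hasRed_inc (S := S₀) h1).mul h
    have e2 : ((0 : E) : LaurentSeries k) =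
        ((S₀.sg (a : E) : E) : LaurentSeries k) * ((0 : E) : LaurentSeries k) := by
      have : (0 : E) = S₀.sg (a : E) * 0 := (mul_zero _).symm
      exact congrArg Subtype.val this
    rw [e2]
    exact h3

/-- glued points -/
def Gl (Q : Place k E) : Prop := S₀.fd.g • S₀.fd.g • Q = Q ∧
  ∀ x ∈ (X.cm hS).B, val Q ((X.CC 0).r x) = val (S₀.fd.g • Q) ((X.CC 1).r x)

theorem g_ord (Q : Place k E) : (S₀.fd.g • Q).ord S₀.jE = Q.ord S₀.jE := S₀.fd.ord_g_j Q

/-- a regular function with prescribed behaviour at a candidate or another point -/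
theorem exists_J_ne {Q : Place k E} (hQ : 0 ≤ Q.ord S₀.jE) (hgg : S₀.fd.g • S₀.fd.g • Q ≠ Q) :
    ∃ c ∈ S₀.fd.J, val Q ((c : regAlg k S₀.fd.j) : E) = 1 := by
  let w : Option S₀.fd.Cand → Place k E := fun o => o.elim Q (fun v => v.1)
  obtain ⟨α, hα, hα'⟩ := Car.exists_reg_val (jE_trans (S₀ := S₀)) w (by
      intro x y hxy
      rcases x with _ | x <;> rcases y with _ | y
      · rfl
      · exact absurd (by
          have : Q = y.1 := hxy
          rw [this]; exact y.2.2) hgg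
      · exact absurd (by
          have : Q = x.1 := hxy.symm
          rw [this]; exact x.2.2) hgg
      · exact congrArg some (Subtype.ext hxy))
    (fun o => by
      rcases o with _ | x
      · exact hQ
      · exact x.2.1)
    (fun o => o.elim 1 (fun _ => 0))
  refine ⟨⟨α, hα⟩, S₀.fd.mem_J_of_val fun P' h1 h2 => ?_, hα' none⟩
  exact hα' (some ⟨P', h1, h2⟩)

theorem exists_J_one {Q : Place k E} (hQ : 0 ≤ Q.ord S₀.jE) (hgg : S₀.fd.g • S₀.fd.g • Q = Q) :
    ∃ c ∈ S₀.fd.J, Q.ord ((c : regAlg k S₀.fd.j) : E) = 1 := by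
  classical
  let Q0 : S₀.fd.Cand := ⟨Q, hQ, hgg⟩
  obtain ⟨a, -, f, hf, hf1⟩ := ThmC.exists_simple_zero (jE_trans (S₀ := S₀)) Q hQ 0
  obtain ⟨α, hα, hα'⟩ := Car.exists_reg_val (jE_trans (S₀ := S₀))
    (fun v : S₀.fd.Cand => (v.1 : Place k E)) (fun _ _ h => Subtype.ext h) (fun v => v.2.1)
    (fun v => if v = Q0 then 1 else 0)
  have hfr : Reg k S₀.jE f := by
    intro w hw
    have h1 := (mem_LL.1 hf) w
    rw [poleDiv_apply, max_eq_right (by omega)] at h1
    simp only [Nat.cast_zero, zero_mul, add_zero, mul_zero, Finsupp.coe_zero, Pi.zero_apply,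
      neg_zero] at h1
    exact h1
  have hQα : val Q α = 1 := by
    have := hα' Q0
    rw [if_pos rfl] at this
    exact this
  have hα0 : α ≠ 0 := by
    rintro rfl
    rw [val_zero] at hQα
    exact zero_ne_one hQα
  have hordα : Q.ord α = 0 := by
    have h1 := (hα Q hQ).le_ord hα0
    by_contra hne
    have h2 : Ge Q 1 α := Ge.of_le (by omega)
    rw [← val_eq_zero_iff (hα Q hQ), hQα] at h2
    exact one_ne_zero h2
  have hf0 : f ≠ 0 := by
    rintro rfl
    rw [Q.ord_zero] at hf1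
    exact zero_ne_one hf1
  refine ⟨⟨α * f, hα.mul hfr⟩, S₀.fd.mem_J_of_val fun P' h1 h2 => ?_, ?_⟩
  · change val P' (α * f) = 0
    by_cases hPQ : P' = Q
    · subst hPQ
      rw [val_eq_zero_iff ((hα _ h1).mul (hfr _ h1) |>.mono (by norm_num))]
      refine Ge.of_le ?_
      rw [Place.ord_mul _ hα0 hf0, hordα, hf1]
      norm_num
    · rw [val_mul (hα _ h1) (hfr _ h1)]
      have h3 : val P' α = 0 := (hα' ⟨P', h1, h2⟩).trans
        (if_neg fun h => hPQ (congrArg (fun z : S₀.fd.Cand => z.1) h))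
      rw [h3, zero_mul]
  · change Q.ord (α * f) = 1
    rw [Place.ord_mul _ hα0 hf0, hordα, hf1]
    norm_num

end SExt

end

end Fermat.Agent.E2
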