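import Fermat.Agent.E2.Nodes
import Fermat.Agent.E2.Fast

/-!
# The model with two components is regular at the intersection points
-/

set_option autoImplicit false
set_option linter.unusedSectionVars false
set_option linter.style.haveILetI false

open Module ModularCurve Polynomial IntermediateField Fermat.Agent.ModPoly Fermat.Agent.Red
  Fermat.Agent.RedMod Fermat.Agent.Cov Fermat.Agent.SemiSt AlgebraicCurve Fermat.Agent.Nod
  Fermat.Agent.Curve Fermat.Agent.RR Fermat.Agent.SSH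

namespace Fermat.Agent.E2

noncomputable section

attribute [local instance 10000] fastAlg

variable {A₀ K₀ A Ω k : Type*} [CommRing A₀] [IsDomain A₀] [IsDiscreteValuationRing A₀] [Field K₀]
  [Algebra A₀ K₀] [IsFractionRing A₀ K₀] [CommRing A] [IsDomain A] [ValuationRing A]
  [Field Ω] [IsAlgClosed Ω] [CharZero Ω] [Algebra A Ω] [IsFractionRing A Ω] [Field k]
  [IsAlgClosed k] [Algebra A k] [Algebra A₀ k] [Algebra K₀ Ω]
  {FM₀ Fq₀ : IntermediateField K₀ (LaurentSeries K₀)}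
  {FM Fq : IntermediateField Ω (LaurentSeries Ω)}
  {E : IntermediateField k (LaurentSeries k)} {ι : Type*} [Fintype ι] {y : ι → LaurentSeries ℤ}
  {q : ℕ} [hq : Fact q.Prime] [CharP k q] [PerfectRing k q]
  {S₀ : SSD A₀ FM₀ Fq₀ E y q} {S : SSD A FM Fq E y q} (X : SExt S₀ S)
  [FunField k E] [FunField Ω FM] [FunField Ω Fq] (hS : SP S.G)
  (hgen : rrGenus k E = rrGenus Ω FM) (P : S.Pol)
  [Algebra A₀ Fq₀] [IsScalarTower A₀ K₀ Fq₀] [Algebra A₀ E] [IsScalarTower A₀ k E]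
  [Algebra.IsAlgebraic K₀ Ω] [CharZero K₀]

namespace SExt

theorem memB0 {x : Fq₀} (hx : x ∈ (X.cm hS).B) : x ∈ (X.CC 0).W := (X.cm hS).memj hx.1 0

theorem memB1 {x : Fq₀} (hx : x ∈ (X.cm hS).B) : x ∈ (X.CC 1).W := (X.cm hS).memj hx.1 1

theorem reg0 {x : Fq₀} (hx : x ∈ (X.cm hS).B) : Reg k S₀.jE ((X.CC 0).r x) :=
  (X.reg_tb hS 0 _).1 ((X.cm hS).reg_r hx 0)

theorem reg1 {x : Fq₀} (hx : x ∈ (X.cm hS).B) : Reg k S₀.jE ((X.CC 1).r x) :=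
  (X.reg_tb hS 1 _).1 ((X.cm hS).reg_r hx 1)

include P hgen in
theorem exists_c0 {Q : Place k E} (hQ : 0 ≤ Q.ord S₀.jE) (h : ¬ X.Gl hS Q) :
    ∃ c ∈ (X.cm hS).B, (X.CC 1).r c = 0 ∧ val Q ((X.CC 0).r c) ≠ 0 := by
  by_cases hgg : S₀.fd.g • S₀.fd.g • Q = Q
  · obtain ⟨x, hx, hne⟩ : ∃ x ∈ (X.cm hS).B,
        val Q ((X.CC 0).r x) ≠ val (S₀.fd.g • Q) ((X.CC 1).r x) := by
      by_contra hcon
      push Not at hcon
      exact h ⟨hgg, hcon⟩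
    have h1 := X.reg1 hS hx
    obtain ⟨y, hy, hr⟩ := X.lift hS hgen h1
    have hyB := X.be_mem_B hS P hy hr
    have hr0 : (X.CC 0).r (S₀.be y) = S₀.sg ((X.CC 1).r x) :=
      X.r0_of (b := (X.CC 1).r x) (SSD.hasRed_be (S := S₀) hy)
    have hr1 : (X.CC 1).r (S₀.be y) = (X.CC 1).r x :=
      X.r1_of (a := S₀.sg ((X.CC 1).r x)) (SSD.hasRed_be (S := S₀) hy)
    refine ⟨x - S₀.be y, sub_mem hx hyB, ?_, ?_⟩
    · rw [Car.Comp.r_sub (X.memB1 hS hx) (X.memB1 hS hyB), hr1, sub_self]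
    · have hgQ : 0 ≤ (S₀.fd.g • Q).ord S₀.jE := by rw [g_ord]; exact hQ
      have e : val Q (S₀.sg ((X.CC 1).r x)) = val (S₀.fd.g • Q) ((X.CC 1).r x) :=
        S₀.fd.val_σ (h1 _ hgQ)
      have hsg : Ge Q 0 (S₀.sg ((X.CC 1).r x)) := S₀.fd.reg_σ h1 Q hQ
      rw [Car.Comp.r_sub (X.memB0 hS hx) (X.memB0 hS hyB), hr0,
        val_sub (X.reg0 hS hx Q hQ) hsg, e]
      exact sub_ne_zero.2 hne
  · obtain ⟨c, hc, hc1⟩ := exists_J_ne (S₀ := S₀) hQ hgg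
    obtain ⟨x, hx, hr⟩ := X.exists_of_mem_J hS hgen P hc
    refine ⟨x, hx, X.r1_of hr, ?_⟩
    rw [X.r0_of hr, hc1]
    exact one_ne_zero

include P hgen in
theorem exists_c1 {Q : Place k E} (hQ : 0 ≤ Q.ord S₀.jE) (h : ¬ X.Gl hS (S₀.fd.g⁻¹ • Q)) :
    ∃ c ∈ (X.cm hS).B, (X.CC 0).r c = 0 ∧ val Q ((X.CC 1).r c) ≠ 0 := by
  by_cases hgg : S₀.fd.g • S₀.fd.g • Q = Q
  · obtain ⟨x, hx, hne⟩ : ∃ x ∈ (X.cm hS).B,
        val (S₀.fd.g⁻¹ • Q) ((X.CC 0).r x) ≠ val Q ((X.CC 1).r x) := by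
      by_contra hcon
      push Not at hcon
      refine h ⟨?_, ?_⟩
      · rw [smul_inv_smul]
        exact (eq_inv_smul_iff (g := S₀.fd.g)).2 hgg
      · rw [smul_inv_smul]
        exact hcon
    have hP : S₀.fd.g⁻¹ • Q = S₀.fd.g • Q := (eq_inv_smul_iff.2 hgg).symm
    rw [hP] at hne
    have h1 := X.reg0 hS hx
    obtain ⟨y, hy, hr⟩ := X.lift hS hgen h1
    have hyB := X.inc_mem_B hS hy hr
    have hr0 : (X.CC 0).r (S₀.inc y) = (X.CC 0).r x :=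
      X.r0_of (b := S₀.sg ((X.CC 0).r x)) (SSD.hasRed_inc (S := S₀) hy)
    have hr1 : (X.CC 1).r (S₀.inc y) = S₀.sg ((X.CC 0).r x) :=
      X.r1_of (a := (X.CC 0).r x) (SSD.hasRed_inc (S := S₀) hy)
    refine ⟨x - S₀.inc y, sub_mem hx hyB, ?_, ?_⟩
    · rw [Car.Comp.r_sub (X.memB0 hS hx) (X.memB0 hS hyB), hr0, sub_self]
    · have hgQ : 0 ≤ (S₀.fd.g • Q).ord S₀.jE := by rw [g_ord]; exact hQ
      have e : val Q (S₀.sg ((X.CC 0).r x)) = val (S₀.fd.g • Q) ((X.CC 0).r x) :=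
        S₀.fd.val_σ (h1 _ hgQ)
      have hsg : Ge Q 0 (S₀.sg ((X.CC 0).r x)) := S₀.fd.reg_σ h1 Q hQ
      rw [Car.Comp.r_sub (X.memB1 hS hx) (X.memB1 hS hyB), hr1,
        val_sub (X.reg1 hS hx Q hQ) hsg, e]
      exact sub_ne_zero.2 hne.symm
  · obtain ⟨c, hc, hc1⟩ := exists_J_ne (S₀ := S₀) hQ hgg
    obtain ⟨x, hx, hr⟩ := X.exists_of_mem_J hS hgen P hc
    refine ⟨S₀.w x, X.w_mem_B hS P hx, X.r0_of hr.w, ?_⟩
    rw [X.r1_of hr.w, hc1]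
    exact one_ne_zero

/-- The modular unit -/
structure MU where
  U : Fq₀
  hs : E
  h0 : LR A₀ (U : LaurentSeries K₀) (hs : LaurentSeries k)
  hs_ne : hs ≠ 0
  U_ne : U ≠ 0
  w_U : S₀.w U = algebraMap K₀ Fq₀ (algebraMap A₀ K₀ ((q : A₀) ^ 12)) * U⁻¹
  reg : Reg Ω S.jq (X.Dq.emb U)
  reg' : Reg Ω S.jq (X.Dq.emb U)⁻¹
  node : ∀ Q : Place k E, 0 ≤ Q.ord S₀.jE → X.Gl hS Q → 12 ≤ Q.ord hs

variable {X hS}

namespace MU

variable (V : X.MU hS)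

theorem v0 : (X.CC 0).v V.U = 0 := X.v0_zero V.h0 (fun h => V.hs_ne (Subtype.ext h))

theorem r0 : (X.CC 0).r V.U = V.hs := X.r0_eq V.h0

theorem v1 : (X.CC 1).v V.U = 12 := by
  rw [X.v1_eq_w, V.w_U, Car.Comp.v_mul _ _ (inv_ne_zero V.U_ne), Car.Comp.v_inv, V.v0, map_pow,
    map_pow, Car.Comp.v_pow, X.v_q 0]
  · norm_num
  · rw [Ne, map_eq_zero, map_eq_zero_iff _ (IsFractionRing.injective A₀ K₀)]
    exact pow_ne_zero _ X.q_ne

end MU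

variable (X hS)

theorem q_reg (a : A₀) (x : Fq₀) (h : Reg Ω S.jq (X.Dq.emb x)) (n : ℤ) :
    Reg Ω S.jq (X.Dq.emb (algebraMap K₀ Fq₀ (algebraMap A₀ K₀ a ^ n) * x)) := by
  rw [map_mul, X.Dq.hemb]
  exact (Reg.algebraMap _ _).mul h

theorem aM_eq (a : A₀) : algebraMap A₀ Fq₀ a = algebraMap K₀ Fq₀ (algebraMap A₀ K₀ a) :=
  IsScalarTower.algebraMap_apply A₀ K₀ Fq₀ a

/-- the point data away from the intersection points -/
theorem star_of (j l : Fin 2) (hl : ∀ i, i ≠ j → i = l) {Q : Place k E} {c : Fq₀}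
    (hc : c ∈ (X.cm hS).B) (h0 : (X.CC l).r c = 0) (hlj : l ≠ j)
    (h1 : val Q ((X.CC j).r c) ≠ 0) :
    ∃ u ∈ (X.cm hS).B, ((X.cm hS).comp j).v u = 1 ∧ ∃ z, Reg Ω ((X.cm hS).emb (X.cm hS).t)
      ((X.cm hS).emb z) ∧ ((X.cm hS).comp j).v z = -1 ∧
      (∀ l, l ≠ j → ((X.cm hS).comp l).Ge 0 z) ∧
      val Q (((X.cm hS).comp j).r (u * z)) ≠ 0 := by
  have hqF : algebraMap K₀ Fq₀ (algebraMap A₀ K₀ (q : A₀)) ≠ 0 := by
    rw [Ne, map_eq_zero, map_eq_zero_iff _ (IsFractionRing.injective A₀ K₀)]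
    exact X.q_ne
  have hrc : (X.CC j).r c ≠ 0 := fun h => h1 (by rw [h, val_zero])
  have hc0 : c ≠ 0 := by
    rintro rfl
    rw [Car.Comp.r_zero] at hrc
    exact hrc rfl
  have hvc : (X.CC j).v c = 0 := (Car.Comp.r_ne_zero_iff hc0).1 hrc
  have hz : algebraMap K₀ Fq₀ (algebraMap A₀ K₀ (q : A₀)) *
      (algebraMap K₀ Fq₀ (algebraMap A₀ K₀ (q : A₀) ^ (-1 : ℤ)) * c) = c := by
    rw [zpow_neg_one, map_inv₀, mul_inv_cancel_left₀ hqF]
  have hvz : ∀ i, (X.CC i).v (algebraMap K₀ Fq₀ (algebraMap A₀ K₀ (q : A₀) ^ (-1 : ℤ))) = -1 := by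
    intro i
    rw [zpow_neg_one, map_inv₀, Car.Comp.v_inv, X.v_q]
  have hne : algebraMap K₀ Fq₀ (algebraMap A₀ K₀ (q : A₀) ^ (-1 : ℤ)) ≠ 0 := by
    rw [zpow_neg_one, map_inv₀]
    exact inv_ne_zero hqF
  refine ⟨algebraMap K₀ Fq₀ (algebraMap A₀ K₀ (q : A₀)), ?_, X.v_q j,
    algebraMap K₀ Fq₀ (algebraMap A₀ K₀ (q : A₀) ^ (-1 : ℤ)) * c, ?_, ?_, ?_, ?_⟩
  · have := (X.cm hS).algebraMap_mem_B (q : A₀)
    rw [aM_eq] at this
    exact this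
  · rw [cm_embt]
    exact X.q_reg _ _ ((X.mem_B hS).1 hc).2 _
  · rw [cm_comp, Car.Comp.v_mul _ hne hc0, hvz, hvc, add_zero]
  · intro i hi
    have hil := hl i hi
    subst hil
    have hci : c ∈ (X.CC i).W := (X.cm hS).memj hc.1 i
    have h2 := (Car.Comp.r_eq_zero_iff hci).1 h0
    refine ((Car.Comp.ge_of_le (hvz i).ge).mul h2).mono (by norm_num)
  · rw [hz]
    exact h1

variable (V : X.MU hS)

set_option maxHeartbeats 1000000 in
include V hgen P in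
/-- the intersection points are regular -/
theorem node_data {Q : Place k E} (hQ : 0 ≤ Q.ord S₀.jE) (hG : X.Gl hS Q) :
    ∃ u ∈ (X.cm hS).B, (X.CC 1).v u = 1 ∧ ∃ z, Reg Ω S.jq (X.Dq.emb z) ∧ (X.CC 1).v z = -1 ∧
      (X.CC 0).Ge 0 z ∧ val (S₀.fd.g • Q) ((X.CC 1).r (u * z)) ≠ 0 := by
  obtain ⟨c, hc, hc1⟩ := exists_J_one (S₀ := S₀) hQ hG.1
  obtain ⟨x, hx, hr⟩ := X.exists_of_mem_J hS hgen P hc
  have hr0 : (X.CC 0).r x = (c : E) := X.r0_of hr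
  have hr1 : (X.CC 1).r x = 0 := X.r1_of hr
  have hc0 : ((c : regAlg k S₀.fd.j) : E) ≠ 0 := by
    intro h
    rw [h, Q.ord_zero] at hc1
    exact zero_ne_one hc1
  have hx0 : x ≠ 0 := by
    rintro rfl
    rw [Car.Comp.r_zero] at hr0
    exact hc0 hr0.symm
  have hv0 : (X.CC 0).v x = 0 := (Car.Comp.r_ne_zero_iff hx0).1 (by rw [hr0]; exact hc0)
  have hv1 : 1 ≤ (X.CC 1).v x := by
    rcases (Car.Comp.r_eq_zero_iff (X.memB1 hS hx)).1 hr1 with h | h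
    · exact absurd h hx0
    · exact h
  have hU := V.U_ne
  have hxreg := ((X.mem_B hS).1 hx).2
  have hreg : ∀ n : ℕ, Reg Ω S.jq (X.Dq.emb (x ^ n * V.U⁻¹)) := by
    intro n
    rw [map_mul, map_pow, map_inv₀]
    have h3 : Reg Ω S.jq (X.Dq.emb x ^ n) := fun v hv => ge_zero_pow (hxreg v hv) n
    exact h3.mul V.reg'
  have hv : ∀ (j : Fin 2) (n : ℕ), (X.CC j).v (x ^ n * V.U⁻¹) =
      n * (X.CC j).v x - (X.CC j).v V.U := by
    intro j n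
    rw [Car.Comp.v_mul _ (pow_ne_zero _ hx0) (inv_ne_zero hU), Car.Comp.v_pow, Car.Comp.v_inv]
    ring
  have hy0 : ∀ n : ℕ, x ^ n * V.U⁻¹ ≠ 0 := fun n => mul_ne_zero (pow_ne_zero _ hx0) (inv_ne_zero hU)
  have hyB : x ^ 12 * V.U⁻¹ ∈ (X.cm hS).B := by
    rw [X.mem_B hS]
    refine ⟨?_, hreg 12⟩
    rw [X.mem_WW_iff, Fin.forall_fin_two]
    constructor
    · apply Car.Comp.mem_of_v
      rw [hv, hv0, V.v0]
      norm_num
    · apply Car.Comp.mem_of_v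
      rw [hv, V.v1]
      push_cast
      linarith
  have hr0y : (X.CC 0).r (x ^ 12 * V.U⁻¹) = (c : E) ^ 12 * V.hs⁻¹ := by
    rw [Car.Comp.r_mul (pow_mem (X.memB0 hS hx) 12) (Car.Comp.mem_of_v (by
      rw [Car.Comp.v_inv, V.v0]; norm_num)), Car.Comp.r_pow (X.memB0 hS hx),
      Car.Comp.r_inv V.v0, hr0, V.r0]
  have hne : (c : E) ^ 12 * V.hs⁻¹ ≠ 0 := mul_ne_zero (pow_ne_zero _ hc0) (inv_ne_zero V.hs_ne)
  have hord : Q.ord ((c : E) ^ 12 * V.hs⁻¹) = 12 - Q.ord V.hs := by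
    rw [Place.ord_mul _ (pow_ne_zero _ hc0) (inv_ne_zero V.hs_ne), ord_pow, hc1, Place.ord_inv]
    norm_num
    ring
  have hval0 : val Q ((X.CC 0).r (x ^ 12 * V.U⁻¹)) ≠ 0 := by
    rw [hr0y]
    have h1 := X.reg0 hS hyB Q hQ
    rw [hr0y] at h1
    rw [Ne, val_eq_zero_iff h1]
    intro h2
    have h3 := h2.le_ord hne
    rw [hord] at h3
    have := V.node Q hQ hG
    omega
  have hval1 : val (S₀.fd.g • Q) ((X.CC 1).r (x ^ 12 * V.U⁻¹)) ≠ 0 := by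
    rw [← hG.2 _ hyB]
    exact hval0
  have hr1y : (X.CC 1).r (x ^ 12 * V.U⁻¹) ≠ 0 := fun h => hval1 (by rw [h, val_zero])
  have hv1y := (Car.Comp.r_ne_zero_iff (hy0 12)).1 hr1y
  rw [hv, V.v1] at hv1y
  push_cast at hv1y
  have hv1x : (X.CC 1).v x = 1 := by linarith
  refine ⟨x, hx, hv1x, x ^ 11 * V.U⁻¹, hreg 11, ?_, ?_, ?_⟩
  · rw [hv, V.v1, hv1x]
    norm_num
  · right
    rw [hv, V.v0, hv0]
    norm_num
  · have e : x * (x ^ 11 * V.U⁻¹) = x ^ 12 * V.U⁻¹ := by ring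
    rw [e]
    exact hval1

include V hgen P in
/-- **the model is regular** -/
theorem good : (X.cm hS).Good where
  surj := X.surj hS hgen P
  star j Q hQ := by
    rw [X.ord_tb hS] at hQ
    have hall : ∀ {p : Fin 2 → Prop}, p 0 → (∀ i, i ≠ 1 → p i) := by
      intro p hp i hi
      match i with
      | 0 => exact hp
      | 1 => exact absurd rfl hi
    match j with
    | 0 =>
      by_cases hG : X.Gl hS Q
      · obtain ⟨u, hu, hvu, z, hz, hvz, hz0, huz⟩ := X.node_data hS hgen P V hQ hG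
        refine ⟨1, S₀.fd.g • Q, ?_, hG.2, u, hu, hvu, z, ?_, hvz, hall hz0, huz⟩
        · rw [X.ord_tb hS, g_ord]
          exact hQ
        · rw [cm_embt]
          exact hz
      · obtain ⟨c, hc, h0, h1⟩ := X.exists_c0 hS hgen P hQ hG
        refine ⟨0, Q, (X.ord_tb hS 0 Q).2 hQ, fun x _ => rfl, ?_⟩
        refine X.star_of hS 0 1 ?_ hc h0 (by decide) h1
        intro i hi
        match i with
        | 0 => exact absurd rfl hi
        | 1 => rfl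
    | 1 =>
      by_cases hG : X.Gl hS (S₀.fd.g⁻¹ • Q)
      · have hQ' : 0 ≤ (S₀.fd.g⁻¹ • Q).ord S₀.jE := by
          rw [← g_ord, smul_inv_smul]; exact hQ
        obtain ⟨u, hu, hvu, z, hz, hvz, hz0, huz⟩ := X.node_data hS hgen P V hQ' hG
        rw [smul_inv_smul] at huz
        refine ⟨1, Q, (X.ord_tb hS 1 Q).2 hQ, fun x _ => rfl, u, hu, hvu, z, ?_, hvz, hall hz0, huz⟩
        rw [cm_embt]
        exact hz
      · obtain ⟨c, hc, h0, h1⟩ := X.exists_c1 hS hgen P hQ hG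
        refine ⟨1, Q, (X.ord_tb hS 1 Q).2 hQ, fun x _ => rfl, ?_⟩
        refine X.star_of hS 1 0 ?_ hc h0 (by decide) h1
        intro i hi
        match i with
        | 0 => rfl
        | 1 => exact absurd rfl hi

end SExt

end

end Fermat.Agent.E2
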