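import Fermat.Agent.E2.Theta0
import Fermat.Agent.ThmC.DExp
import Fermat.Agent.PRem.RmW
import Fermat.Agent.CarM.Hasse
import Fermat.Agent.SemiSt.Model

/-!
# The power `(θ j)^(q-1)` in characteristic `q`
-/

set_option autoImplicit false
set_option linter.style.haveILetI false
set_option linter.unusedSectionVars false

noncomputable section

namespace Fermat.Agent.E2

open ModularCurve Polynomial IntermediateField Fermat.Agent.ModPoly Fermat.Agent.Red
  Fermat.Agent.RedMod Fermat.Agent.Cov Fermat.Agent.SemiSt AlgebraicCurve Fermat.Agent.Curve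
  Fermat.Agent.RR Fermat.Agent.SSH Fermat.Agent.ThmC

section Int

variable (q : ℕ) [hq : Fact q.Prime]

theorem exists_R : haveI : NeZero q := ⟨hq.out.ne_zero⟩
    ∃ R : LaurentSeries ℤ, HahnSeries.C (q : ℤ) * R =
      qExpand ℤ q (jqModC ℤ) - jqModC ℤ ^ q := by
  haveI : NeZero q := ⟨hq.out.ne_zero⟩
  set x : LaurentSeries ℤ := qExpand ℤ q (jqModC ℤ) - jqModC ℤ ^ q with hx
  have h1 : coeffMap (Int.castRingHom (ZMod q)) x = 0 := by
    rw [hx, map_sub, map_pow, coeffMap_qExpand, coeffMap_jqModC, qExpand_jqModC, sub_self]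
  have h2 : ∀ n : ℤ, (q : ℤ) ∣ x.coeff n := by
    intro n
    have h3 := congrArg (fun z : LaurentSeries (ZMod q) => z.coeff n) h1
    simp only [HahnSeries.coeff_zero] at h3
    rw [coeffMap_coeff] at h3
    exact (ZMod.intCast_zmod_eq_zero_iff_dvd _ _).1 h3
  refine ⟨⟨fun n => x.coeff n / q, x.isPWO_support.mono ?_⟩, ?_⟩
  · intro n hn
    rw [Function.mem_support] at hn
    rw [HahnSeries.mem_support]
    intro h0
    rw [h0, Int.zero_ediv] at hn
    exact hn rfl
  · ext n
    rw [HahnSeries.C_mul_eq_smul, HahnSeries.coeff_smul, smul_eq_mul]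
    exact Int.mul_ediv_cancel' (h2 n)

end Int

section Main

variable {A K k : Type*} [CommRing A] [IsDomain A] [ValuationRing A]
  [Field K] [IsAlgClosed K] [CharZero K] [Algebra A K] [IsFractionRing A K] [Field k]
  [IsAlgClosed k] [Algebra A k]
  {q M : ℕ} [hq : Fact q.Prime] [NeZero M] (hco : q.Coprime M) [CharP k q]
  (hk : Function.Surjective (algebraMap A k)) (hM : (M : k) ≠ 0)

variable (K) in
include K hco hk hM in
/-- `(θ j)^(q-1)` is a function -/
theorem exists_thetaj : ∃ t : FF k M, (t : LaurentSeries k) = theta (jqModC k) ^ (q - 1) := by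
  haveI : NeZero q := ⟨hq.out.ne_zero⟩
  obtain ⟨R, hR⟩ := exists_R q
  have hq0 : (HahnSeries.C (q : K) : LaurentSeries K) ≠ 0 := by
    rw [Ne, map_eq_zero]
    exact_mod_cast hq.out.ne_zero
  have h1 : HahnSeries.C (q : K) * cst K R = qExpand K q (jqModC K) - jqModC K ^ q := by
    have := congrArg (cst K) hR
    have e : cst K (HahnSeries.C (q : ℤ) * R) = HahnSeries.C (q : K) * cst K R := by
      rw [ModPoly.cst, ModPoly.cst, map_mul, coeffMap_C]
      simp
    rw [← e, hR, ModPoly.cst, map_sub, map_pow, coeffMap_qExpand, coeffMap_jqModC]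
  obtain ⟨x, hx⟩ : ∃ x : FF K (q * M), (x : LaurentSeries K) = cst K R := by
    refine ⟨algebraMap K _ ((q : K)⁻¹) * (qe K q M (jF' K M) - jF' K (q * M) ^ q), ?_⟩
    apply mul_left_cancel₀ hq0
    rw [h1, MulMemClass.coe_mul]
    have e1 : ((algebraMap K (FF K (q * M)) ((q : K)⁻¹) : FF K (q * M)) : LaurentSeries K) =
        HahnSeries.C ((q : K)⁻¹) := by
      rw [← algebraMap_eq_C]; rfl
    have e2 : ((qe K q M (jF' K M) - jF' K (q * M) ^ q : FF K (q * M)) : LaurentSeries K) =
        qExpand K q (jqModC K) - jqModC K ^ q := by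
      rw [AddSubgroupClass.coe_sub, coe_qe, SubmonoidClass.coe_pow]
      have e3 : ∀ N : ℕ, ((jF' K N : FF K N) : LaurentSeries K) = jqModC K := fun N => Jc_one_one
      rw [e3, e3]
    rw [e1, e2, ← mul_assoc, ← map_mul, mul_inv_cancel₀ (by exact_mod_cast hq.out.ne_zero),
      map_one, one_mul]
  have hL : LR A (cst K R) (cst k R) := LR.cst R
  have hmem : cst k R ∈ FF k M := by
    have hxW : (x : LaurentSeries K) ∈ WL A K k := by rw [hx]; exact hL.1
    have h2 := SemiSt.red_mem hco hM hk x hxW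
    have h3 : πL A K k ⟨x, hxW⟩ = cst k R := by
      rw [← hL.2]
      exact πL_congr hx _ _
    rwa [h3] at h2
  obtain ⟨h, -, hh⟩ := exists_dj hM (⟨cst k R, hmem⟩ : FF k M)
  have h2 := theta_rho (A := A) (K := K) (k := k) (q := q) (x := jqModC K) (y := jqModC K)
    LR.jq LR.jq hL h1 qExpand_jqModC
  have h3 : (h : LaurentSeries k) * theta (jqModC k) =
      theta (jqModC k) ^ q - jqModC k ^ (q - 1) * theta (jqModC k) := hh.symm.trans h2
  have h4 : theta (jqModC k) ^ q = theta (jqModC k) ^ (q - 1) * theta (jqModC k) := by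
    rw [← pow_succ, Nat.sub_add_cancel hq.out.one_le]
  have h5 : (h : LaurentSeries k) = theta (jqModC k) ^ (q - 1) - jqModC k ^ (q - 1) := by
    apply mul_right_cancel₀ theta_jq_ne
    rw [h3, h4]
    ring
  refine ⟨h + jF' k M ^ (q - 1), ?_⟩
  rw [AddMemClass.coe_add, SubmonoidClass.coe_pow, h5]
  have e3 : ((jF' k M : FF k M) : LaurentSeries k) = jqModC k := Jc_one_one
  rw [e3, sub_add_cancel]

end Main

/-! ### the sixth power of `θ j` -/

section Six

variable (k : Type*) [Field k]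

theorem CarM0_Dc : (Dc 1 1 : LaurentSeries ℂ) = deltaC ℂ := by
  haveI : NeZero ((1 : ℕ+) : ℕ) := ⟨one_ne_zero⟩
  rw [PRem.Dc_one_eq ℂ 1]
  exact qExpand_one_apply _

/-- over the integers -/
theorem theta_sq_int : th (jqModC ℤ) ^ 2 * deltaC ℤ = eisC ℤ ^ 4 * (jqModC ℤ - 1728) := by
  have hinj : Function.Injective (coeffMap (Int.castRingHom ℂ)) := by
    intro x y h
    ext n
    have := congrArg (fun z : LaurentSeries ℂ => z.coeff n) h
    simp only [coeffMap_coeff] at this
    exact Int.cast_injective this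
  apply hinj
  rw [map_mul, map_mul, map_pow, map_pow, map_sub, coeffMap_th, coeffMap_jqModC, coeffMap_deltaC,
    coeffMap_eisC, map_ofNat]
  have h1 := theta_jq
  have h2 := E6_sq
  have h3 := jqModC_mul_delta ℂ
  have hD : deltaC ℂ ≠ 0 := by
    rw [← CarM0_Dc]
    exact Dc_ne_zero _ _
  apply mul_right_cancel₀ hD
  have e : theta (jqModC ℂ) ^ 2 * deltaC ℂ * deltaC ℂ = (theta (jqModC ℂ) * deltaC ℂ) ^ 2 := by ring
  rw [e, h1, neg_sq, mul_pow, h2, ← h3]
  ring

end Six

end Fermat.Agent.E2
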