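import Fermat.Agent.E2.MU2
import Fermat.Agent.E2.Theta1
import Fermat.Agent.ThmC.Kaehler

/-!
# The order of the Hasse invariant at supersingular points
-/

set_option autoImplicit false
set_option linter.unusedSectionVars false
set_option linter.style.haveILetI false

open UpperHalfPlane ModularForm Complex Matrix.SpecialLinearGroup
open scoped MatrixGroups Manifold
open Fermat.Agent.AL Fermat.Agent.ALCoh Fermat.Agent.KumG Fermat.Agent.Cov CongruenceSubgroup
  ModularCurve Fermat.Agent.ModPoly Fermat.Agent.GamH Polynomial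
  IntermediateField Fermat.Agent.RedMod Fermat.Agent.Red AlgebraicCurve Fermat.Agent.RR
  Fermat.Agent.SSH Fermat.Agent.SemiSt Fermat.Agent.Nod Fermat.Agent.Curve Fermat.Agent.ThmC

namespace Fermat.Agent.E2

noncomputable section

attribute [local instance 10000] fastAlg

section Local

variable {k : Type*} [Field k] [IsAlgClosed k] {E : IntermediateField k (LaurentSeries k)}
  [FunField k E]

theorem exists_D (j : E) [FiniteDimensional k⟮j⟯ E] [Algebra.IsSeparable k⟮j⟯ E] (u : E) :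
    ∃ g : E, KaehlerDifferential.D k E u = g • KaehlerDifferential.D k E j ∧
      theta (u : LaurentSeries k) = (g : LaurentSeries k) * theta (j : LaurentSeries k) := by
  obtain ⟨g, hg⟩ := exists_dquot (K := k) (F := E) j u
  refine ⟨g, hg, ?_⟩
  exact theta_of_D E.val.toRingHom (fun a => by
    change algebraMap k (LaurentSeries k) a = _
    rw [algebraMap_eq_C]) hg

theorem D_smul_of_theta (j : E) [FiniteDimensional k⟮j⟯ E] [Algebra.IsSeparable k⟮j⟯ E]
    (hj : theta (j : LaurentSeries k) ≠ 0) {r z w : E}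
    (h : theta (r : LaurentSeries k) = (w : LaurentSeries k) * theta (z : LaurentSeries k)) :
    KaehlerDifferential.D k E r = w • KaehlerDifferential.D k E z := by
  obtain ⟨gr, h1, h2⟩ := exists_D j r
  obtain ⟨gz, h3, h4⟩ := exists_D j z
  have h5 : gr = w * gz := by
    apply Subtype.ext
    apply mul_right_cancel₀ hj
    rw [← h2, h, h4, MulMemClass.coe_mul, mul_assoc]
  rw [h1, h3, h5, mul_smul]

/-- an exact differential does not have a simple pole -/
theorem no_simple (Q : Place k E) {r z w : E}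
    (hD : KaehlerDifferential.D k E r = w • KaehlerDifferential.D k E z) (hz : Q.ord z = 1)
    (hw : Q.ord w = -1) : False := by
  obtain ⟨π, hπ⟩ := exists_pi Q
  have h1 := theta_of_D (laurentExp Q (bij Q) hπ) (laurentExp_algebraMap Q (bij Q) hπ) hD
  obtain ⟨h2, h3⟩ := theta_exp_order Q hπ (t := z) (n := 1) (by rw [Int.cast_one]; exact one_ne_zero)
    (Or.inl hz)
  have hw0 : w ≠ 0 := by
    rintro rfl
    rw [Q.ord_zero] at hw
    norm_num at hw
  have hw1 : laurentExp Q (bij Q) hπ w ≠ 0 := by rwa [ne_eq, map_eq_zero]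
  have h4 : theta (laurentExp Q (bij Q) hπ r) ≠ 0 := by
    rw [h1]; exact mul_ne_zero hw1 h2
  have h5 := theta_order_ne_zero h4
  rw [h1, HahnSeries.order_mul hw1 h2, h3, order_laurentExp Q (bij Q) hπ hw0, hw] at h5
  norm_num at h5

/-- the numerical argument -/
theorem ord_arg {F : Type*} [Field F] [Algebra k F] [FunField k F] (i : F →ₐ[k] E)
    (Q : Place k E) (u : Place k F) {e : ℤ} (he : 0 < e)
    (h : ∀ x : F, x ≠ 0 → Q.ord (i x) = e * u.ord x) {q : ℕ}
    {hs et T z : F} (hs0 : hs ≠ 0) (hT0 : T ≠ 0) (hz0 : z ≠ 0)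
    (hη : u.ord et = 0) (hz : u.ord z = 1) (hrel : T ^ 6 * hs = et ^ (q - 1))
    (hpos : 1 ≤ Q.ord (i hs)) {r : E}
    (hD : KaehlerDifferential.D k E r = (i T - i z ^ (q - 1)) • KaehlerDifferential.D k E (i z)) :
    12 ≤ Q.ord (i hs) := by
  have h1 : 6 * u.ord T + u.ord hs = 0 := by
    have h2 := congrArg u.ord hrel
    rw [Place.ord_mul _ (pow_ne_zero _ hT0) hs0, ord_pow, ord_pow, hη, mul_zero] at h2
    exact h2
  have h3 : Q.ord (i hs) = -6 * (e * u.ord T) := by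
    rw [h hs hs0]
    have : u.ord hs = -6 * u.ord T := by linarith
    rw [this]
    ring
  rw [h3] at hpos ⊢
  have hle : e * u.ord T ≤ -1 := by omega
  rcases hle.lt_or_eq with hlt | heq
  · omega
  · exfalso
    have hT : Q.ord (i T) = -1 := by rw [h T hT0, heq]
    have he1 : e = 1 := by
      have hdvd : e ∣ 1 := ⟨-u.ord T, by linarith⟩
      have := Int.eq_one_of_dvd_one he.le hdvd
      exact this
    have hzQ : Q.ord (i z) = 1 := by rw [h z hz0, he1, hz]; norm_num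
    have hiz : i z ≠ 0 := by rwa [Ne, map_eq_zero]
    have hiT : i T ≠ 0 := by rwa [Ne, map_eq_zero]
    refine no_simple Q hD hzQ ?_
    have hlt : Q.ord (i T) < Q.ord (-(i z ^ (q - 1))) := by
      rw [ord_neg, ord_pow, hT, hzQ]
      have : (0 : ℤ) ≤ ((q - 1 : ℕ) : ℤ) := by positivity
      linarith
    rw [sub_eq_add_neg, ord_add_eq_of_lt Q hiT (neg_ne_zero.2 (pow_ne_zero _ hiz)) hlt, hT]

end Local

section Delta

variable (k : Type*) [Field k]

theorem theta_sq : theta (jqModC k) ^ 2 * deltaC k = eisC k ^ 4 * (jqModC k - 1728) := by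
  have h := congrArg (coeffMap (Int.castRingHom k)) theta_sq_int
  rw [map_mul, map_mul, map_pow, map_pow, map_sub, coeffMap_th, coeffMap_jqModC, coeffMap_deltaC,
    coeffMap_eisC, map_ofNat] at h
  exact h

theorem theta_six : theta (jqModC k) ^ 6 = jqModC k ^ 4 * (jqModC k - 1728) ^ 3 * Dc 1 1 := by
  have hD : deltaC k = Dc 1 1 := by
    haveI : NeZero ((1 : ℕ+) : ℕ) := ⟨one_ne_zero⟩
    rw [PRem.Dc_one_eq k 1]
    exact (qExpand_one_apply _).symm
  have h0 : (Dc 1 1 : LaurentSeries k) ≠ 0 := Dc_ne_zero _ _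
  have h1 := theta_sq k
  have h2 := jqModC_mul_delta k
  rw [hD] at h1 h2
  apply mul_right_cancel₀ (pow_ne_zero 3 h0)
  have e1 : theta (jqModC k) ^ 6 * Dc 1 1 ^ 3 = (theta (jqModC k) ^ 2 * Dc 1 1) ^ 3 := by ring
  rw [e1, h1, mul_pow]
  have e2 : (eisC k ^ 4) ^ 3 = (eisC k ^ 3) ^ 4 := by ring
  rw [e2, ← h2]
  ring

end Delta

section Abs

variable {A₀ K₀ A Ω k : Type*} [CommRing A₀] [IsDomain A₀] [IsDiscreteValuationRing A₀] [Field K₀]
  [Algebra A₀ K₀] [IsFractionRing A₀ K₀] [CommRing A] [IsDomain A] [ValuationRing A]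
  [Field Ω] [IsAlgClosed Ω] [CharZero Ω] [Algebra A Ω] [IsFractionRing A Ω] [Field k]
  [IsAlgClosed k] [Algebra A k] [Algebra A₀ k] [Algebra K₀ Ω]
  {FM₀ Fq₀ : IntermediateField K₀ (LaurentSeries K₀)}
  {FM Fq : IntermediateField Ω (LaurentSeries Ω)}
  {E : IntermediateField k (LaurentSeries k)} {ι : Type*} [Fintype ι] {y : ι → LaurentSeries ℤ}
  {q : ℕ} [hq : Fact q.Prime] [CharP k q] [PerfectRing k q]
  {S₀ : SSD A₀ FM₀ Fq₀ E y q} {S : SSD A FM Fq E y q} (X : SExt S₀ S)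
  [FunField k E] [FunField Ω FM] [FunField Ω Fq] (hS : SP S.G)
  (hgen : rrGenus k E = rrGenus Ω FM) [CharZero K₀]

include X hS hgen in
/-- the derivative of the quotient by `q` -/
theorem exists_rho {y : FM₀} {z : E}
    (hy : LR A₀ (y : LaurentSeries K₀) (z : LaurentSeries k))
    (hz : Reg k S₀.jE z) :
    ∃ r : E, theta (r : LaurentSeries k) = theta (z : LaurentSeries k) ^ q -
      (z : LaurentSeries k) ^ (q - 1) * theta (z : LaurentSeries k) := by
  haveI : NeZero q := ⟨hq.out.ne_zero⟩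
  have hgz : Reg k S₀.jE (S₀.fd.g • z) := by
    intro P hP
    have h1 : Ge (S₀.fd.g⁻¹ • P) 0 z := hz _ (by
      have := S₀.fd.ord_g_inv_j P
      change 0 ≤ (S₀.fd.g⁻¹ • P).ord S₀.fd.j
      rw [this]
      exact hP)
    rw [ge_smul'] at h1
    rwa [inv_inv] at h1
  obtain ⟨z1, hz1, -⟩ := X.lift hS hgen hgz
  have hsg : S₀.sg (S₀.fd.g • z) = z ^ q := S₀.fd.hσ z
  obtain ⟨N, hN⟩ : ∃ N : Fq₀, N = S₀.be z1 - (S₀.inc y) ^ q := ⟨_, rfl⟩
  have hNred : S₀.HasRed N ((z : LaurentSeries k) ^ q - (z : LaurentSeries k) ^ q)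
      (((S₀.fd.g • z : E) : LaurentSeries k) - ((S₀.sg z : E) : LaurentSeries k) ^ q) := by
    have h1 := (SSD.hasRed_be (S := S₀) hz1).sub ((SSD.hasRed_inc (S := S₀) hy).pow q)
    rw [hsg, SubmonoidClass.coe_pow, ← hN] at h1
    exact h1
  have hN0 : N ∈ (X.CC 0).W := hNred.1.1
  have hrN : (X.CC 0).r N = 0 := by
    refine X.r0_eq (hNred.1.of_eq rfl ?_)
    rw [sub_self]
    rfl
  have hge : (X.CC 0).Ge 1 N := (Car.Comp.r_eq_zero_iff hN0).1 hrN
  obtain ⟨qF, hqF⟩ : ∃ qF : Fq₀,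
      qF = algebraMap K₀ Fq₀ (algebraMap A₀ K₀ (q : A₀)) := ⟨_, rfl⟩
  have hqF0 : qF ≠ 0 := by
    rw [hqF, Ne, map_eq_zero, map_eq_zero_iff _ (IsFractionRing.injective A₀ K₀)]
    exact X.q_ne
  have hvq : (X.CC 0).v qF = 1 := by rw [hqF]; exact X.v_q 0
  have hρ : N * qF⁻¹ ∈ (X.CC 0).W := by
    rw [← Car.Comp.ge_zero_iff]
    have h1 : (X.CC 0).Ge (-1) qF⁻¹ := Car.Comp.ge_of_le (by rw [Car.Comp.v_inv, hvq])
    exact (hge.mul h1).mono (by norm_num)
  have hLR := X.LR0 hρ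
  refine ⟨(X.CC 0).r (N * qF⁻¹), ?_⟩
  have hC : (HahnSeries.C (q : K₀) : LaurentSeries K₀) = (qF : LaurentSeries K₀) := by
    rw [hqF, SSD.coe_algebraMap (Fq := Fq₀), map_natCast (algebraMap A₀ K₀)]
  have hNc : (N : LaurentSeries K₀) = qExpand K₀ q (S₀.δ.θ z1 : LaurentSeries K₀) -
      (y : LaurentSeries K₀) ^ q := by
    have h1 := S₀.w_inc z1
    have h2 : ((S₀.be z1 : Fq₀) : LaurentSeries K₀) =
        qExpand K₀ q (S₀.δ.θ z1 : LaurentSeries K₀) := h1
    rw [hN, AddSubgroupClass.coe_sub, SubmonoidClass.coe_pow, h2]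
    rfl
  refine theta_rho (A := A₀) (K := K₀) (k := k) (q := q) (x := (S₀.δ.θ z1 : LaurentSeries K₀))
    (y := (y : LaurentSeries K₀)) (a := (S₀.δ.θb (S₀.fd.g • z) : LaurentSeries k))
    (b := (z : LaurentSeries k)) (SSD.LR.dia S₀.δ hz1) hy hLR ?_ ?_
  · rw [hC, ← hNc, ← MulMemClass.coe_mul]
    congr 1
    rw [mul_comm N, mul_inv_cancel_left₀ hqF0]
  · rw [← SubmonoidClass.coe_pow, ← hsg, SSD.coe_sg]

variable [Algebra.IsAlgebraic K₀ Ω]

include hS in
theorem reg_of_lift {y : FM₀} {z : E}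
    (hy : LR A₀ (y : LaurentSeries K₀) (z : LaurentSeries k)) (hr : Reg Ω S.jM (X.DM.emb y)) :
    Reg k S₀.jE z := by
  letI := algA A₀ Fq₀
  haveI := tower_algA A₀ Fq₀
  letI := algA A₀ E
  haveI := tower_algA A₀ E
  have h1 := X.reg0 hS (X.inc_mem_B hS hy hr)
  have h2 : (X.CC 0).r (S₀.inc y) = z := X.r0_of (b := S₀.sg z) (SSD.hasRed_inc (S := S₀) hy)
  rwa [h2] at h1

end Abs

namespace Set2

variable {A₀ K₀ A K k : Type*} [CommRing A₀] [IsDomain A₀] [IsDiscreteValuationRing A₀] [Field K₀]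
  [CharZero K₀] [Algebra ℚ K₀]
  [Algebra A₀ K₀] [IsFractionRing A₀ K₀] [CommRing A] [IsDomain A] [ValuationRing A]
  [Field K] [IsAlgClosed K] [CharZero K] [Algebra ℚ K] [Algebra A K] [IsFractionRing A K]
  [Field k] [IsAlgClosed k] [Algebra A k] [Algebra A₀ k] [Algebra K₀ K]
  {q M : ℕ} [hq : Fact q.Prime] [NeZero M]
  {H : Subgroup (ZMod M)ˣ} [hH : Fact ((-1 : (ZMod M)ˣ) ∈ H)] [CharP k q] [PerfectRing k q]
  [Algebra.IsAlgebraic K₀ K] (s : Set2 A₀ K₀ A K k q M H)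

/-- liftable uniformisers on the special fibre -/
def Unif (_s : Set2 A₀ K₀ A K k q M H) : Prop :=
  ∀ Q : Place k (FF k M), 0 ≤ Q.ord (jF' k M) →
    ∃ (y : FF K₀ M) (hy : (y : LaurentSeries K₀) ∈ WL A₀ K₀ k) (z : FF k M),
      πL A₀ K₀ k ⟨y, hy⟩ = z ∧ Q.ord z = 1 ∧
      (∀ v : Place K (FF K M), 0 ≤ v.ord (jF' K M) → 0 ≤ v.ord (CarE.emb K₀ K M y)) ∧
      ∃ g : FF k M, theta (z : LaurentSeries k) = (g : LaurentSeries k) * theta (jqModC k) ∧
        g ^ 6 * jF' k M ^ 4 * (jF' k M - 1728) ^ 3 ≠ 0 ∧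
        Q.ord (g ^ 6 * jF' k M ^ 4 * (jF' k M - 1728) ^ 3) = 0

variable [FunField k (FH k M H)] [FunField K (FG (GH M H) K)] [FunField K (FG (Gq q M H) K)]

/-- **the Hasse invariant has simple zeros** -/
theorem ord_hs (hU : s.Unif) {Q : Place k (FH k M H)} (hQ : 0 ≤ Q.ord s.S₀.jE)
    (hpos : 1 ≤ Q.ord (hs k q M H)) : 12 ≤ Q.ord (hs k q M H) := by
  haveI := funField_FF (k := k) (M := M) s.hM
  obtain ⟨i, hi⟩ : ∃ i : FF k M →ₐ[k] FH k M H, i = inclusion FF_le_FH := ⟨_, rfl⟩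
  have hic : ∀ x, (i x : LaurentSeries k) = x := fun x => by rw [hi, coe_incl_gen]
  have hhs : hs k q M H = i (CarM.hs k q M) := by rw [hi]; rfl
  have hhs0 := CarM.hs_ne (k := k) (q := q) (M := M)
  obtain ⟨u, e, he, h⟩ := exists_restrict i Q (j := CarM.hs k q M) (by
    rw [← hhs]; omega)
  have hjE : s.S₀.jE = i (jF' k M) := by
    apply Subtype.ext
    rw [hic]
    exact Jc_one_one.symm
  have hj0 : jF' k M ≠ 0 := Cusp.jF_ne_zero
  have hu : 0 ≤ u.ord (jF' k M) := by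
    rw [hjE, h _ hj0] at hQ
    by_contra hcon
    push Not at hcon
    have := mul_neg_of_pos_of_neg he hcon
    omega
  obtain ⟨y, hy, z, hyz, hz1, hreg, g, hg, hη0, hη⟩ := hU u hu
  obtain ⟨t, ht⟩ := exists_thetaj (A := A) K (q := q) (M := M) (coprime_of s.hqM) s.hk s.hM
  have hz0 : z ≠ 0 := by
    rintro rfl
    rw [u.ord_zero] at hz1
    exact zero_ne_one hz1
  have hg0 : g ≠ 0 := by
    rintro rfl
    rw [zero_pow (by norm_num), zero_mul, zero_mul] at hη0
    exact hη0 rfl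
  have hθ0 := theta_jq_ne (k := k)
  have ht0 : t ≠ 0 := by
    rintro rfl
    exact pow_ne_zero (q - 1) hθ0 ht.symm
  have hq1 := hq.out.two_le
  have hJ : ((jF' k M : FF k M) : LaurentSeries k) = jqModC k := Jc_one_one
  have hD0 : (Dc 1 1 : LaurentSeries k) ≠ 0 := Dc_ne_zero _ _
  -- the lift of the uniformiser
  obtain ⟨yM, hyM⟩ : ∃ yM : FG (GH M H) K₀, yM = inclusion (FF_le_FG hH.out) y := ⟨_, rfl⟩
  have hyMc : (yM : LaurentSeries K₀) = y := by rw [hyM, coe_incl_gen]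
  have hLR : LR A₀ (yM : LaurentSeries K₀) (i z : LaurentSeries k) := by
    rw [hyMc, hic]
    exact ⟨hy, hyz⟩
  have hRegz : Reg k s.S₀.jE (i z) := by
    haveI := funField_FF (k := K) (M := M) (natCast_ne_zero_K K M)
    refine reg_of_lift s.X s.toSetting.sp hLR ?_
    have hreg' : Reg K (jF' K M) (CarE.emb K₀ K M y) := fun v hv => Ge.of_le (hreg v hv)
    refine reg_incl_gen (FF_le_FG hH.out) (RR.transcendental_jF _) hreg' ?_ ?_
    · apply Subtype.ext
      rw [coe_incl_gen]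
      exact Jc_one_one
    · apply Subtype.ext
      rw [coe_incl_gen, s.X.coeM, hyMc]
      rfl
  obtain ⟨r, hr⟩ := exists_rho s.X s.toSetting.sp s.toSetting.gen hLR hRegz
  have hzθ : theta (z : LaurentSeries k) = (g : LaurentSeries k) * theta (jqModC k) := hg
  have hTc : ((g ^ (q - 1) * t : FF k M) : LaurentSeries k) = theta (z : LaurentSeries k) ^ (q - 1) := by
    rw [MulMemClass.coe_mul, SubmonoidClass.coe_pow, ht, hzθ, mul_pow]
  have hrel : (g ^ (q - 1) * t) ^ 6 * CarM.hs k q M =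
      (g ^ 6 * jF' k M ^ 4 * (jF' k M - 1728) ^ 3) ^ (q - 1) := by
    apply Subtype.ext
    rw [MulMemClass.coe_mul, SubmonoidClass.coe_pow, hTc, hzθ, CarM.coe_hs, SubmonoidClass.coe_pow,
      MulMemClass.coe_mul, MulMemClass.coe_mul, SubmonoidClass.coe_pow, SubmonoidClass.coe_pow,
      SubmonoidClass.coe_pow, AddSubgroupClass.coe_sub, hJ]
    have e1728 : (((1728 : FF k M) : FF k M) : LaurentSeries k) = 1728 := rfl
    rw [e1728, CarM.hsL, CarM.Dc_q]
    have h6 := theta_six k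
    have e1 : (((g : LaurentSeries k) * theta (jqModC k)) ^ (q - 1)) ^ 6 =
        ((g : LaurentSeries k) ^ 6 * theta (jqModC k) ^ 6) ^ (q - 1) := by
      rw [← mul_pow, ← pow_mul, ← pow_mul, mul_comm (q - 1)]
    have e2 : (Dc 1 1 : LaurentSeries k) ^ q = Dc 1 1 ^ (q - 1) * Dc 1 1 := by
      rw [← pow_succ, Nat.sub_add_cancel (by omega)]
    rw [e1, h6, e2, mul_pow, mul_pow, mul_pow, mul_pow, mul_pow]
    field_simp
  haveI hfd : FiniteDimensional k⟮s.S₀.jE⟯ (FH k M H) := (FH_data s.hM s.hM3 hH.out).1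
  haveI hsep : Algebra.IsSeparable k⟮s.S₀.jE⟯ (FH k M H) := (FH_data s.hM s.hM3 hH.out).2.1
  have hD : KaehlerDifferential.D k (FH k M H) r = (i (g ^ (q - 1) * t) - i z ^ (q - 1)) •
      KaehlerDifferential.D k (FH k M H) (i z) := by
    refine D_smul_of_theta s.S₀.jE hθ0 ?_
    rw [hr, AddSubgroupClass.coe_sub, SubmonoidClass.coe_pow, hic, hic, hTc, sub_mul,
      ← pow_succ, Nat.sub_add_cancel (by omega)]
  rw [hhs]
  exact ord_arg i Q u he h hhs0 (mul_ne_zero (pow_ne_zero _ hg0) ht0) hz0 hη hz1 hrel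
    (by rw [← hhs]; exact hpos) hD


end Set2

end

end Fermat.Agent.E2
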