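import Fermat.Agent.E2.Nodes2
import Fermat.Agent.Car.Abs

/-!
# Slopes: the reductions of a function whose divisor is divisible by `m`
-/

set_option autoImplicit false
set_option linter.unusedSectionVars false
set_option linter.style.haveILetI false

open Module ModularCurve Polynomial IntermediateField Fermat.Agent.ModPoly Fermat.Agent.Red
  Fermat.Agent.RedMod Fermat.Agent.Cov Fermat.Agent.SemiSt AlgebraicCurve Fermat.Agent.Nod
  Fermat.Agent.Curve Fermat.Agent.RR Fermat.Agent.SSH Fermat.Agent.Car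

namespace Fermat.Agent.E2

noncomputable section

section Gen

variable {A K F k R κ Ω L : Type*} [CommRing A] [IsDomain A] [IsDiscreteValuationRing A]
    [Field K] [Algebra A K] [IsFractionRing A K] [Field F] [Algebra K F] [Algebra A F]
    [IsScalarTower A K F] [Field k] [Algebra A k] [CommRing R] [Algebra k R] [Algebra A R]
    [IsScalarTower A k R] [Field κ] [Algebra k κ] [Field Ω] [Field L] [Algebra Ω L] [Algebra K Ω]
    {ι J : Type*} [Fintype ι] [Fintype J]

variable (M : CModel A K F k R κ Ω L ι J)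

variable [IsAlgClosed Ω] [CharZero Ω] [FunField Ω L] [Algebra.IsAlgebraic K Ω] [Nonempty J]
  [IsAlgClosed k] [FunField k κ] [CharZero K]

/-- **The root divisor is locally principal.** -/
theorem CModel.exists_gen_at' {f : F} (hf0 : f ≠ 0) (hv : ∀ j, (M.comp j).v f = 0) {m : ℕ}
    (hm : m ≠ 0) {E : Divisor Ω L} (hE : ∀ v, (m : ℤ) * E v = v.ord (M.emb f)) {i : J}
    (hsurj : ∀ z : κ, Reg k (M.tb i) z → ∃ x ∈ M.B, (M.comp i).r x = z)
    {Q' : Place k κ} (hQ' : 0 ≤ Q'.ord (M.tb i)) (hstar : ∃ u ∈ M.B, (M.comp i).v u = 1 ∧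
      ∃ z, Reg Ω (M.emb M.t) (M.emb z) ∧ (M.comp i).v z = -1 ∧
      (∀ l, l ≠ i → (M.comp l).Ge 0 z) ∧ val Q' ((M.comp i).r (u * z)) ≠ 0) :
    ∃ s ∈ M.M0 E, val Q' ((M.comp i).r (s ^ m * f⁻¹)) ≠ 0 := by
  classical
  obtain ⟨u, hu, hvu, z, hz, hvz, hzl, huz⟩ := hstar
  have hu0 : u ≠ 0 := by rintro rfl; rw [Comp.v_zero] at hvu; omega
  have hz0 : z ≠ 0 := by rintro rfl; rw [Comp.v_zero] at hvz; omega
  have huzv : (M.comp i).v (u * z) = 0 := by rw [Comp.v_mul _ hu0 hz0, hvu, hvz]; norm_num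
  have huzB : u * z ∈ M.B := by
    refine ⟨?_, ?_⟩
    · rw [M.mem_W_iff]
      intro l
      by_cases hl : l = i
      · subst hl; right; rw [huzv]
      · exact ((Comp.ge_of_mem (M.memj hu.1 l)).mul (hzl l hl)).mono (by norm_num)
    · rw [map_mul]; exact hu.2.mul hz
  -- a section with minimal order at `Q'`
  have hmpos : (0 : ℤ) < m := by exact_mod_cast Nat.pos_of_ne_zero hm
  let S : ℤ → Prop := fun n => ∃ s ∈ M.M0 E, s ≠ 0 ∧ (M.comp i).v s = 0 ∧ Q'.ord ((M.comp i).r s) = n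
  obtain ⟨n, ⟨s, hs, hs0, hvs, hsn⟩, hmin⟩ : ∃ n, S n ∧ ∀ n', S n' → n ≤ n' := by
    apply Int.exists_least_of_bdd
    · refine ⟨-(Q'.ord ((M.comp i).r f)).natAbs, ?_⟩
      rintro n' ⟨s, hs, hs0, hvs, rfl⟩
      have h1 := M.reg_r (M.pow_mul_inv_mem_B hf0 hv hm hE hs) i Q' hQ'
      have hsW : s ∈ (M.comp i).W := M.memj hs.1 i
      have hfW : f⁻¹ ∈ (M.comp i).W := Comp.mem_of_v (by rw [Comp.v_inv, hv]; norm_num)
      have hrs : (M.comp i).r s ≠ 0 := (Comp.r_ne_zero_iff hs0).2 hvs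
      have hrf : (M.comp i).r f ≠ 0 := (Comp.r_ne_zero_iff hf0).2 (hv i)
      rw [Comp.r_mul (pow_mem hsW m) hfW, Comp.r_pow hsW, Comp.r_inv (hv i)] at h1
      have h2 := h1.le_ord (mul_ne_zero (pow_ne_zero _ hrs) (inv_ne_zero hrf))
      rw [Place.ord_mul _ (pow_ne_zero _ hrs) (inv_ne_zero hrf), ord_pow, Place.ord_inv] at h2
      have h3 : Q'.ord ((M.comp i).r f) ≤ m * Q'.ord ((M.comp i).r s) := by linarith
      have h4 : (1 : ℤ) ≤ m := hmpos
      by_contra hcon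
      push Not at hcon
      have h5 : Q'.ord ((M.comp i).r s) < 0 := by omega
      have h6 : (m : ℤ) * Q'.ord ((M.comp i).r s) ≤ Q'.ord ((M.comp i).r s) := by nlinarith
      omega
    · obtain ⟨s, hs, hs0, hvs⟩ := M.exists_v_zero hf0 hm hE i
      exact ⟨_, s, hs, hs0, hvs, rfl⟩
  have hrs : (M.comp i).r s ≠ 0 := (Comp.r_ne_zero_iff hs0).2 hvs
  have hsW : s ∈ (M.comp i).W := M.memj hs.1 i
  -- the maximal ideal
  let ε := M.ev i Q' hQ'
  have hε : ε = M.ev i Q' hQ' := rfl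
  have hεs : Function.Surjective ε := M.ev_surjective hQ'
  have hεu : ε ⟨u, hu⟩ = 0 := by
    rw [hε, M.ev_apply]
    have : (M.comp i).r u = 0 := (Comp.r_eq_zero_iff (M.memj hu.1 i)).2 (Or.inr hvu.ge)
    change val Q' ((M.comp i).r u) = 0
    rw [this, val_zero]
  have hzM : ∀ y ∈ M.M0 E, 1 ≤ (M.comp i).v y → z * y ∈ M.M0 E := by
    intro y hy hvy
    have hy0 : y ≠ 0 := by rintro rfl; rw [Comp.v_zero] at hvy; omega
    refine ⟨?_, fun v hv' => ?_⟩
    · rw [M.mem_W_iff]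
      intro l
      by_cases hl : l = i
      · subst hl; right; rw [Comp.v_mul _ hz0 hy0, hvz]; linarith
      · exact ((hzl l hl).mul (Comp.ge_of_mem (M.memj hy.1 l))).mono (by norm_num)
    · rw [map_mul]
      exact ((hz v hv').mul (hy.2 v hv')).mono (by simp)
  -- local statement
  have hloc : ∀ x ∈ M.M0 E, ∃ w : M.B, ε w ≠ 0 ∧ ∃ b : M.B, ∃ y ∈ M.M0 E,
      (w : F) * x = (b : F) * s + u * y := by
    intro x hx
    by_cases hx1 : (M.comp i).Ge 1 x
    · refine ⟨⟨u * z, huzB⟩, ?_, 0, z * x, ?_, ?_⟩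
      · rw [hε]; exact huz
      · rcases hx1 with rfl | h
        · rw [mul_zero]; exact zero_mem _
        · exact hzM x hx h
      · change u * z * x = 0 * s + u * (z * x)
        ring
    · have hx0 : x ≠ 0 := by rintro rfl; exact hx1 (Comp.ge_zero _)
      have hvx : (M.comp i).v x = 0 := by
        have h1 := M.memj hx.1 i
        rw [Comp.mem_iff] at h1
        rcases h1 with h | h
        · exact absurd h hx0
        · by_contra hne
          exact hx1 (Or.inr (by omega))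
      have hrx : (M.comp i).r x ≠ 0 := (Comp.r_ne_zero_iff hx0).2 hvx
      have hxW : x ∈ (M.comp i).W := M.memj hx.1 i
      have h2 := hmin _ ⟨x, hx, hx0, hvx, rfl⟩
      have h3 : Ge Q' 0 ((M.comp i).r x / (M.comp i).r s) := by
        right
        rw [ord_div _ hrx hrs, hsn]
        linarith
      obtain ⟨α, hα, hα', hαh⟩ := exists_reg_mul (M.transcendental_tb i) hQ' h3
      obtain ⟨a, ha, har⟩ := hsurj α hα
      obtain ⟨b, hb, hbr⟩ := hsurj _ hαh
      let y := a * x - b * s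
      have hy : y ∈ M.M0 E := sub_mem ((M.M0 E).smul_mem ⟨a, ha⟩ hx) ((M.M0 E).smul_mem ⟨b, hb⟩ hs)
      have haW := M.memj ha.1 i
      have hbW := M.memj hb.1 i
      have hry : (M.comp i).Ge 1 y := by
        rw [← Comp.r_eq_zero_iff (M.memj hy.1 i), Comp.r_sub (mul_mem haW hxW) (mul_mem hbW hsW),
          Comp.r_mul haW hxW, Comp.r_mul hbW hsW, har, hbr]
        field_simp
        ring
      refine ⟨⟨u * z, huzB⟩ * ⟨a, ha⟩, ?_, ⟨u * z, huzB⟩ * ⟨b, hb⟩, z * y, ?_, ?_⟩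
      · rw [map_mul]
        refine mul_ne_zero (by rw [hε]; exact huz) ?_
        rw [hε, M.ev_apply]
        change val Q' ((M.comp i).r a) ≠ 0
        rw [har]; exact hα'
      · rcases hry with h | h
        · rw [h, mul_zero]; exact zero_mem _
        · exact hzM y hy h
      · change u * z * a * x = u * z * b * s + u * (z * (a * x - b * s))
        ring
  -- globalise
  let I : Ideal M.B := RingHom.ker ε
  have hfg := M.fg_M0 hf0 hm hE
  obtain ⟨T, hT⟩ := hfg
  have hTM : ∀ x ∈ T, x ∈ M.M0 E := fun x hx => by rw [← hT]; exact Submodule.subset_span hx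
  have hw : ∀ x : F, ∃ w : M.B, ε w ≠ 0 ∧ (x ∈ T → ∃ b : M.B, ∃ y ∈ M.M0 E,
      (w : F) * x = (b : F) * s + u * y) := by
    intro x
    by_cases hx : x ∈ T
    · obtain ⟨w, hw, hw'⟩ := hloc x (hTM x hx)
      exact ⟨w, hw, fun _ => hw'⟩
    · exact ⟨1, by rw [map_one]; exact one_ne_zero, fun h => absurd h hx⟩
  choose w hw1 hw2 using hw
  let ww : M.B := ∏ x ∈ T, w x
  have hww : ε ww ≠ 0 := by
    simp only [ww]
    rw [map_prod]
    exact Finset.prod_ne_zero_iff.2 fun x _ => hw1 x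
  have hww2 : ∀ x ∈ M.M0 E, ww • x ∈ Submodule.span M.B {s} ⊔ I • M.M0 E := by
    intro x hx
    rw [← hT] at hx
    induction hx using Submodule.span_induction with
    | mem x hx =>
      obtain ⟨b, y, hy, hby⟩ := hw2 x hx
      have e : ww = (∏ y ∈ T.erase x, w y) * w x := (Finset.prod_erase_mul T w hx).symm
      have e2 : ww • x = ((∏ y ∈ T.erase x, w y) * b) • s + (∏ y ∈ T.erase x, w y) • ((⟨u, hu⟩ : M.B) • y) := by
        rw [e, mul_smul, mul_smul, ← smul_add]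
        congr 1
      rw [e2]
      refine add_mem (Submodule.mem_sup_left (Submodule.smul_mem _ _
        (Submodule.mem_span_singleton_self s))) (Submodule.mem_sup_right
          (Submodule.smul_mem _ _ (Submodule.smul_mem_smul hεu hy)))
    | zero => rw [smul_zero]; exact zero_mem _
    | add x y _ _ hx hy => rw [smul_add]; exact add_mem hx hy
    | smul a x _ hx => rw [smul_comm]; exact Submodule.smul_mem _ _ hx
  obtain ⟨c, hc⟩ := hεs (ε ww)⁻¹
  have hle : M.M0 E ≤ Submodule.span M.B {s} ⊔ I • M.M0 E := by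
    intro x hx
    have e : x = (c * ww) • x + (1 - c * ww) • x := by rw [← add_smul]; simp
    rw [e]
    refine add_mem ?_ (Submodule.mem_sup_right (Submodule.smul_mem_smul ?_ hx))
    · rw [mul_smul]; exact Submodule.smul_mem _ _ (hww2 x hx)
    · change ε (1 - c * ww) = 0
      rw [map_sub, map_one, map_mul, hc, inv_mul_cancel₀ hww, sub_self]
  obtain ⟨b, hb1, hb2⟩ := Submodule.exists_sub_one_mem_and_smul_le_of_fg_of_le_sup
    (M.fg_M0 hf0 hm hE) le_rfl hle
  have hεb : ε b = 1 := by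
    have h1 : ε (b - 1) = 0 := hb1
    rw [map_sub, map_one, sub_eq_zero] at h1
    exact h1
  have hb0 : (b : F) ≠ 0 := by
    intro h
    have : b = 0 := Subtype.ext h
    rw [this, map_zero] at hεb
    exact zero_ne_one hεb
  have hb3 : ∀ x ∈ M.M0 E, ∃ b' : M.B, (b : F) * x = (b' : F) * s := by
    intro x hx
    have h1 : b • x ∈ Submodule.span M.B {s} := hb2 (Submodule.smul_mem_pointwise_smul x b _ hx)
    obtain ⟨b', hb'⟩ := Submodule.mem_span_singleton.1 h1
    exact ⟨b', hb'.symm⟩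
  have hη := M.pow_mul_inv_mem_B hf0 hv hm hE hs
  have hη0 : s ^ m * f⁻¹ ≠ 0 := mul_ne_zero (pow_ne_zero _ hs0) (inv_ne_zero hf0)
  have hdiv : (b : F) ^ m * (s ^ m * f⁻¹)⁻¹ ∈ M.B := by
    refine ⟨?_, fun v hv' => ?_⟩
    · rw [M.mem_W_iff]
      intro l
      right
      rw [Comp.v_mul _ (pow_ne_zero _ hb0) (inv_ne_zero hη0), Comp.v_pow, Comp.v_inv,
        Comp.v_mul _ (pow_ne_zero _ hs0) (inv_ne_zero hf0), Comp.v_pow, Comp.v_inv, hv]
      obtain ⟨x, hx, hx0, hvx⟩ := M.exists_v_zero hf0 hm hE l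
      obtain ⟨b', hb'⟩ := hb3 x hx
      have hb'0 : (b' : F) ≠ 0 := by
        intro h
        rw [h, zero_mul] at hb'
        exact mul_ne_zero hb0 hx0 hb'
      have h2 := congrArg (M.comp l).v hb'
      rw [Comp.v_mul _ hb0 hx0, Comp.v_mul _ hb'0 hs0, hvx] at h2
      have h3 := M.memj b'.2.1 l
      rw [Comp.mem_iff] at h3
      rcases h3 with h3 | h3
      · exact absurd h3 hb'0
      have h4 : 0 ≤ (m : ℤ) * ((M.comp l).v (b : F) - (M.comp l).v s) :=
        mul_nonneg hmpos.le (by linarith)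
      linarith
    · right
      have hs0' : M.emb s ≠ 0 := by rwa [Ne, map_eq_zero]
      have hf0' : M.emb f ≠ 0 := by rwa [Ne, map_eq_zero]
      have hb0' : M.emb (b : F) ≠ 0 := by rwa [Ne, map_eq_zero]
      have hη0' : M.emb s ^ m * (M.emb f)⁻¹ ≠ 0 :=
        mul_ne_zero (pow_ne_zero _ hs0') (inv_ne_zero hf0')
      rw [map_mul, map_pow, map_inv₀, map_mul, map_pow, map_inv₀,
        Place.ord_mul _ (pow_ne_zero _ hb0') (inv_ne_zero hη0'), ord_pow, Place.ord_inv,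
        Place.ord_mul _ (pow_ne_zero _ hs0') (inv_ne_zero hf0'), ord_pow, Place.ord_inv, ← hE]
      obtain ⟨x, hx, hx0, hvx⟩ := M.exists_exact hf0 hm hE hv'
      obtain ⟨b', hb'⟩ := hb3 x hx
      have hb'0 : (b' : F) ≠ 0 := by
        intro h
        rw [h, zero_mul] at hb'
        exact mul_ne_zero hb0 hx0 hb'
      have hx0' : M.emb x ≠ 0 := by rwa [Ne, map_eq_zero]
      have hb'0' : M.emb (b' : F) ≠ 0 := by rwa [Ne, map_eq_zero]
      have h2 := congrArg (fun y => v.ord (M.emb y)) hb'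
      simp only [map_mul] at h2
      rw [Place.ord_mul _ hb0' hx0', Place.ord_mul _ hb'0' hs0', hvx] at h2
      have h3 := (b'.2.2 v hv').le_ord hb'0'
      have h4 : 0 ≤ (m : ℤ) * (v.ord (M.emb (b : F)) + E v - v.ord (M.emb s)) :=
        mul_nonneg hmpos.le (by linarith)
      linarith
  refine ⟨s, hs, ?_⟩
  intro h0
  have e : (b ^ m : M.B) = ⟨s ^ m * f⁻¹, hη⟩ * ⟨_, hdiv⟩ := by
    apply Subtype.ext
    change (b : F) ^ m = (s ^ m * f⁻¹) * ((b : F) ^ m * (s ^ m * f⁻¹)⁻¹)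
    rw [mul_comm ((b : F) ^ m), mul_inv_cancel_left₀ hη0]
  have h5 := congrArg ε e
  have h6 : ε ⟨s ^ m * f⁻¹, hη⟩ = 0 := h0
  rw [map_pow, hεb, one_pow, map_mul, h6, zero_mul] at h5
  exact one_ne_zero h5


theorem CModel.dvd_ord {f : F} (hf0 : f ≠ 0) (hv : ∀ j, (M.comp j).v f = 0) {m : ℕ}
    (hm : m ≠ 0) {E : Divisor Ω L} (hE : ∀ v, (m : ℤ) * E v = v.ord (M.emb f)) {i : J}
    {Q : Place k κ} (hQ : 0 ≤ Q.ord (M.tb i)) {s : F} (hs : s ∈ M.M0 E)
    (hsQ : val Q ((M.comp i).r (s ^ m * f⁻¹)) ≠ 0) : (m : ℤ) ∣ Q.ord ((M.comp i).r f) := by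
  have hη := M.pow_mul_inv_mem_B hf0 hv hm hE hs
  have hreg := M.reg_r hη i Q hQ
  have hsW : s ∈ (M.comp i).W := M.memj hs.1 i
  have hfW : f⁻¹ ∈ (M.comp i).W := Comp.mem_of_v (by rw [Comp.v_inv, hv]; norm_num)
  have hrf : (M.comp i).r f ≠ 0 := (Comp.r_ne_zero_iff hf0).2 (hv i)
  have e : (M.comp i).r (s ^ m * f⁻¹) = (M.comp i).r s ^ m * ((M.comp i).r f)⁻¹ := by
    rw [Comp.r_mul (pow_mem hsW m) hfW, Comp.r_pow hsW, Comp.r_inv (hv i)]
  have hne : (M.comp i).r (s ^ m * f⁻¹) ≠ 0 := fun h => hsQ (by rw [h, val_zero])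
  have hrs : (M.comp i).r s ≠ 0 := by
    intro h
    rw [e, h, zero_pow hm, zero_mul] at hne
    exact hne rfl
  have hord : Q.ord ((M.comp i).r (s ^ m * f⁻¹)) = 0 := by
    have h1 := hreg.le_ord hne
    by_contra h2
    apply hsQ
    rw [val_eq_zero_iff hreg]
    exact Ge.of_le (by omega)
  rw [e, Place.ord_mul _ (pow_ne_zero _ hrs) (inv_ne_zero hrf), ord_pow, Place.ord_inv] at hord
  exact ⟨Q.ord ((M.comp i).r s), by linarith⟩

end Gen

end

end Fermat.Agent.E2
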