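import Fermat.Agent.E2.Slope
import Fermat.Agent.E2.LiftInv
import Fermat.Agent.Car.Main
import Fermat.Agent.E2.Fast

/-!
# Slopes for the two component model
-/

set_option autoImplicit false
set_option linter.unusedSectionVars false
set_option linter.style.haveILetI false

open Module ModularCurve Polynomial IntermediateField Fermat.Agent.ModPoly Fermat.Agent.Red
  Fermat.Agent.RedMod Fermat.Agent.Cov Fermat.Agent.SemiSt AlgebraicCurve Fermat.Agent.Nod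
  Fermat.Agent.Curve Fermat.Agent.RR Fermat.Agent.SSH

namespace Fermat.Agent.E2

noncomputable section

attribute [local instance 10000] fastAlg

variable {A₀ K₀ A Ω k : Type*} [CommRing A₀] [IsDomain A₀] [IsDiscreteValuationRing A₀] [Field K₀]
  [Algebra A₀ K₀] [IsFractionRing A₀ K₀] [CommRing A] [IsDomain A] [ValuationRing A]
  [Field Ω] [IsAlgClosed Ω] [CharZero Ω] [Algebra A Ω] [IsFractionRing A Ω] [Field k]
  [IsAlgClosed k] [Algebra A k] [Algebra A₀ k] [Algebra K₀ Ω]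
  {FM₀ Fq₀ : IntermediateField K₀ (LaurentSeries K₀)}
  {FM Fq : IntermediateField Ω (LaurentSeries Ω)}
  {E : IntermediateField k (LaurentSeries k)} {ι : Type*} [Fintype ι] {y : ι → LaurentSeries ℤ}
  {q : ℕ} [hq : Fact q.Prime] [CharP k q] [PerfectRing k q]
  {S₀ : SSD A₀ FM₀ Fq₀ E y q} {S : SSD A FM Fq E y q} (X : SExt S₀ S)
  [FunField k E] [FunField Ω FM] [FunField Ω Fq] (hS : SP S.G)
  (hgen : rrGenus k E = rrGenus Ω FM) (P : S.Pol)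
  [Algebra A₀ Fq₀] [IsScalarTower A₀ K₀ Fq₀] [Algebra A₀ E] [IsScalarTower A₀ k E]
  [Algebra.IsAlgebraic K₀ Ω] [CharZero K₀]

namespace SExt

theorem v_jq (j : Fin 2) : (X.CC j).v S₀.jq = 0 := by
  have h0 : S₀.jE ≠ 0 := fun h => jE_trans (S₀ := S₀) (h ▸ isAlgebraic_zero)
  match j with
  | 0 => exact X.v0_zero (SSD.hasRed_jq (S := S₀)).1 (fun h => h0 (Subtype.ext h))
  | 1 =>
    refine X.v1_zero (SSD.hasRed_jq (S := S₀)).2 (pow_ne_zero _ (fun h => h0 (Subtype.ext h)))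

theorem jq0_ne (X : SExt S₀ S) (hS : SP S.G) : S₀.jq ≠ 0 := fun h => (X.cm hS).t_ne h

theorem inv_tb0 : (X.cm hS).inv.tb 0 = (S₀.jE)⁻¹ := by
  have h1 : (X.cm hS).inv.tb 0 = (X.CC 0).r (S₀.jq⁻¹) := rfl
  rw [h1, Car.Comp.r_inv (X.v_jq 0), ← tb0 X hS]
  rfl

theorem mem_inv_B {x : Fq₀} : x ∈ (X.cm hS).inv.B ↔ x ∈ S₀.WW ∧ Reg Ω S.jq⁻¹ (X.Dq.emb x) := by
  rw [Car.CModel.mem_B]
  have h1 : (X.cm hS).inv.emb (X.cm hS).inv.t = S.jq⁻¹ := by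
    have : (X.cm hS).inv.emb (X.cm hS).inv.t = X.Dq.emb (S₀.jq⁻¹) := rfl
    rw [this, map_inv₀, X.emb_jq]
  rw [h1]
  rfl

include hgen in
theorem surj_inv (z : E) (hz : Reg k ((X.cm hS).inv.tb 0) z) :
    ∃ x ∈ (X.cm hS).inv.B, ((X.cm hS).inv.comp 0).r x = z := by
  rw [X.inv_tb0 hS] at hz
  obtain ⟨x, hx, hr⟩ := exists_lift_reg_inv X.B S₀.G hS X.DM X.coeM hgen hz
  refine ⟨S₀.inc x, ?_, X.r0_of (SSD.hasRed_inc (S := S₀) hx)⟩
  rw [X.mem_inv_B hS]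
  refine ⟨(SSD.hasRed_inc (S := S₀) hx).mem, ?_⟩
  rw [X.emb_inc]
  have h := reg_map S.inc (RR.transcendental_inv S.trans_jM) hr
  rw [map_inv₀, SSD.inc_jM] at h
  exact h

variable {X hS}

/-- behaviour of the modular unit at the cusps -/
structure MU.Cusp (V : X.MU hS) : Prop where
  reg : Reg Ω S.jq⁻¹ (X.Dq.emb V.U / S.jq ^ (q - 1))
  ord : ∀ Q : Place k E, Q.ord S₀.jE < 0 → Q.ord V.hs = ((q - 1 : ℕ) : ℤ) * Q.ord S₀.jE

variable (X hS)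

variable {V : X.MU hS} (VC : V.Cusp)

include VC in
theorem star_cusp {Q : Place k E} (hQ : Q.ord S₀.jE < 0) :
    ∃ u ∈ (X.cm hS).inv.B, ((X.cm hS).inv.comp 0).v u = 1 ∧
      ∃ z, Reg Ω ((X.cm hS).inv.emb (X.cm hS).inv.t) ((X.cm hS).inv.emb z) ∧
      ((X.cm hS).inv.comp 0).v z = -1 ∧
      (∀ l, l ≠ 0 → ((X.cm hS).inv.comp l).Ge 0 z) ∧
      val Q (((X.cm hS).inv.comp 0).r (u * z)) ≠ 0 := by
  have hqF : algebraMap K₀ Fq₀ (algebraMap A₀ K₀ (q : A₀)) ≠ 0 := by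
    rw [Ne, map_eq_zero, map_eq_zero_iff _ (IsFractionRing.injective A₀ K₀)]
    exact X.q_ne
  have hj0 := X.jq0_ne hS
  have hU := V.U_ne
  set c : Fq₀ := V.U * (S₀.jq ^ (q - 1))⁻¹ with hc
  have hc0 : c ≠ 0 := mul_ne_zero hU (inv_ne_zero (pow_ne_zero _ hj0))
  have hvc : ∀ i, (X.CC i).v c = (X.CC i).v V.U := by
    intro i
    rw [hc, Car.Comp.v_mul _ hU (inv_ne_zero (pow_ne_zero _ hj0)), Car.Comp.v_inv, Car.Comp.v_pow,
      X.v_jq]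
    ring
  have hreg : Reg Ω S.jq⁻¹ (X.Dq.emb c) := by
    have h := VC.reg
    rw [hc, map_mul, map_inv₀, map_pow, X.emb_jq]
    exact h
  have hvz : ∀ i, (X.CC i).v (algebraMap K₀ Fq₀ (algebraMap A₀ K₀ (q : A₀) ^ (-1 : ℤ))) = -1 := by
    intro i
    rw [zpow_neg_one, map_inv₀, Car.Comp.v_inv, X.v_q]
  have hne : algebraMap K₀ Fq₀ (algebraMap A₀ K₀ (q : A₀) ^ (-1 : ℤ)) ≠ 0 := by
    rw [zpow_neg_one, map_inv₀]
    exact inv_ne_zero hqF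
  have hz : algebraMap K₀ Fq₀ (algebraMap A₀ K₀ (q : A₀)) *
      (algebraMap K₀ Fq₀ (algebraMap A₀ K₀ (q : A₀) ^ (-1 : ℤ)) * c) = c := by
    rw [zpow_neg_one, map_inv₀, mul_inv_cancel_left₀ hqF]
  have hembt : (X.cm hS).inv.emb (X.cm hS).inv.t = S.jq⁻¹ := by
    have : (X.cm hS).inv.emb (X.cm hS).inv.t = X.Dq.emb (S₀.jq⁻¹) := rfl
    rw [this, map_inv₀, X.emb_jq]
  refine ⟨algebraMap K₀ Fq₀ (algebraMap A₀ K₀ (q : A₀)), ?_, X.v_q 0,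
    algebraMap K₀ Fq₀ (algebraMap A₀ K₀ (q : A₀) ^ (-1 : ℤ)) * c, ?_, ?_, ?_, ?_⟩
  · have := (X.cm hS).inv.algebraMap_mem_B (q : A₀)
    rw [aM_eq] at this
    exact this
  · rw [hembt]
    have e : (X.cm hS).inv.emb (algebraMap K₀ Fq₀ (algebraMap A₀ K₀ (q : A₀) ^ (-1 : ℤ)) * c) =
        X.Dq.emb (algebraMap K₀ Fq₀ (algebraMap A₀ K₀ (q : A₀) ^ (-1 : ℤ)) * c) := rfl
    rw [e, map_mul, X.Dq.hemb]
    exact (Reg.algebraMap _ _).mul hreg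
  · change (X.CC 0).v _ = -1
    rw [Car.Comp.v_mul _ hne hc0, hvz, hvc, V.v0, add_zero]
  · intro i hi
    right
    change 0 ≤ (X.CC i).v _
    rw [Car.Comp.v_mul _ hne hc0, hvz, hvc]
    match i with
    | 0 => exact absurd rfl hi
    | 1 =>
      rw [V.v1]
      norm_num
  · rw [hz]
    change val Q ((X.CC 0).r c) ≠ 0
    have hj : S₀.jE ≠ 0 := fun h => jE_trans (S₀ := S₀) (h ▸ isAlgebraic_zero)
    have hrj : (X.CC 0).r S₀.jq = S₀.jE := tb0 X hS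
    have hU0 : V.U ∈ (X.CC 0).W := Car.Comp.mem_of_v (by rw [V.v0])
    have hj0' : S₀.jq ∈ (X.CC 0).W := Car.Comp.mem_of_v (by rw [X.v_jq])
    have hr : (X.CC 0).r c = V.hs * (S₀.jE ^ (q - 1))⁻¹ := by
      rw [hc, Car.Comp.r_mul hU0 (Car.Comp.mem_of_v (by
        rw [Car.Comp.v_inv, Car.Comp.v_pow, X.v_jq]; norm_num)),
        Car.Comp.r_inv (by rw [Car.Comp.v_pow, X.v_jq, mul_zero]), Car.Comp.r_pow hj0', hrj, V.r0]
    have hord : Q.ord (V.hs * (S₀.jE ^ (q - 1))⁻¹) = 0 := by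
      rw [Place.ord_mul _ V.hs_ne (inv_ne_zero (pow_ne_zero _ hj)), Place.ord_inv, ord_pow,
        VC.ord Q hQ]
      ring
    rw [hr, Ne, val_eq_zero_iff (Ge.of_le hord.ge)]
    intro h1
    have h2 := h1.le_ord (mul_ne_zero V.hs_ne (inv_ne_zero (pow_ne_zero _ hj)))
    rw [hord] at h2
    exact absurd h2 (by norm_num)

include hgen P VC in
/-- the slopes on the first component -/
theorem slope0 {f : Fq₀} (hf0 : f ≠ 0) (hv : ∀ j, (X.CC j).v f = 0) {m : ℕ} (hm : m ≠ 0)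
    (hdvd : ∀ v : Place Ω Fq, (m : ℤ) ∣ v.ord (X.Dq.emb f)) (Q : Place k E) :
    (m : ℤ) ∣ Q.ord ((X.CC 0).r f) := by
  obtain ⟨D, hD⟩ := Car.exists_div_divisor hm hdvd
  have hD' : ∀ v, (m : ℤ) * D v = v.ord ((X.cm hS).emb f) := hD
  have hv' : ∀ j, ((X.cm hS).comp j).v f = 0 := hv
  by_cases hQ : 0 ≤ Q.ord S₀.jE
  · have hQ' : 0 ≤ Q.ord ((X.cm hS).tb 0) := (X.ord_tb hS 0 Q).2 hQ
    obtain ⟨s, hs, hsQ⟩ := (X.cm hS).exists_gen_at (X.good hS hgen P V) hf0 hv' hm hD' hQ'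
    exact CModel.dvd_ord (X.cm hS) hf0 hv' hm hD' hQ' hs hsQ
  · push Not at hQ
    have hQ' : 0 ≤ Q.ord ((X.cm hS).inv.tb 0) := by
      rw [X.inv_tb0 hS, Place.ord_inv]
      omega
    have hD'' : ∀ v, (m : ℤ) * D v = v.ord ((X.cm hS).inv.emb f) := hD
    have hv'' : ∀ j, ((X.cm hS).inv.comp j).v f = 0 := hv
    obtain ⟨s, hs, hsQ⟩ := CModel.exists_gen_at' (X.cm hS).inv hf0 hv'' hm hD''
      (X.surj_inv hS hgen) hQ' (X.star_cusp hS VC hQ)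
    exact CModel.dvd_ord (X.cm hS).inv hf0 hv'' hm hD'' hQ' hs hsQ

include hgen P VC in
/-- **the slopes** -/
theorem slope {f : Fq₀} (hf0 : f ≠ 0) (hv : ∀ j, (X.CC j).v f = 0) {m : ℕ} (hm : m ≠ 0)
    (hdvd : ∀ v : Place Ω Fq, (m : ℤ) ∣ v.ord (X.Dq.emb f)) (j : Fin 2) (Q : Place k E) :
    (m : ℤ) ∣ Q.ord ((X.CC j).r f) := by
  match j with
  | 0 => exact X.slope0 hS hgen P VC hf0 hv hm hdvd Q
  | 1 =>
    have hw0 : S₀.w f ≠ 0 := by rwa [Ne, map_eq_zero_iff _ S₀.w.injective]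
    have hr : (X.CC 0).r (S₀.w f) = (X.CC 1).r f := by
      apply X.r0_eq
      exact X.LR1 (Car.Comp.mem_of_v (hv 1).ge)
    rw [← hr]
    refine X.slope0 hS hgen P VC hw0 ?_ hm ?_ Q
    · rw [Fin.forall_fin_two]
      exact ⟨by rw [← X.v1_eq_w]; exact hv 1, by rw [← X.v0_eq_w]; exact hv 0⟩
    · intro v
      rw [← X.w]
      obtain ⟨x, hx0, hx1⟩ := exists_ord_eq v 1
      obtain ⟨u, e, he, h⟩ := exists_restrict (S.w : Fq →ₐ[Ω] Fq) v (j := S.w x) (by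
        change v.ord (S.w (S.w x)) ≠ 0
        rw [S.w_w, hx1]
        exact one_ne_zero)
      have hf' : X.Dq.emb f ≠ 0 := by rwa [Ne, map_eq_zero]
      have h2 : v.ord (S.w (X.Dq.emb f)) = e * u.ord (X.Dq.emb f) := h _ hf'
      rw [h2]
      exact Dvd.dvd.mul_left (hdvd u) e

end SExt

end

end Fermat.Agent.E2
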