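import Fermat.Agent.Nod.Kummer

/-!
# Automorphisms of a nodal model which exchange the two components
-/

set_option autoImplicit false
set_option linter.style.haveILetI false
set_option linter.unusedSectionVars false

namespace Fermat.Agent.E2

open AlgebraicCurve Fermat.Agent.Curve Fermat.Agent.RR Fermat.Agent.Red Module Polynomial
  IntermediateField Fermat.Agent.Nod

variable {A K F k E : Type*} [CommRing A] [IsDomain A] [ValuationRing A]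
  [Field K] [Algebra A K] [IsFractionRing A K] [Field F] [Algebra K F] [Algebra A F]
  [IsScalarTower A K F] [Field k] [Algebra A k] [Field E] [Algebra k E]
  [Algebra A E] [IsScalarTower A k E]
  [IsAlgClosed K] [IsAlgClosed k] [CharZero K] [FunField K F] [FunField k E]

variable {ι₀ : Type*} [Fintype ι₀] [Nonempty ι₀] {G : GaussData A K F k (E × E) ι₀}
  {hk : Function.Surjective (algebraMap A k)}
  {ι : Type*} [Finite ι] {𝒩 : Nodes k E E ι}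
  (hspan : ∀ x : F, ∃ q : K[X], q ≠ 0 ∧ ∃ P : ι₀ → K[X], aeval G.t q * x = G.comb P)
  (H : NodMod G hk hspan 𝒩)

variable (G hk 𝒩) in
/-- A semilinear automorphism of a nodal model which exchanges the two components and the two
branches at every node. -/
structure NodSwap where
  /-- the automorphism of the function field -/
  θ : SemilinearAut K F
  /-- the automorphism of the component -/
  g : SemilinearAut k E
  hW : ∀ x ∈ G.W, θ • x ∈ G.W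
  hW' : ∀ x ∈ G.W, θ⁻¹ • x ∈ G.W
  hπ : ∀ x (hx : x ∈ G.W), G.π ⟨θ • x, hW x hx⟩ = (g • (G.π ⟨x, hx⟩).2, g • (G.π ⟨x, hx⟩).1)
  /-- comparison of poles -/
  c : ℕ
  ht : ∀ v : Place K F, max (-v.ord G.t) 0 ≤ c * max (-(θ⁻¹ • v).ord G.t) 0
  hv : ∀ j : Nd G hk 𝒩, 𝒩.v j = g • 𝒩.w j
  hw : ∀ j : Nd G hk 𝒩, 𝒩.w j = g • 𝒩.v j

namespace NodSwap

variable (Θ : NodSwap G hk 𝒩)

theorem hπ' {x : F} (hx : x ∈ G.W) : G.π ⟨Θ.θ⁻¹ • x, Θ.hW' x hx⟩ =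
    (Θ.g⁻¹ • (G.π ⟨x, hx⟩).2, Θ.g⁻¹ • (G.π ⟨x, hx⟩).1) := by
  have h := Θ.hπ _ (Θ.hW' x hx)
  have e : (⟨Θ.θ • Θ.θ⁻¹ • x, Θ.hW _ (Θ.hW' x hx)⟩ : G.W) = ⟨x, hx⟩ :=
    Subtype.ext (smul_inv_smul _ _)
  rw [e] at h
  have h1 := congrArg Prod.fst h
  have h2 := congrArg Prod.snd h
  simp only at h1 h2
  rw [h1, h2, inv_smul_smul, inv_smul_smul]

theorem smul_ne_zero' {x : F} (hx : x ≠ 0) : Θ.θ • x ≠ 0 := (smul_ne_zero_iff_ne Θ.θ).2 hx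

theorem inv_smul_mem_L {a : ℕ} {D : Divisor K F} {x : F}
    (hx : x ∈ riemannRochSpace (DD K G.t a 0 - Θ.θ • D)) :
    Θ.θ⁻¹ • x ∈ riemannRochSpace (DD K G.t (a * Θ.c) 0 - D) := by
  rw [mem_L] at hx ⊢
  intro v
  have h := hx (Θ.θ • v)
  rw [Finsupp.sub_apply, SemilinearAut.divisor_smul_apply_smul] at h
  rw [ge_smul'] at h
  rw [Finsupp.sub_apply]
  refine h.mono ?_
  have h1 := Θ.ht (Θ.θ • v)
  rw [inv_smul_smul] at h1
  rw [DD_apply, DD_apply]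
  push_cast
  have ha : (0 : ℤ) ≤ a := by positivity
  nlinarith

variable {m : ℕ} {f f' : F} {D D' : Divisor K F} {γ γ' : E × E} {ζ ζ' : Nd G hk 𝒩 → k}

include hspan H in
/-- **Transport** of Kummer data under a semilinear automorphism exchanging the components. -/
theorem tw (hm : m ≠ 0) (T : TwData G hk 𝒩 m f D γ ζ) :
    TwData G hk 𝒩 m (Θ.θ • f) (Θ.θ • D) (Θ.g • γ.2, Θ.g • γ.1)
      (fun j => (SemilinearAut.baseAut Θ.g (ζ j))⁻¹) := by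
  refine TwData.mk0 hspan H hm (Θ.hW f T.hf) ?_ ?_ ?_ ?_ ?_ ?_
  · rw [Θ.hπ f T.hf, T.hπ]
    apply Prod.ext
    · exact smul_pow' _ _ _
    · exact smul_pow' _ _ _
  · intro v
    rw [SemilinearAut.divisor_smul_apply, T.hD]
    have := SemilinearAut.ord_smul Θ.θ (Θ.θ⁻¹ • v) f
    rw [smul_inv_smul] at this
    exact this.symm
  · exact (smul_ne_zero_iff_ne Θ.g).2 T.h2
  · exact (smul_ne_zero_iff_ne Θ.g).2 T.h1
  · intro j
    rw [inv_pow, ← map_pow, T.root, map_one, inv_one]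
  · intro a x hx hxL j
    have hx' : Θ.θ⁻¹ • x ∈ G.W := Θ.hW' x hx
    have h1 := T.tw _ 0 _ hx' (Θ.inv_smul_mem_L hxL) j
    obtain ⟨g1, g2, g3⟩ := h1
    rw [Θ.hπ' hx] at g1 g2 g3
    have hv : 𝒩.v j = Θ.g • 𝒩.w j := Θ.hv j
    have hw : 𝒩.w j = Θ.g • 𝒩.v j := Θ.hw j
    change Ge (𝒩.v j) 0 (γ.1⁻¹ * (Θ.g⁻¹ • (G.π ⟨x, hx⟩).2)) at g1
    change Ge (𝒩.w j) 0 (γ.2⁻¹ * (Θ.g⁻¹ • (G.π ⟨x, hx⟩).1)) at g2
    change val (𝒩.v j) (γ.1⁻¹ * (Θ.g⁻¹ • (G.π ⟨x, hx⟩).2)) =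
      ζ j * val (𝒩.w j) (γ.2⁻¹ * (Θ.g⁻¹ • (G.π ⟨x, hx⟩).1)) at g3
    have e1 : Θ.g • (γ.1⁻¹ * (Θ.g⁻¹ • (G.π ⟨x, hx⟩).2)) =
        (Θ.g • γ.1)⁻¹ * (G.π ⟨x, hx⟩).2 := by
      rw [smul_mul', smul_inv_smul, smul_inv'']
    have e2 : Θ.g • (γ.2⁻¹ * (Θ.g⁻¹ • (G.π ⟨x, hx⟩).1)) =
        (Θ.g • γ.2)⁻¹ * (G.π ⟨x, hx⟩).1 := by
      rw [smul_mul', smul_inv_smul, smul_inv'']
    have c1 := (ge_smul Θ.g).2 g1
    have c2 := (ge_smul Θ.g).2 g2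
    have d1 := val_gsmul Θ.g g1
    have d2 := val_gsmul Θ.g g2
    rw [e1, ← hw] at c1 d1
    rw [e2, ← hv] at c2 d2
    refine ⟨c2, c1, ?_⟩
    change val (𝒩.v j) ((Θ.g • γ.2)⁻¹ * (G.π ⟨x, hx⟩).1) = _ *
      val (𝒩.w j) ((Θ.g • γ.1)⁻¹ * (G.π ⟨x, hx⟩).2)
    have hz : SemilinearAut.baseAut Θ.g (ζ j) ≠ 0 :=
      (_root_.map_ne_zero _).2 (TwData.zeta_ne_zero hm T j)
    rw [d1, d2, g3, map_mul, inv_mul_cancel_left₀ hz]

include hspan H in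
/-- **Frobenius acts as `-Q` on the toric part**, when composed with an exchange of the
components. -/
theorem frob_fine (hA : ∃ t : A, t ≠ 0 ∧ ¬ IsUnit t)
    (hrank : ∀ a c : A, algebraMap A k a = 0 → c ≠ 0 → ∃ n : ℕ, c ∣ a ^ n) {Q : ℕ}
    (hQ : ∀ z : k, SemilinearAut.baseAut Θ.g z = z ^ Q)
    {m : ℕ} (hm : (m : k) ≠ 0) {u : F} (hu : u ∈ G.W) {γ : E × E}
    (hπ : G.π ⟨u, hu⟩ = γ ^ m) (h1 : γ.1 ≠ 0) (h2 : γ.2 ≠ 0)
    (hD : ∀ v : Place K F, (m : ℤ) ∣ v.ord u) :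
    ∃ x : F, x ^ m = (Θ.θ • u) * u ^ Q := by
  have hm0 : m ≠ 0 := by rintro rfl; simp at hm
  have hu0 := TwData.ne_zero_f hπ h1
  obtain ⟨D, hD'⟩ := exists_divisor hm0 hu0 hD
  obtain ⟨ζ, T⟩ := TwData.exists_tw hspan H hu hm0 hπ h1 h2 hD'
  have T' := Θ.tw hspan H hm0 T
  have T'' := TwData.pow hspan H hm0 (TwData.inv hspan H hm0 T) Q
  have e2 : (fun j => (SemilinearAut.baseAut Θ.g (ζ j))⁻¹) = ζ⁻¹ ^ Q := by
    funext j
    rw [hQ, Pi.pow_apply, Pi.inv_apply, inv_pow]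
  rw [e2] at T'
  obtain ⟨x, hx⟩ := TwData.exists_pow_eq_div hspan H hA hrank hm T'' T'
  refine ⟨x, ?_⟩
  rw [hx, inv_pow, div_inv_eq_mul]

end NodSwap

end Fermat.Agent.E2
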