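import Fermat.Agent.ThmC.Theta
import Fermat.Agent.SSH.Data
import Fermat.Agent.HeckeProd.Formal

/-!
# The theta operator and the Frobenius
-/

set_option autoImplicit false
set_option linter.style.haveILetI false
set_option linter.unusedSectionVars false

noncomputable section

namespace Fermat.Agent.E2

open ModularCurve Polynomial IntermediateField Fermat.Agent.ModPoly Fermat.Agent.Red
  Fermat.Agent.RedMod Fermat.Agent.Cov Fermat.Agent.SemiSt AlgebraicCurve Fermat.Agent.Curve
  Fermat.Agent.RR Fermat.Agent.SSH Fermat.Agent.ThmC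

section Basic

variable {K : Type*} [Field K]

theorem theta_pow' (x : LaurentSeries K) (n : ℕ) :
    theta (x ^ n) = HahnSeries.C (n : K) * (x ^ (n - 1) * theta x) := by
  induction n with
  | zero =>
    have : theta (1 : LaurentSeries K) = 0 := by
      rw [← map_one (HahnSeries.C : K →+* LaurentSeries K)]
      exact theta_C 1
    rw [pow_zero, this, Nat.cast_zero, map_zero, zero_mul]
  | succ n ih =>
    rw [pow_succ, theta_mul, ih, Nat.add_sub_cancel, Nat.cast_add, Nat.cast_one, map_add, map_one]
    rcases Nat.eq_zero_or_pos n with rfl | hn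
    · simp
    · have : x ^ n = x ^ (n - 1) * x := by rw [← pow_succ, Nat.sub_add_cancel hn]
      rw [this]
      ring

variable (q : ℕ) [NeZero q]

theorem theta_qExpand (x : LaurentSeries K) :
    theta (qExpand K q x) = HahnSeries.C (q : K) * qExpand K q (theta x) := by
  ext n
  rw [theta_coeff, HahnSeries.C_mul_eq_smul, HahnSeries.coeff_smul, smul_eq_mul]
  by_cases hn : (q : ℤ) ∣ n
  · obtain ⟨m, rfl⟩ := hn
    rw [qExpand_coeff_mul, qExpand_coeff_mul, theta_coeff]
    push_cast
    ring
  · rw [qExpand_coeff_of_not_dvd q _ hn, qExpand_coeff_of_not_dvd q _ hn]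
    ring

end Basic

section Char

variable {k : Type*} [Field k] {q : ℕ} [hq : Fact q.Prime] [CharP k q]

/-- if `a(τ q) = b(τ)^q` then the same holds for derivatives -/
theorem theta_frob {a b : LaurentSeries k} (h : qExpand k q a = b ^ q) :
    qExpand k q (theta a) = theta b ^ q := by
  have h1 := HeckeProd.pow_eq_qExpand q b
  rw [h1] at h
  have h2 : a = HeckeProd.Fr q b := (qExpand k q).injective h
  have h3 : theta a = HeckeProd.Fr q (theta b) := by
    rw [h2]
    ext n
    rw [theta_coeff]
    change (n : k) * (coeffMap (frobenius k q) b).coeff n =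
      (coeffMap (frobenius k q) (theta b)).coeff n
    rw [coeffMap_coeff, coeffMap_coeff, theta_coeff, map_mul, map_intCast]
  rw [h3, ← HeckeProd.pow_eq_qExpand q]

end Char

section Red

variable {A K k : Type*} [CommRing A] [IsDomain A] [ValuationRing A]
  [Field K] [CharZero K] [Algebra A K] [IsFractionRing A K] [Field k] [Algebra A k]
  {q : ℕ} [hq : Fact q.Prime] [CharP k q]

theorem LR_theta {x : LaurentSeries K} {a : LaurentSeries k} (h : LR A x a) :
    LR A (theta x) (theta a) := by
  obtain ⟨h1, rfl⟩ := h
  exact ⟨theta_mem_WL h1, πL_theta h1 _⟩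

/-- the derivative of `(x(q τ) - y(τ)^q) / q` -/
theorem theta_rho {x y ρ : LaurentSeries K} {a b r : LaurentSeries k} (hx : LR A x a)
    (hy : LR A y b) (hρ : LR A ρ r)
    (h : HahnSeries.C (q : K) * ρ = qExpand K q x - y ^ q)
    (hab : qExpand k q a = b ^ q) : theta r = theta b ^ q - b ^ (q - 1) * theta b := by
  have hq0 : (HahnSeries.C (q : K) : LaurentSeries K) ≠ 0 := by
    rw [Ne, map_eq_zero]
    exact_mod_cast hq.out.ne_zero
  have h1 : HahnSeries.C (q : K) * theta ρ = HahnSeries.C (q : K) *
      (qExpand K q (theta x) - y ^ (q - 1) * theta y) := by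
    have h2 := congrArg theta h
    rw [theta_mul, theta_C, zero_mul, zero_add, map_sub, theta_qExpand, theta_pow'] at h2
    rw [h2]
    ring
  have h2 := mul_left_cancel₀ hq0 h1
  have h3 := LR_theta hρ
  have h4 : LR A (theta ρ) (qExpand k q (theta a) - b ^ (q - 1) * theta b) := by
    rw [h2]
    exact ((LR_theta hx).exp).sub ((hy.pow _).mul (LR_theta hy))
  rw [h3.unique h4, theta_frob hab]

end Red

end Fermat.Agent.E2
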